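/-
S23 project, route B (captain helper97), module M01: shared definitions (verbatim from
`S23y/Spec.lean`) and basic API.  Namespace `Fermat.Agent.S23y`.
-/
import Mathlib
import Fermat.Prelude.Def_CuspForm_IntegralStructure
import Fermat.Prelude.Def_CuspForm_HeckeAlgebra
import Fermat.Prelude.Thm_CongruenceSubgroup_one_mem_strictPeriods_Gamma0

set_option autoImplicit false

namespace Fermat.Agent.S23y

open UpperHalfPlane ModularForm ModularFormClass
open scoped MatrixGroups Manifold ModularForm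

/-- `f` is the underlying function of a holomorphic modular form of weight `k` on `Γ`. -/
def IsMF (Γ : Subgroup (GL (Fin 2) ℝ)) (k : ℤ) (f : ℍ → ℂ) : Prop :=
  ∃ F : ModularForm Γ k, ⇑F = f

/-- `f` is the underlying function of a cusp form of weight `k` on `Γ`. -/
def IsCF (Γ : Subgroup (GL (Fin 2) ℝ)) (k : ℤ) (f : ℍ → ℂ) : Prop :=
  ∃ F : CuspForm Γ k, ⇑F = f

/-- `Γ₀(N)` inside `GL₂(ℝ)`. -/
abbrev G0 (N : ℕ) : Subgroup (GL (Fin 2) ℝ) :=
  ((CongruenceSubgroup.Gamma0 N : Subgroup SL(2, ℤ)) : Subgroup (GL (Fin 2) ℝ))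

/-- The index of `Γ₀(N)` in `SL₂(ℤ)`. -/
noncomputable def psi (N : ℕ) : ℕ := (CongruenceSubgroup.Gamma0 N).index

/-- `z ↦ N z` on the upper half plane. -/
noncomputable def scaleH (N : ℕ) [NeZero N] (z : ℍ) : ℍ :=
  ⟨(N : ℂ) * z, by
    have h : 0 < (N : ℝ) := by exact_mod_cast Nat.pos_of_ne_zero (NeZero.ne N)
    simpa using mul_pos h z.im_pos⟩

/-- `Δ(N z)`. -/
noncomputable def DeltaN (N : ℕ) [NeZero N] : ℍ → ℂ := fun z => ModularForm.discriminant (scaleH N z)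

/-- weights of the three generators `E₄, E₆, Δ_N`. -/
def wt : Fin 3 → ℕ := ![4, 6, 12]

/-- the three generators evaluated at `z`. -/
noncomputable def gens (N : ℕ) [NeZero N] (z : ℍ) : Fin 3 → ℂ := ![E₄ z, E₆ z, DeltaN N z]

/-- evaluation of a polynomial in the generators. -/
noncomputable def ev (N : ℕ) [NeZero N] (P : MvPolynomial (Fin 3) ℂ) : ℍ → ℂ :=
  fun z => MvPolynomial.eval (gens N z) P


/-! ## Basic API (module M01) -/

section API

variable {Γ : Subgroup (GL (Fin 2) ℝ)} {k l : ℤ} {f g : ℍ → ℂ}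

theorem IsMF.mdiff (hf : IsMF Γ k f) : MDiff f := by
  obtain ⟨F, rfl⟩ := hf
  exact ModularFormClass.holo F

theorem IsMF.slash_eq (hf : IsMF Γ k f) {γ : GL (Fin 2) ℝ} (hγ : γ ∈ Γ) : f ∣[k] γ = f := by
  obtain ⟨F, rfl⟩ := hf
  exact SlashInvariantFormClass.slash_action_eq F γ hγ

theorem IsMF.congr_weight (h : k = l) (hf : IsMF Γ k f) : IsMF Γ l f := h ▸ hf

theorem isMF_zero : IsMF Γ k (0 : ℍ → ℂ) := ⟨0, rfl⟩

theorem IsMF.add (hf : IsMF Γ k f) (hg : IsMF Γ k g) : IsMF Γ k (f + g) := by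
  obtain ⟨F, rfl⟩ := hf
  obtain ⟨G, rfl⟩ := hg
  exact ⟨F + G, rfl⟩

theorem IsMF.neg (hf : IsMF Γ k f) : IsMF Γ k (-f) := by
  obtain ⟨F, rfl⟩ := hf
  exact ⟨-F, rfl⟩

theorem IsMF.sub (hf : IsMF Γ k f) (hg : IsMF Γ k g) : IsMF Γ k (f - g) := by
  obtain ⟨F, rfl⟩ := hf
  obtain ⟨G, rfl⟩ := hg
  exact ⟨F - G, rfl⟩

/-- NOTE: complex scalars need `Γ.HasDetOne` (true for `G0 N` and `𝒮ℒ`). -/
theorem IsMF.smul [Γ.HasDetOne] (c : ℂ) (hf : IsMF Γ k f) : IsMF Γ k (c • f) := by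
  obtain ⟨F, rfl⟩ := hf
  exact ⟨c • F, rfl⟩

theorem IsMF.sum {ι : Type*} (s : Finset ι) (F : ι → ℍ → ℂ) (h : ∀ i ∈ s, IsMF Γ k (F i)) :
    IsMF Γ k (∑ i ∈ s, F i) := by
  classical
  induction s using Finset.induction_on with
  | empty => simpa using isMF_zero
  | insert a s ha ih =>
    rw [Finset.sum_insert ha]
    exact (h a (Finset.mem_insert_self a s)).add
      (ih fun i hi => h i (Finset.mem_insert_of_mem hi))

theorem IsMF.mul [Γ.HasDetPlusMinusOne] (hf : IsMF Γ k f) (hg : IsMF Γ l g) :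
    IsMF Γ (k + l) (f * g) := by
  obtain ⟨F, rfl⟩ := hf
  obtain ⟨G, rfl⟩ := hg
  exact ⟨F.mul G, rfl⟩

theorem IsMF.pow [Γ.HasDetPlusMinusOne] (hf : IsMF Γ k f) (n : ℕ) : IsMF Γ (n * k) (f ^ n) := by
  obtain ⟨F, rfl⟩ := hf
  exact ⟨F.pow n, ModularForm.coe_pow F n⟩

theorem isMF_const [Γ.HasDetOne] (c : ℂ) : IsMF Γ 0 (fun _ => c) :=
  ⟨ModularForm.const c, rfl⟩

theorem isMF_one [Γ.HasDetPlusMinusOne] : IsMF Γ 0 (1 : ℍ → ℂ) :=
  ⟨1, ModularForm.one_coe_eq_one⟩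

theorem IsCF.isMF (hf : IsCF Γ k f) : IsMF Γ k f := by
  obtain ⟨F, rfl⟩ := hf
  exact ⟨{ toFun := F
           slash_action_eq' := SlashInvariantFormClass.slash_action_eq F
           holo' := ModularFormClass.holo F
           bdd_at_cusps' := fun hc => ModularFormClass.bdd_at_cusps F hc }, rfl⟩

theorem IsCF.mdiff (hf : IsCF Γ k f) : MDiff f := hf.isMF.mdiff

/-- Restriction of the level: a form on `Γ` is a form on every subgroup `Γ' ≤ Γ`. -/
theorem IsMF.of_le {Γ' : Subgroup (GL (Fin 2) ℝ)} (hle : Γ' ≤ Γ) (hf : IsMF Γ k f) :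
    IsMF Γ' k f := by
  obtain ⟨F, rfl⟩ := hf
  exact ⟨{ toFun := F
           slash_action_eq' := fun γ hγ => SlashInvariantFormClass.slash_action_eq F γ (hle hγ)
           holo' := ModularFormClass.holo F
           bdd_at_cusps' := fun hc => ModularFormClass.bdd_at_cusps F (hc.mono hle) }, rfl⟩

theorem IsCF.of_le {Γ' : Subgroup (GL (Fin 2) ℝ)} (hle : Γ' ≤ Γ) (hf : IsCF Γ k f) :
    IsCF Γ' k f := by
  obtain ⟨F, rfl⟩ := hf
  exact ⟨{ toFun := F
           slash_action_eq' := fun γ hγ => SlashInvariantFormClass.slash_action_eq F γ (hle hγ)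
           holo' := CuspFormClass.holo F
           zero_at_cusps' := fun hc => CuspFormClass.zero_at_cusps F (hc.mono hle) }, rfl⟩

theorem IsMF.prod [Γ.HasDetPlusMinusOne] {ι : Type*} (s : Finset ι) (κ : ι → ℤ) (F : ι → ℍ → ℂ)
    (h : ∀ i ∈ s, IsMF Γ (κ i) (F i)) : IsMF Γ (∑ i ∈ s, κ i) (∏ i ∈ s, F i) := by
  classical
  induction s using Finset.induction_on with
  | empty => simpa using (isMF_one : IsMF Γ 0 (1 : ℍ → ℂ))
  | insert a s ha ih =>
    rw [Finset.sum_insert ha, Finset.prod_insert ha]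
    exact (h a (Finset.mem_insert_self a s)).mul
      (ih fun i hi => h i (Finset.mem_insert_of_mem hi))

/-- General version: `IsMF` functions on an arithmetic group are bounded at `i∞` after slashing
by any `γ : SL(2, ℤ)`. -/
theorem IsMF.isBoundedAtImInfty_slash' [Γ.IsArithmetic] (hf : IsMF Γ k f) (γ : SL(2, ℤ)) :
    IsBoundedAtImInfty (f ∣[k] γ) := by
  obtain ⟨F, rfl⟩ := hf
  exact ModularFormClass.bdd_at_infty_slash F γ

/-- General version: analyticity of the cusp function at `0`. -/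
theorem IsMF.analyticAt_cuspFunction' {h : ℝ} (hf : IsMF Γ k f) (hh : 0 < h)
    (hΓ : h ∈ Γ.strictPeriods) : AnalyticAt ℂ (cuspFunction h f) 0 := by
  obtain ⟨F, rfl⟩ := hf
  exact ModularFormClass.analyticAt_cuspFunction_zero F hh hΓ

theorem IsMF.periodic_comp_ofComplex {h : ℝ} (hf : IsMF Γ k f) (hΓ : h ∈ Γ.strictPeriods) :
    Function.Periodic (f ∘ UpperHalfPlane.ofComplex) h := by
  obtain ⟨F, rfl⟩ := hf
  exact SlashInvariantFormClass.periodic_comp_ofComplex F hΓ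

theorem G0_le_SL (N : ℕ) : G0 N ≤ 𝒮ℒ := Subgroup.map_le_range _ _

end API

section LevelN

variable (N : ℕ) {k l : ℤ} {f g : ℍ → ℂ}

/-- A3b: level one forms are forms on `Γ₀(N)`. -/
theorem IsMF.of_levelOne (hf : IsMF 𝒮ℒ k f) : IsMF (G0 N) k f := hf.of_le (G0_le_SL N)

theorem IsCF.of_levelOne (hf : IsCF 𝒮ℒ k f) : IsCF (G0 N) k f := hf.of_le (G0_le_SL N)

theorem one_mem_strictPeriods_G0 : (1 : ℝ) ∈ (G0 N).strictPeriods :=
  CongruenceSubgroup.one_mem_strictPeriods_Gamma0 N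

theorem one_mem_strictPeriods_SL : (1 : ℝ) ∈ (𝒮ℒ : Subgroup (GL (Fin 2) ℝ)).strictPeriods := by
  rw [Subgroup.strictPeriods_SL2Z]
  exact AddSubgroup.mem_zmultiples 1

/-- `IsMF` functions on `Γ₀(N)` are bounded at `i∞` after slashing by any `γ : SL(2, ℤ)`. -/
theorem IsMF.isBoundedAtImInfty_slash [NeZero N] (hf : IsMF (G0 N) k f) (γ : SL(2, ℤ)) :
    IsBoundedAtImInfty (f ∣[k] γ) := by
  obtain ⟨F, rfl⟩ := hf
  exact ModularFormClass.bdd_at_infty_slash F γ

theorem IsMF.isBoundedAtImInfty [NeZero N] (hf : IsMF (G0 N) k f) : IsBoundedAtImInfty f := by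
  obtain ⟨F, rfl⟩ := hf
  exact ModularFormClass.bdd_at_infty F

/-- The cusp function (period `1`) of an `IsMF` function on `Γ₀(N)` is analytic at `0`. -/
theorem IsMF.analyticAt_cuspFunction (hf : IsMF (G0 N) k f) :
    AnalyticAt ℂ (cuspFunction 1 f) 0 := by
  obtain ⟨F, rfl⟩ := hf
  exact ModularFormClass.analyticAt_cuspFunction_zero F one_pos (one_mem_strictPeriods_G0 N)

/-- A3e: a form on `Γ₀(N)` with vanishing `q`-expansion vanishes. -/
theorem IsMF.eq_zero_of_qExpansion (hf : IsMF (G0 N) k f) (h : qExpansion 1 f = 0) : f = 0 := by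
  obtain ⟨F, rfl⟩ := hf
  have := (ModularForm.qExpansion_eq_zero_iff one_pos (one_mem_strictPeriods_G0 N) F).mp h
  rw [this]
  rfl

theorem IsMF.qExpansion_mul (hf : IsMF (G0 N) k f) (hg : IsMF (G0 N) l g) :
    qExpansion 1 (f * g) = qExpansion 1 f * qExpansion 1 g :=
  UpperHalfPlane.qExpansion_mul (hf.analyticAt_cuspFunction N) (hg.analyticAt_cuspFunction N)

theorem IsMF.qExpansion_add (hf : IsMF (G0 N) k f) (hg : IsMF (G0 N) l g) :
    qExpansion 1 (f + g) = qExpansion 1 f + qExpansion 1 g :=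
  UpperHalfPlane.qExpansion_add (hf.analyticAt_cuspFunction N) (hg.analyticAt_cuspFunction N)

theorem IsMF.qExpansion_sub (hf : IsMF (G0 N) k f) (hg : IsMF (G0 N) l g) :
    qExpansion 1 (f - g) = qExpansion 1 f - qExpansion 1 g :=
  UpperHalfPlane.qExpansion_sub (hf.analyticAt_cuspFunction N) (hg.analyticAt_cuspFunction N)

theorem IsMF.qExpansion_smul (hf : IsMF (G0 N) k f) (c : ℂ) :
    qExpansion 1 (c • f) = c • qExpansion 1 f :=
  UpperHalfPlane.qExpansion_smul (hf.analyticAt_cuspFunction N) c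

theorem IsMF.qExpansion_neg (hf : IsMF (G0 N) k f) :
    qExpansion 1 (-f) = -qExpansion 1 f :=
  UpperHalfPlane.qExpansion_neg (hf.analyticAt_cuspFunction N)

theorem IsMF.qExpansion_pow (hf : IsMF (G0 N) k f) (n : ℕ) :
    qExpansion 1 (f ^ n) = qExpansion 1 f ^ n := by
  induction n with
  | zero => simpa using UpperHalfPlane.qExpansion_one 1
  | succ n ih =>
    rw [pow_succ, pow_succ, (hf.pow n).qExpansion_mul N hf, ih]

/-- Two forms on `Γ₀(N)` (possibly of different weights) with the same `q`-expansion agree. -/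
theorem IsMF.eq_of_qExpansion_eq [NeZero N] (hf : IsMF (G0 N) k f) (hg : IsMF (G0 N) l g)
    (h : qExpansion 1 f = qExpansion 1 g) : f = g := by
  have hper : ∀ {m : ℤ} {u : ℍ → ℂ}, IsMF (G0 N) m u →
      Function.Periodic (u ∘ UpperHalfPlane.ofComplex) 1 := by
    intro m u hu
    obtain ⟨U, rfl⟩ := hu
    exact SlashInvariantFormClass.periodic_comp_ofComplex U (one_mem_strictPeriods_G0 N)
  ext z
  have h1 := (hasSum_qExpansion one_pos (hper hf) hf.mdiff (hf.isBoundedAtImInfty N) z).tsum_eq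
  have h2 := (hasSum_qExpansion one_pos (hper hg) hg.mdiff (hg.isBoundedAtImInfty N) z).tsum_eq
  rw [← h1, ← h2, h]

end LevelN

section Domain

/-- Holomorphic functions on `ℍ` form a domain. -/
theorem mdiff_mul_eq_zero {f g : ℍ → ℂ} (hf : MDiff f) (hg : MDiff g) (h : f * g = 0) :
    f = 0 ∨ g = 0 := by
  rw [UpperHalfPlane.mdifferentiable_iff] at hf hg
  have hfa := hf.analyticOnNhd UpperHalfPlane.isOpen_upperHalfPlaneSet
  have hga := hg.analyticOnNhd UpperHalfPlane.isOpen_upperHalfPlaneSet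
  have hpre : IsPreconnected {z : ℂ | 0 < z.im} :=
    (convex_halfSpace_im_gt 0).isPreconnected
  have hfg : ∀ z ∈ {z : ℂ | 0 < z.im}, (f ∘ ofComplex) z * (g ∘ ofComplex) z = 0 := by
    intro z _
    have := congrFun h (ofComplex z)
    simpa using this
  rcases hfa.eq_zero_or_eq_zero_of_mul_eq_zero hga hfg hpre with h1 | h1
  · left
    ext z
    have := h1 (z : ℂ) z.im_pos
    simpa [ofComplex_apply] using this
  · right
    ext z
    have := h1 (z : ℂ) z.im_pos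
    simpa [ofComplex_apply] using this

/-- holomorphic functions on `ℍ` form a domain (stated for forms, Spec signature). -/
theorem IsMF.eq_zero_or_eq_zero_of_mul_eq_zero (N : ℕ) {k l : ℤ} {f g : ℍ → ℂ}
    (hf : IsMF (G0 N) k f) (hg : IsMF (G0 N) l g) (h : f * g = 0) : f = 0 ∨ g = 0 :=
  mdiff_mul_eq_zero hf.mdiff hg.mdiff h

/-- General version for any two groups. -/
theorem IsMF.eq_zero_or_eq_zero_of_mul_eq_zero' {Γ Γ' : Subgroup (GL (Fin 2) ℝ)} {k l : ℤ}
    {f g : ℍ → ℂ} (hf : IsMF Γ k f) (hg : IsMF Γ' l g) (h : f * g = 0) : f = 0 ∨ g = 0 :=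
  mdiff_mul_eq_zero hf.mdiff hg.mdiff h

theorem psi_pos (N : ℕ) [NeZero N] : 0 < psi N := by
  unfold psi
  exact Nat.pos_of_ne_zero Subgroup.FiniteIndex.index_ne_zero

example (N : ℕ) {k : ℤ} {f : ℍ → ℂ} (c : ℂ) (hf : IsMF (G0 N) k f) : IsMF (G0 N) k (c • f) :=
  hf.smul c

example {k : ℤ} {f : ℍ → ℂ} (c : ℂ) (hf : IsMF 𝒮ℒ k f) : IsMF 𝒮ℒ k (c • f) :=
  hf.smul c

example (N : ℕ) {k l : ℤ} {f g : ℍ → ℂ} (hf : IsMF (G0 N) k f) (hg : IsMF (G0 N) l g) :
    IsMF (G0 N) (k + l) (f * g) := hf.mul hg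

end Domain

end Fermat.Agent.S23y
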