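import Mathlib
import Fermat.Agent.S23y.Defs

/-!
# Conjugates of `Δ(N z)` under `SL(2, ℤ)` (S23 project, route B, module E2_CONJ)

For `γ ∈ SL(2, ℤ)` the slash `Δ_N ∣[12] γ` of `Δ_N(z) = Δ(N z)` equals
`d ^ (-12) * Δ((a z + b) / d)` for some integers `a, d > 0`, `a * d = N`, `b`
(Hermite normal form of `diag(N, 1) * γ`). Comparing leading asymptotics at `i∞`, two
such slashes coincide only if the two elements are in the same coset of `Γ₀(N)`.
Finally there is a point of the upper half plane where a given nonzero holomorphic function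
does not vanish and the `psi N` conjugates of `Δ_N` take pairwise distinct values.

Main statements: `slash_DeltaN`, `slash_DeltaN_eq_imp`, `exists_point_distinct`.
-/

set_option autoImplicit false

namespace Fermat.Agent.S23y

open UpperHalfPlane ModularForm CongruenceSubgroup Filter Topology
open scoped MatrixGroups ModularForm Manifold Real

local notation "Δ" => ModularForm.discriminant


/-- Multiplication by `N` on the upper half plane. -/
noncomputable def cjMulN (N : ℕ) [NeZero N] (z : ℍ) : ℍ :=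
  ⟨(N : ℂ) * z, by
    have hN : (0 : ℝ) < N := Nat.cast_pos.mpr (NeZero.pos N)
    simpa using mul_pos hN z.im_pos⟩

@[simp] theorem cjMulN_coe (N : ℕ) [NeZero N] (z : ℍ) : ((cjMulN N z : ℍ) : ℂ) = (N : ℂ) * z := rfl

/-- The point `(a z + b) / d` of the upper half plane (`a, d > 0`). -/
noncomputable def cjUpper (a b d : ℤ) (ha : 0 < a) (hd : 0 < d) (z : ℍ) : ℍ :=
  ⟨((a : ℂ) * z + b) / d, by
    have ha' : (0 : ℝ) < a := by exact_mod_cast ha
    have hd' : (0 : ℝ) < d := by exact_mod_cast hd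
    have : (((a : ℂ) * z + b) / d).im = (a : ℝ) * z.im / d := by
      have h1 : ((a : ℂ) * z + b) / d = (((a : ℝ) : ℂ) * z + ((b : ℝ) : ℂ)) / ((d : ℝ) : ℂ) := by
        push_cast; rfl
      rw [h1, Complex.div_ofReal_im]
      simp
    rw [this]
    exact div_pos (mul_pos ha' z.im_pos) hd'⟩

@[simp] theorem cjUpper_coe (a b d : ℤ) (ha : 0 < a) (hd : 0 < d) (z : ℍ) :
    ((cjUpper a b d ha hd z : ℍ) : ℂ) = ((a : ℂ) * z + b) / d := rfl

theorem cjUpper_im (a b d : ℤ) (ha : 0 < a) (hd : 0 < d) (z : ℍ) :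
    (cjUpper a b d ha hd z).im = (a : ℝ) * z.im / d := by
  change (((a : ℂ) * z + b) / d).im = _
  have h1 : ((a : ℂ) * z + b) / d = (((a : ℝ) : ℂ) * z + ((b : ℝ) : ℂ)) / ((d : ℝ) : ℂ) := by
    push_cast; rfl
  rw [h1, Complex.div_ofReal_im]
  simp

/-- Bezout for the first column. -/
theorem cj_bezout_column (a c : ℤ) (h : ¬ (a = 0 ∧ c = 0)) :
    ∃ e a' c' x y : ℤ, 0 < e ∧ a = e * a' ∧ c = e * c' ∧ a' * x + c' * y = 1 := by
  have he0 : (Int.gcd a c : ℤ) ≠ 0 := by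
    intro h0
    exact h (Int.gcd_eq_zero_iff.mp (by exact_mod_cast h0))
  have hepos : (0 : ℤ) < (Int.gcd a c : ℤ) := lt_of_le_of_ne (by positivity) (Ne.symm he0)
  obtain ⟨a', ha'⟩ : (Int.gcd a c : ℤ) ∣ a := Int.gcd_dvd_left a c
  obtain ⟨c', hc'⟩ : (Int.gcd a c : ℤ) ∣ c := Int.gcd_dvd_right a c
  refine ⟨Int.gcd a c, a', c', Int.gcdA a c, Int.gcdB a c, hepos, ha', hc', ?_⟩
  have hbez : (Int.gcd a c : ℤ) = a * Int.gcdA a c + c * Int.gcdB a c := Int.gcd_eq_gcd_ab a c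
  apply mul_left_cancel₀ he0
  calc (Int.gcd a c : ℤ) * (a' * Int.gcdA a c + c' * Int.gcdB a c)
      = ((Int.gcd a c : ℤ) * a') * Int.gcdA a c + ((Int.gcd a c : ℤ) * c') * Int.gcdB a c := by
        ring
    _ = a * Int.gcdA a c + c * Int.gcdB a c := by rw [← ha', ← hc']
    _ = (Int.gcd a c : ℤ) * 1 := by rw [mul_one]; exact hbez.symm

/-- Hermite normal form of `diag(N, 1) * γ`, in coordinates. -/
theorem cj_hermite (N : ℕ) [NeZero N] (γ : SL(2, ℤ)) :
    ∃ (δ : SL(2, ℤ)) (a b d : ℤ), 0 < a ∧ 0 < d ∧ a * d = N ∧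
      (N : ℤ) * γ 0 0 = δ 0 0 * a ∧ (N : ℤ) * γ 0 1 = δ 0 0 * b + δ 0 1 * d ∧
      γ 1 0 = δ 1 0 * a ∧ γ 1 1 = δ 1 0 * b + δ 1 1 * d := by
  have hdet : γ 0 0 * γ 1 1 - γ 0 1 * γ 1 0 = 1 := by
    have := γ.2
    rw [Matrix.det_fin_two] at this
    exact this
  have hN : (0 : ℤ) < N := by exact_mod_cast NeZero.pos N
  have hcol : ¬ ((N : ℤ) * γ 0 0 = 0 ∧ γ 1 0 = 0) := by
    rintro ⟨h1, h2⟩
    have h3 : γ 0 0 = 0 := by
      rcases mul_eq_zero.mp h1 with h | h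
      · omega
      · exact h
    rw [h3, h2] at hdet
    simp at hdet
  obtain ⟨e, a', c', x, y, hepos, ha, hc, hone⟩ := cj_bezout_column _ _ hcol
  let δ : SL(2, ℤ) := ⟨!![a', -y; c', x], by rw [Matrix.det_fin_two_of]; linarith⟩
  have hδ00 : δ 0 0 = a' := rfl
  have hδ01 : δ 0 1 = -y := rfl
  have hδ10 : δ 1 0 = c' := rfl
  have hδ11 : δ 1 1 = x := rfl
  have had : e * (a' * γ 1 1 - c' * ((N : ℤ) * γ 0 1)) = N := by
    have : e * (a' * γ 1 1 - c' * ((N : ℤ) * γ 0 1))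
        = (e * a') * γ 1 1 - (e * c') * ((N : ℤ) * γ 0 1) := by ring
    rw [this, ← ha, ← hc]
    have : (N : ℤ) * γ 0 0 * γ 1 1 - γ 1 0 * ((N : ℤ) * γ 0 1)
        = N * (γ 0 0 * γ 1 1 - γ 0 1 * γ 1 0) := by ring
    rw [this, hdet, mul_one]
  have hdpos : 0 < a' * γ 1 1 - c' * ((N : ℤ) * γ 0 1) := by
    by_contra hneg
    push Not at hneg
    have : e * (a' * γ 1 1 - c' * ((N : ℤ) * γ 0 1)) ≤ 0 :=
      mul_nonpos_of_nonneg_of_nonpos hepos.le hneg
    omega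
  refine ⟨δ, e, x * ((N : ℤ) * γ 0 1) + y * γ 1 1, a' * γ 1 1 - c' * ((N : ℤ) * γ 0 1),
    hepos, hdpos, had, ?_, ?_, ?_, ?_⟩
  · rw [hδ00, ha]; ring
  · rw [hδ00, hδ01]
    have : a' * (x * ((N : ℤ) * γ 0 1) + y * γ 1 1) + -y * (a' * γ 1 1 - c' * ((N : ℤ) * γ 0 1))
        = (N : ℤ) * γ 0 1 * (a' * x + c' * y) := by ring
    rw [this, hone, mul_one]
  · rw [hδ10, hc]; ring
  · rw [hδ10, hδ11]
    have : c' * (x * ((N : ℤ) * γ 0 1) + y * γ 1 1) + x * (a' * γ 1 1 - c' * ((N : ℤ) * γ 0 1))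
        = γ 1 1 * (a' * x + c' * y) := by ring
    rw [this, hone, mul_one]

/-- Hermite data for `γ`: `diag(N,1) * γ = δ * !![a, b; 0, d]`. -/
structure CjData (N : ℕ) (γ δ : SL(2, ℤ)) (a b d : ℤ) : Prop where
  ha : 0 < a
  hd : 0 < d
  had : a * d = N
  h00 : (N : ℤ) * γ 0 0 = δ 0 0 * a
  h01 : (N : ℤ) * γ 0 1 = δ 0 0 * b + δ 0 1 * d
  h10 : γ 1 0 = δ 1 0 * a
  h11 : γ 1 1 = δ 1 0 * b + δ 1 1 * d

theorem cj_exists_data (N : ℕ) [NeZero N] (γ : SL(2, ℤ)) :
    ∃ (δ : SL(2, ℤ)) (a b d : ℤ), CjData N γ δ a b d := by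
  obtain ⟨δ, a, b, d, ha, hd, had, h00, h01, h10, h11⟩ := cj_hermite N γ
  exact ⟨δ, a, b, d, ⟨ha, hd, had, h00, h01, h10, h11⟩⟩

theorem cj_mulN_smul (N : ℕ) [NeZero N] (γ δ : SL(2, ℤ)) (a b d : ℤ) (ha : 0 < a) (hd : 0 < d)
    (h00 : (N : ℤ) * γ 0 0 = δ 0 0 * a) (h01 : (N : ℤ) * γ 0 1 = δ 0 0 * b + δ 0 1 * d)
    (h10 : γ 1 0 = δ 1 0 * a) (h11 : γ 1 1 = δ 1 0 * b + δ 1 1 * d) (z : ℍ) :
    denom δ (cjUpper a b d ha hd z) = denom γ z / d ∧
    cjMulN N (γ • z) = δ • cjUpper a b d ha hd z := by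
  have hdC : (d : ℂ) ≠ 0 := by exact_mod_cast hd.ne'
  have e00 : (N : ℂ) * (γ 0 0 : ℂ) = (δ 0 0 : ℂ) * a := by exact_mod_cast h00
  have e01 : (N : ℂ) * (γ 0 1 : ℂ) = (δ 0 0 : ℂ) * b + (δ 0 1 : ℂ) * d := by exact_mod_cast h01
  have e10 : (γ 1 0 : ℂ) = (δ 1 0 : ℂ) * a := by exact_mod_cast h10
  have e11 : (γ 1 1 : ℂ) = (δ 1 0 : ℂ) * b + (δ 1 1 : ℂ) * d := by exact_mod_cast h11
  have hden : denom δ (cjUpper a b d ha hd z) = denom γ z / d := by
    rw [ModularGroup.denom_apply, ModularGroup.denom_apply, cjUpper_coe, e10, e11]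
    field_simp
    ring
  refine ⟨hden, ?_⟩
  apply UpperHalfPlane.ext
  have hγz : denom γ z ≠ 0 := denom_ne_zero _ z
  rw [cjMulN_coe, coe_specialLinearGroup_apply, coe_specialLinearGroup_apply]
  simp only [algebraMap_int_eq, Int.coe_castRingHom, Complex.ofReal_intCast]
  have h1 : (δ 1 0 : ℂ) * ((cjUpper a b d ha hd z : ℍ) : ℂ) + (δ 1 1 : ℂ)
      = ((γ 1 0 : ℂ) * z + (γ 1 1 : ℂ)) / d := by
    have := hden
    rw [ModularGroup.denom_apply, ModularGroup.denom_apply] at this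
    exact this
  have h2 : (γ 1 0 : ℂ) * z + (γ 1 1 : ℂ) ≠ 0 := by
    have := hγz
    rw [ModularGroup.denom_apply] at this
    exact this
  rw [h1, cjUpper_coe]
  field_simp
  congr 1
  linear_combination (z : ℂ) * e00 + e01

/-- The slash of `z ↦ f (N z)` by `γ`, for a level one slash-invariant `f` of weight `k`. -/
theorem cj_slash_comp_mulN (N : ℕ) [NeZero N] {k : ℤ} {f : ℍ → ℂ}
    (hf : ∀ δ : SL(2, ℤ), f ∣[k] δ = f) {γ δ : SL(2, ℤ)} {a b d : ℤ}
    (D : CjData N γ δ a b d) (z : ℍ) :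
    ((fun w => f (cjMulN N w)) ∣[k] γ) z = (d : ℂ) ^ (-k) * f (cjUpper a b d D.ha D.hd z) := by
  obtain ⟨hden, hpt⟩ := cj_mulN_smul N γ δ a b d D.ha D.hd D.h00 D.h01 D.h10 D.h11 z
  have hdC : (d : ℂ) ≠ 0 := by exact_mod_cast D.hd.ne'
  have hγz : denom γ z ≠ 0 := denom_ne_zero _ z
  have hδw : denom δ (cjUpper a b d D.ha D.hd z) ≠ 0 := denom_ne_zero _ _
  rw [SL_slash_apply]
  change f (cjMulN N (γ • z)) * denom γ z ^ (-k) = _
  rw [hpt]
  have h1 := congrFun (hf δ) (cjUpper a b d D.ha D.hd z)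
  rw [SL_slash_apply] at h1
  have h2 : f (δ • cjUpper a b d D.ha D.hd z)
      = f (cjUpper a b d D.ha D.hd z) * denom δ (cjUpper a b d D.ha D.hd z) ^ k := by
    rw [← h1, mul_assoc, ← zpow_add₀ hδw]
    simp
  rw [h2, hden, div_zpow, zpow_neg, zpow_neg]
  field_simp

/-- `Δ(z) / e^{2πiz} → 1` as `Im z → ∞`. -/
theorem cj_tendsto_disc_div_exp :
    Tendsto (fun z : ℍ => Δ z / Complex.exp (2 * π * Complex.I * z)) atImInfty (𝓝 1) := by
  refine Tendsto.congr (fun z => ?_) tendsto_atImInfty_tprod_one_sub_eta_q_pow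
  rw [discriminant_eq_q_prod z]
  have h : Function.Periodic.qParam 1 (z : ℂ) = Complex.exp (2 * π * Complex.I * z) := by
    simp [Function.Periodic.qParam]
  rw [h, mul_div_assoc, mul_comm, div_mul_cancel₀ _ (Complex.exp_ne_zero _)]

theorem cj_tendsto_upper (a b d : ℤ) (ha : 0 < a) (hd : 0 < d) :
    Tendsto (cjUpper a b d ha hd) atImInfty atImInfty := by
  rw [atImInfty, tendsto_comap_iff]
  have ha' : (0 : ℝ) < a := by exact_mod_cast ha
  have hd' : (0 : ℝ) < d := by exact_mod_cast hd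
  have : (UpperHalfPlane.im ∘ cjUpper a b d ha hd) = fun z : ℍ => ((a : ℝ) / d) * z.im := by
    funext z
    simp only [Function.comp_apply, cjUpper_im]
    ring
  rw [this]
  exact (tendsto_comap.const_mul_atTop (div_pos ha' hd'))

theorem cj_norm_exp_upper (a b d : ℤ) (ha : 0 < a) (hd : 0 < d) (z : ℍ) :
    ‖Complex.exp (2 * π * Complex.I * (cjUpper a b d ha hd z : ℂ))‖
      = Real.exp (-2 * π * ((a : ℝ) / d) * z.im) := by
  rw [Complex.norm_exp]
  congr 1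
  have h1 : (2 * π * Complex.I * (cjUpper a b d ha hd z : ℂ)).re
      = -2 * π * (cjUpper a b d ha hd z).im := by
    have : (2 * (π : ℂ) * Complex.I * (cjUpper a b d ha hd z : ℂ))
        = ((2 * π : ℝ) : ℂ) * (Complex.I * (cjUpper a b d ha hd z : ℂ)) := by
      push_cast; ring
    rw [this, Complex.re_ofReal_mul, Complex.I_mul_re]
    rw [UpperHalfPlane.coe_im]
    ring
  rw [h1, cjUpper_im]
  ring

theorem cj_compare {a b d a' b' d' : ℤ} (ha : 0 < a) (hd : 0 < d) (ha' : 0 < a') (hd' : 0 < d')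
    (hN : a * d = a' * d')
    (h : ∀ z : ℍ, (d : ℂ) ^ (-12 : ℤ) * Δ (cjUpper a b d ha hd z)
      = (d' : ℂ) ^ (-12 : ℤ) * Δ (cjUpper a' b' d' ha' hd' z)) :
    a = a' ∧ d = d' ∧ d ∣ b - b' := by
  have hdC : (d : ℂ) ≠ 0 := by exact_mod_cast hd.ne'
  have hdC' : (d' : ℂ) ≠ 0 := by exact_mod_cast hd'.ne'
  have haR : (0 : ℝ) < a := by exact_mod_cast ha
  have hdR : (0 : ℝ) < d := by exact_mod_cast hd
  have haR' : (0 : ℝ) < a' := by exact_mod_cast ha'
  have hdR' : (0 : ℝ) < d' := by exact_mod_cast hd'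
  set w : ℍ → ℍ := cjUpper a b d ha hd with hw
  set w' : ℍ → ℍ := cjUpper a' b' d' ha' hd' with hw'
  set e : ℂ → ℂ := fun x => Complex.exp (2 * π * Complex.I * x) with he
  have he0 : ∀ x, e x ≠ 0 := fun x => Complex.exp_ne_zero _
  -- the two ratios tend to 1
  have hρ : Tendsto (fun z : ℍ => Δ (w z) / e (w z)) atImInfty (𝓝 1) :=
    cj_tendsto_disc_div_exp.comp (cj_tendsto_upper a b d ha hd)
  have hρ' : Tendsto (fun z : ℍ => Δ (w' z) / e (w' z)) atImInfty (𝓝 1) :=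
    cj_tendsto_disc_div_exp.comp (cj_tendsto_upper a' b' d' ha' hd')
  -- the quotient of exponentials
  set L : ℂ := (d' : ℂ) ^ (-12 : ℤ) / (d : ℂ) ^ (-12 : ℤ) with hL
  have hL0 : L ≠ 0 := div_ne_zero (zpow_ne_zero _ hdC') (zpow_ne_zero _ hdC)
  have hE : ∀ z : ℍ, e (w z) / e (w' z)
      = L * ((Δ (w' z) / e (w' z)) / (Δ (w z) / e (w z))) := by
    intro z
    have h1 := h z
    have hΔ : Δ (w z) ≠ 0 := discriminant_ne_zero _
    have hz1 : (d : ℂ) ^ (-12 : ℤ) ≠ 0 := zpow_ne_zero _ hdC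
    have hew : e (w z) ≠ 0 := he0 _
    have hew' : e (w' z) ≠ 0 := he0 _
    have h2 : L * ((Δ (w' z) / e (w' z)) / (Δ (w z) / e (w z)))
        = ((d' : ℂ) ^ (-12 : ℤ) * Δ (w' z)) / ((d : ℂ) ^ (-12 : ℤ) * Δ (w z))
          * (e (w z) / e (w' z)) := by
      rw [hL]
      field_simp
    rw [h2, ← h1, div_self (mul_ne_zero hz1 hΔ), one_mul]
  have hlim : Tendsto (fun z : ℍ => e (w z) / e (w' z)) atImInfty (𝓝 L) := by
    have : Tendsto (fun z : ℍ => L * ((Δ (w' z) / e (w' z)) / (Δ (w z) / e (w z))))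
        atImInfty (𝓝 (L * (1 / 1))) :=
      (hρ'.div hρ one_ne_zero).const_mul L
    rw [div_one, mul_one] at this
    exact this.congr (fun z => (hE z).symm)
  -- norms
  set c : ℝ := (a : ℝ) / d - (a' : ℝ) / d' with hc
  have hnorm : ∀ z : ℍ, ‖e (w z) / e (w' z)‖ = Real.exp (-2 * π * c * z.im) := by
    intro z
    rw [norm_div, he]
    simp only [hw, hw']
    rw [cj_norm_exp_upper, cj_norm_exp_upper, ← Real.exp_sub]
    congr 1
    rw [hc]; ring
  have hnormlim : Tendsto (fun z : ℍ => Real.exp (-2 * π * c * z.im)) atImInfty (𝓝 ‖L‖) :=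
    (hlim.norm).congr hnorm
  have him : Tendsto (fun z : ℍ => z.im) atImInfty atTop := tendsto_comap
  have hc0 : c = 0 := by
    rcases lt_trichotomy c 0 with hneg | hzero | hpos
    · -- exponent tends to +∞
      exfalso
      have hpos' : 0 < -2 * π * c := by nlinarith [Real.pi_pos]
      have : Tendsto (fun z : ℍ => Real.exp (-2 * π * c * z.im)) atImInfty atTop :=
        Real.tendsto_exp_atTop.comp (him.const_mul_atTop hpos')
      exact not_tendsto_nhds_of_tendsto_atTop this _ hnormlim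
    · exact hzero
    · exfalso
      have hneg' : -2 * π * c < 0 := by nlinarith [Real.pi_pos]
      have : Tendsto (fun z : ℍ => Real.exp (-2 * π * c * z.im)) atImInfty (𝓝 0) :=
        Real.tendsto_exp_atBot.comp (him.const_mul_atTop_of_neg hneg')
      have h0 : ‖L‖ = 0 := tendsto_nhds_unique hnormlim this
      exact hL0 (norm_eq_zero.mp h0)
  -- a / d = a' / d'
  have hfrac : (a : ℝ) * d' = a' * d := by
    have : (a : ℝ) / d = a' / d' := by linarith
    field_simp at this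
    linarith
  have hfracZ : a * d' = a' * d := by exact_mod_cast hfrac
  have haa : a = a' := by
    have h2 : a * a * (d * d') = a' * a' * (d * d') := by
      calc a * a * (d * d') = (a * d) * (a * d') := by ring
        _ = (a' * d') * (a' * d) := by rw [hN, hfracZ]
        _ = a' * a' * (d * d') := by ring
    have hdd : d * d' ≠ 0 := (mul_pos hd hd').ne'
    have h3 : a * a = a' * a' := mul_right_cancel₀ hdd h2
    nlinarith
  have hdd' : d = d' := by
    subst haa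
    have : a * d = a * d' := hN
    exact mul_left_cancel₀ ha.ne' this
  refine ⟨haa, hdd', ?_⟩
  subst haa
  subst hdd'
  -- now the quotient is constant
  have hL1 : L = 1 := by rw [hL]; exact div_self (zpow_ne_zero _ hdC)
  have hconst : ∀ z : ℍ, e (w z) / e (w' z)
      = Complex.exp (2 * π * Complex.I * (((b : ℂ) - b') / d)) := by
    intro z
    rw [he]
    simp only [hw, hw', cjUpper_coe]
    rw [← Complex.exp_sub]
    congr 1
    field_simp
    ring
  have hval : Complex.exp (2 * π * Complex.I * (((b : ℂ) - b') / d)) = 1 := by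
    have : Tendsto (fun _ : ℍ => Complex.exp (2 * π * Complex.I * (((b : ℂ) - b') / d)))
        atImInfty (𝓝 L) := hlim.congr hconst
    rw [hL1] at this
    exact tendsto_nhds_unique tendsto_const_nhds this
  rw [Complex.exp_eq_one_iff] at hval
  obtain ⟨n, hn⟩ := hval
  refine ⟨n, ?_⟩
  have hpi : (2 * π * Complex.I : ℂ) ≠ 0 := by
    simp [Real.pi_ne_zero]
  have h4 : ((b : ℂ) - b') / d = n := by
    have : 2 * π * Complex.I * (((b : ℂ) - b') / d) = 2 * π * Complex.I * n := by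
      rw [hn]; ring
    exact mul_left_cancel₀ hpi this
  have h5 : ((b : ℂ) - b') = d * n := by
    field_simp at h4
    linear_combination h4
  exact_mod_cast h5

theorem cj_disc_slash (δ : SL(2, ℤ)) : (Δ ∣[(12 : ℤ)] δ) = Δ :=
  SlashInvariantForm.slash_action_generators_SL2Z discriminant_S_invariant
    discriminant_T_invariant δ

/-- `Δ_N(z) = Δ(N z)`, in the local notation of this file. -/
noncomputable def cjDeltaN (N : ℕ) [NeZero N] : ℍ → ℂ := fun w => Δ (cjMulN N w)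

theorem cj_slash_DeltaN (N : ℕ) [NeZero N] {γ δ : SL(2, ℤ)} {a b d : ℤ}
    (D : CjData N γ δ a b d) (z : ℍ) :
    ((cjDeltaN N) ∣[(12 : ℤ)] γ) z = (d : ℂ) ^ (-12 : ℤ) * Δ (cjUpper a b d D.ha D.hd z) :=
  cj_slash_comp_mulN N cj_disc_slash D z

theorem cj_slash_DeltaN_exists (N : ℕ) [NeZero N] (γ : SL(2, ℤ)) :
    ∃ (a b d : ℤ) (ha : 0 < a) (hd : 0 < d), a * d = N ∧
      ∀ z : ℍ, ((cjDeltaN N) ∣[(12 : ℤ)] γ) z
        = (d : ℂ) ^ (-12 : ℤ) * Δ (cjUpper a b d ha hd z) := by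
  obtain ⟨δ, a, b, d, D⟩ := cj_exists_data N γ
  exact ⟨a, b, d, D.ha, D.hd, D.had, fun z => cj_slash_DeltaN N D z⟩

/-- Two Hermite data with the same `a, d` and `b ≡ b' mod d` belong to the same coset. -/
theorem cj_mem_Gamma0_of_data (N : ℕ) [NeZero N] {γ δ γ' δ' : SL(2, ℤ)} {a b b' d : ℤ}
    (D : CjData N γ δ a b d) (D' : CjData N γ' δ' a b' d) (hb : d ∣ b - b') :
    γ' * γ⁻¹ ∈ Gamma0 N := by
  obtain ⟨m, hm⟩ := hb
  rw [Gamma0_mem]
  have hentry : (γ' * γ⁻¹) 1 0 = γ' 1 0 * γ 1 1 - γ' 1 1 * γ 1 0 := by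
    rw [Matrix.SpecialLinearGroup.coe_mul, Matrix.SpecialLinearGroup.coe_inv,
      Matrix.adjugate_fin_two, Matrix.mul_apply, Fin.sum_univ_two]
    simp
    ring
  have hval : (γ' * γ⁻¹) 1 0 = (N : ℤ) * (m * δ' 1 0 * δ 1 0 + δ' 1 0 * δ 1 1 - δ' 1 1 * δ 1 0) := by
    rw [hentry, D.h10, D.h11, D'.h10, D'.h11, ← D.had]
    have hb' : b = b' + d * m := by linarith
    rw [hb']
    ring
  rw [hval]
  simp

theorem cj_slash_DeltaN_eq_imp (N : ℕ) [NeZero N] (γ γ' : SL(2, ℤ))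
    (h : (cjDeltaN N) ∣[(12 : ℤ)] γ = (cjDeltaN N) ∣[(12 : ℤ)] γ') :
    γ' * γ⁻¹ ∈ Gamma0 N := by
  obtain ⟨δ, a, b, d, D⟩ := cj_exists_data N γ
  obtain ⟨δ', a', b', d', D'⟩ := cj_exists_data N γ'
  have hcmp := cj_compare (b := b) (b' := b') D.ha D.hd D'.ha D'.hd (D.had.trans D'.had.symm)
    (fun z => by rw [← cj_slash_DeltaN N D z, ← cj_slash_DeltaN N D' z, h])
  obtain ⟨haa, hdd, hdvd⟩ := hcmp
  subst haa
  subst hdd
  exact cj_mem_Gamma0_of_data N D D' hdvd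

/-- Representatives of the cosets of `Γ₀(N)`. -/
theorem cj_exists_reps (N : ℕ) [NeZero N] :
    ∃ γs : Fin (Gamma0 N).index → SL(2, ℤ), ∀ i j, γs j * (γs i)⁻¹ ∈ Gamma0 N → i = j := by
  classical
  have : (Gamma0 N).FiniteIndex := inferInstance
  have : Finite (SL(2, ℤ) ⧸ Gamma0 N) := Subgroup.finite_quotient_of_finiteIndex
  let e : SL(2, ℤ) ⧸ Gamma0 N ≃ Fin (Gamma0 N).index := Finite.equivFin _
  refine ⟨fun i => (Quotient.out (e.symm i))⁻¹, fun i j h => ?_⟩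
  simp only [inv_inv] at h
  have h2 : (QuotientGroup.mk (Quotient.out (e.symm j)) : SL(2, ℤ) ⧸ Gamma0 N)
      = QuotientGroup.mk (Quotient.out (e.symm i)) := QuotientGroup.eq.mpr h
  rw [QuotientGroup.out_eq', QuotientGroup.out_eq'] at h2
  exact (e.symm.injective h2).symm

/-- Finitely many nonzero holomorphic functions on `ℍ` have a common non-zero. -/
theorem cj_exists_common_nonzero {ι : Type*} (s : Finset ι) (g : ι → ℍ → ℂ)
    (hg : ∀ i ∈ s, MDiff (g i)) (hne : ∀ i ∈ s, g i ≠ 0) : ∃ z : ℍ, ∀ i ∈ s, g i z ≠ 0 := by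
  classical
  set U : Set ℂ := {z : ℂ | 0 < z.im} with hU
  have hUo : IsOpen U := isOpen_lt continuous_const Complex.continuous_im
  have hUc : IsPreconnected U := (convex_halfSpace_im_gt 0).isPreconnected
  have hkey : ∀ t : Finset ι, t ⊆ s →
      ∃ z ∈ U, ∏ i ∈ t, (g i ∘ ofComplex) z ≠ 0 := by
    intro t
    induction t using Finset.induction_on with
    | empty =>
      intro _
      exact ⟨Complex.I, by simp [hU], by simp⟩
    | insert a t hat ih =>
      intro hts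
      have hts' : t ⊆ s := fun x hx => hts (Finset.mem_insert_of_mem hx)
      have has : a ∈ s := hts (Finset.mem_insert_self a t)
      obtain ⟨z1, hz1U, hz1⟩ := ih hts'
      by_contra hcon
      push Not at hcon
      have hAa : AnalyticOnNhd ℂ (g a ∘ ofComplex) U :=
        (UpperHalfPlane.mdifferentiable_iff.mp (hg a has)).analyticOnNhd hUo
      have hAt : AnalyticOnNhd ℂ (fun z => ∏ i ∈ t, (g i ∘ ofComplex) z) U :=
        Finset.analyticOnNhd_fun_prod t (fun i hi =>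
          (UpperHalfPlane.mdifferentiable_iff.mp (hg i (hts' hi))).analyticOnNhd hUo)
      have hmul : ∀ z ∈ U, (g a ∘ ofComplex) z * (∏ i ∈ t, (g i ∘ ofComplex) z) = 0 := by
        intro z hz
        have := hcon z hz
        rwa [Finset.prod_insert hat] at this
      rcases hAa.eq_zero_or_eq_zero_of_mul_eq_zero hAt hmul hUc with h0 | h0
      · apply hne a has
        funext w
        have := h0 (w : ℂ) w.im_pos
        simpa using this
      · exact hz1 (h0 z1 hz1U)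
  obtain ⟨z, hzU, hz⟩ := hkey s (Finset.Subset.refl s)
  refine ⟨⟨z, hzU⟩, fun i hi => ?_⟩
  have := (Finset.prod_ne_zero_iff.mp hz) i hi
  simpa [ofComplex_apply_of_im_pos hzU] using this

theorem cj_mdiff_DeltaN (N : ℕ) [NeZero N] : MDiff (cjDeltaN N) := by
  rw [UpperHalfPlane.mdifferentiable_iff]
  have hΔ : DifferentiableOn ℂ (Δ ∘ ofComplex) {z : ℂ | 0 < z.im} :=
    UpperHalfPlane.mdifferentiable_iff.mp CuspForm.discriminant.holo'
  have hmap : Set.MapsTo (fun z : ℂ => (N : ℂ) * z) {z : ℂ | 0 < z.im} {z : ℂ | 0 < z.im} := by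
    intro z hz
    change 0 < ((N : ℂ) * z).im
    rw [Complex.mul_im, Complex.natCast_re, Complex.natCast_im, zero_mul, add_zero]
    exact mul_pos (Nat.cast_pos.mpr (NeZero.pos N)) hz
  have hcomp : DifferentiableOn ℂ ((Δ ∘ ofComplex) ∘ (fun z : ℂ => (N : ℂ) * z))
      {z : ℂ | 0 < z.im} :=
    hΔ.comp (differentiableOn_id.const_mul _) hmap
  refine hcomp.congr (fun z hz => ?_)
  simp only [Function.comp_apply, cjDeltaN]
  congr 1
  apply UpperHalfPlane.ext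
  rw [cjMulN_coe, ofComplex_apply_of_im_pos hz, ofComplex_apply_of_im_pos (hmap hz)]

theorem cj_exists_point_distinct (N : ℕ) [NeZero N] (c : ℍ → ℂ) (hc : MDiff c) (hc0 : c ≠ 0) :
    ∃ (z : ℍ) (γs : Fin (Gamma0 N).index → SL(2, ℤ)), c z ≠ 0 ∧
      Function.Injective (fun i => ((cjDeltaN N) ∣[(12 : ℤ)] (γs i)) z) := by
  classical
  obtain ⟨γs, hγs⟩ := cj_exists_reps N
  let F : Fin (Gamma0 N).index → ℍ → ℂ := fun i => (cjDeltaN N) ∣[(12 : ℤ)] (γs i)
  let g : Option (Fin (Gamma0 N).index × Fin (Gamma0 N).index) → ℍ → ℂ := fun o =>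
    match o with
    | none => c
    | some p => if p.1 = p.2 then 1 else F p.1 - F p.2
  have hF : ∀ i, MDiff (F i) := fun i =>
    (cj_mdiff_DeltaN N).slash 12 ((γs i : SL(2, ℤ)) : GL (Fin 2) ℝ)
  have hFne : ∀ i j, i ≠ j → F i ≠ F j := by
    intro i j hij h
    exact hij (hγs i j (cj_slash_DeltaN_eq_imp N (γs i) (γs j) h))
  have hg : ∀ o ∈ (Finset.univ : Finset (Option (Fin (Gamma0 N).index × Fin (Gamma0 N).index))),
      MDiff (g o) := by
    intro o _
    rcases o with _ | p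
    · exact hc
    · change MDiff (if p.1 = p.2 then (1 : ℍ → ℂ) else F p.1 - F p.2)
      split_ifs with h
      · exact mdifferentiable_const
      · exact (hF p.1).sub (hF p.2)
  have hne : ∀ o ∈ (Finset.univ : Finset (Option (Fin (Gamma0 N).index × Fin (Gamma0 N).index))),
      g o ≠ 0 := by
    intro o _
    rcases o with _ | p
    · exact hc0
    · change (if p.1 = p.2 then (1 : ℍ → ℂ) else F p.1 - F p.2) ≠ 0
      split_ifs with h
      · exact one_ne_zero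
      · exact sub_ne_zero.mpr (hFne _ _ h)
  obtain ⟨z, hz⟩ := cj_exists_common_nonzero Finset.univ g hg hne
  refine ⟨z, γs, hz none (Finset.mem_univ _), ?_⟩
  intro i j hij
  by_contra hne'
  have h1 := hz (some (i, j)) (Finset.mem_univ _)
  change (if i = j then (1 : ℍ → ℂ) else F i - F j) z ≠ 0 at h1
  rw [if_neg hne'] at h1
  apply h1
  change F i z - F j z = 0
  exact sub_eq_zero.mpr hij


/-! ### The statements in terms of the shared definitions `DeltaN`, `psi` -/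

theorem cjDeltaN_eq (N : ℕ) [NeZero N] : cjDeltaN N = DeltaN N := rfl

theorem cjMulN_eq_scaleH (N : ℕ) [NeZero N] (z : ℍ) : cjMulN N z = scaleH N z := rfl

/-- **E2a.** The slash of `Δ_N` by `γ ∈ SL(2, ℤ)` is `d ^ (-12) * Δ((a z + b) / d)`. -/
theorem slash_DeltaN (N : ℕ) [NeZero N] (γ : SL(2, ℤ)) :
    ∃ (a b d : ℤ) (ha : 0 < a) (hd : 0 < d), a * d = N ∧
      ∀ z : ℍ, ((DeltaN N) ∣[(12 : ℤ)] γ) z
        = (d : ℂ) ^ (-12 : ℤ) * Δ (cjUpper a b d ha hd z) :=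
  cj_slash_DeltaN_exists N γ

/-- **E2b.** Equal conjugates of `Δ_N` come from the same coset of `Γ₀(N)`. -/
theorem slash_DeltaN_eq_imp (N : ℕ) [NeZero N] (γ γ' : SL(2, ℤ))
    (h : (DeltaN N) ∣[(12 : ℤ)] γ = (DeltaN N) ∣[(12 : ℤ)] γ') :
    γ' * γ⁻¹ ∈ CongruenceSubgroup.Gamma0 N :=
  cj_slash_DeltaN_eq_imp N γ γ' h

/-- **E2c.** A point where `c` does not vanish and the `psi N` conjugates of `Δ_N` are distinct. -/
theorem exists_point_distinct (N : ℕ) [NeZero N] (c : ℍ → ℂ) (hc : MDiff c) (hc0 : c ≠ 0) :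
    ∃ (z : ℍ) (γs : Fin (psi N) → SL(2, ℤ)), c z ≠ 0 ∧
      Function.Injective (fun i => ((DeltaN N) ∣[(12 : ℤ)] (γs i)) z) :=
  cj_exists_point_distinct N c hc hc0

/-- Variant of **E2c** with the slash unfolded. -/
theorem exists_point_distinct' (N : ℕ) [NeZero N] (c : ℍ → ℂ) (hc : MDiff c) (hc0 : c ≠ 0) :
    ∃ (z : ℍ) (γs : Fin (psi N) → SL(2, ℤ)), c z ≠ 0 ∧
      Function.Injective (fun i => DeltaN N (γs i • z) * denom (γs i) z ^ (-12 : ℤ)) := by
  obtain ⟨z, γs, hz, hinj⟩ := exists_point_distinct N c hc hc0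
  refine ⟨z, γs, hz, fun i j hij => hinj ?_⟩
  change ((DeltaN N) ∣[(12 : ℤ)] (γs i)) z = ((DeltaN N) ∣[(12 : ℤ)] (γs j)) z
  rw [SL_slash_apply, SL_slash_apply]
  exact hij

/-- `Δ_N` is holomorphic. -/
theorem cj_mdiff_DeltaN_shared (N : ℕ) [NeZero N] : MDiff (DeltaN N) := cj_mdiff_DeltaN N

end Fermat.Agent.S23y
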