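/-
S23 route B, module A1_LEVEL1 (helper87): level one modular forms are isobaric polynomials in
`E₄, E₆`, and conversely.
-/
import Mathlib
import Fermat.Agent.S23y.Defs

set_option autoImplicit false

namespace Fermat.Agent.S23y

open UpperHalfPlane ModularForm ModularFormClass EisensteinSeries
open scoped MatrixGroups Manifold ModularForm

variable (N : ℕ) [NeZero N]

/-! ### evaluation API -/

theorem l1_ev_apply (P : MvPolynomial (Fin 3) ℂ) (z : ℍ) :
    ev N P z = MvPolynomial.eval (gens N z) P := rfl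

theorem l1_ev_zero : ev N 0 = 0 := by
  funext z; simp [l1_ev_apply]

theorem l1_ev_C (c : ℂ) : ev N (MvPolynomial.C c) = fun _ => c := by
  funext z; simp [l1_ev_apply]

theorem l1_ev_add (P Q : MvPolynomial (Fin 3) ℂ) : ev N (P + Q) = ev N P + ev N Q := by
  funext z; simp [l1_ev_apply]

theorem l1_ev_mul (P Q : MvPolynomial (Fin 3) ℂ) : ev N (P * Q) = ev N P * ev N Q := by
  funext z; simp [l1_ev_apply]

theorem l1_ev_pow (P : MvPolynomial (Fin 3) ℂ) (n : ℕ) : ev N (P ^ n) = ev N P ^ n := by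
  funext z; simp [l1_ev_apply]

theorem l1_ev_X0 : ev N (MvPolynomial.X 0) = ⇑E₄ := by
  funext z; simp [l1_ev_apply, gens]

theorem l1_ev_X1 : ev N (MvPolynomial.X 1) = ⇑E₆ := by
  funext z; simp [l1_ev_apply, gens]

/-! ### monomial forms -/

/-- the monomial form `E₄^a E₆^b` of weight `4a+6b`. -/
noncomputable def l1_mono (a b : ℕ) : ModularForm 𝒮ℒ ((a : ℤ) * 4 + (b : ℤ) * 6) :=
  (E₄.pow a).mul (E₆.pow b)

theorem l1_coe_mono (a b : ℕ) : ⇑(l1_mono a b) = ⇑E₄ ^ a * ⇑E₆ ^ b := by
  simp [l1_mono, ModularForm.coe_mul, ModularForm.coe_pow]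

theorem l1_mono_coeff_zero (a b : ℕ) : (qExpansion 1 (l1_mono a b)).coeff 0 = 1 := by
  have h4 : (qExpansion 1 E₄).coeff 0 = 1 := E_qExpansion_coeff_zero _ ⟨2, rfl⟩
  have h6 : (qExpansion 1 E₆).coeff 0 = 1 := E_qExpansion_coeff_zero _ ⟨3, rfl⟩
  rw [l1_mono, ModularForm.qExpansion_mul one_pos one_mem_strictPeriods_SL,
    ModularForm.qExpansion_pow one_pos one_mem_strictPeriods_SL,
    ModularForm.qExpansion_pow one_pos one_mem_strictPeriods_SL]
  rw [PowerSeries.coeff_zero_eq_constantCoeff] at h4 h6 ⊢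
  simp [h4, h6]

/-! ### the structure theorem -/

open MvPolynomial in
theorem l1_exists_poly (n : ℕ) : ∀ F : ModularForm 𝒮ℒ (n : ℤ), ∃ P : MvPolynomial (Fin 3) ℂ,
    P.IsWeightedHomogeneous wt n ∧ P ∈ MvPolynomial.supported ℂ ({0, 1} : Set (Fin 3)) ∧
      ev N P = ⇑F := by
  induction n using Nat.strong_induction_on with
  | _ n ih =>
  intro F
  rcases Nat.even_or_odd n with hev | hodd
  · rcases Nat.lt_or_ge n 4 with h4 | h4
    · obtain rfl | rfl : n = 0 ∨ n = 2 := by
        obtain ⟨r, rfl⟩ := hev; omega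
      · obtain ⟨c, hc⟩ := levelOne_weight_zero_const (F := ModularForm 𝒮ℒ ((0 : ℕ) : ℤ)) F
        refine ⟨C c, isWeightedHomogeneous_C _ _, Subalgebra.algebraMap_mem _ c, ?_⟩
        rw [l1_ev_C, hc]; rfl
      · have hF : F = 0 := rank_zero_iff_forall_zero.mp levelOne_weight_two_rank_zero F
        refine ⟨0, isWeightedHomogeneous_zero _ _ _, zero_mem _, ?_⟩
        rw [l1_ev_zero, hF]; rfl
    · obtain ⟨a, b, hab⟩ : ∃ a b : ℕ, a * 4 + b * 6 = n := by
        obtain ⟨r, rfl⟩ := hev
        rcases Nat.even_or_odd r with ⟨s, rfl⟩ | ⟨s, rfl⟩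
        · exact ⟨s, 0, by omega⟩
        · exact ⟨s - 1, 1, by omega⟩
      have hw : (a : ℤ) * 4 + (b : ℤ) * 6 = (n : ℤ) := by exact_mod_cast hab
      set G : ModularForm 𝒮ℒ (n : ℤ) := ModularForm.mcast hw (l1_mono a b) with hGdef
      have hGcoe : ⇑G = ⇑E₄ ^ a * ⇑E₆ ^ b := by
        rw [hGdef, ModularForm.coe_mcast, l1_coe_mono]
      have hG : (qExpansion 1 G).coeff 0 = 1 := by
        rw [hGdef, ModularForm.qExpansion_mcast]; exact l1_mono_coeff_zero a b
      obtain ⟨g, hg⟩ := ModularForm.sub_smul_isCuspForm F G hG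
      set c : ℂ := (qExpansion 1 F).coeff 0 with hc
      have hgz : ∀ z, g z = F z - c * (E₄ z ^ a * E₆ z ^ b) := by
        intro z
        have := congrArg (fun f : ModularForm 𝒮ℒ (n : ℤ) => f z) hg
        simpa [hGcoe] using this
      set H : ModularForm 𝒮ℒ ((n : ℤ) - 12) := CuspForm.discriminantEquiv g with hH
      have hHz : ∀ z, ModularForm.discriminant z * H z = g z :=
        fun z => ModularForm.discriminant_mul_discriminantEquiv_apply g z
      have hmono : (C c * X 0 ^ a * X 1 ^ b : MvPolynomial (Fin 3) ℂ).IsWeightedHomogeneous wt n := by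
        have := ((isWeightedHomogeneous_C wt c).mul ((isWeightedHomogeneous_X ℂ wt 0).pow a)).mul
          ((isWeightedHomogeneous_X ℂ wt 1).pow b)
        convert this using 1
        simp [wt]; omega
      have hmono_s : (C c * X 0 ^ a * X 1 ^ b : MvPolynomial (Fin 3) ℂ) ∈
          MvPolynomial.supported ℂ ({0, 1} : Set (Fin 3)) :=
        mul_mem (mul_mem (Subalgebra.algebraMap_mem _ c)
          (pow_mem (MvPolynomial.X_mem_supported.mpr (by simp)) a))
          (pow_mem (MvPolynomial.X_mem_supported.mpr (by simp)) b)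
      have hmono_ev : ev N (C c * X 0 ^ a * X 1 ^ b) = fun z => c * (E₄ z ^ a * E₆ z ^ b) := by
        funext z
        simp [l1_ev_apply, gens, mul_assoc]
      rcases Nat.lt_or_ge n 12 with h12 | h12
      · have hH0 : ⇑H = 0 := levelOne_neg_weight_eq_zero (by omega) H
        refine ⟨C c * X 0 ^ a * X 1 ^ b, hmono, hmono_s, ?_⟩
        rw [hmono_ev]
        funext z
        have h1 := hHz z
        rw [hH0, hgz z] at h1
        simp at h1
        linear_combination h1
      · have hw' : (n : ℤ) - 12 = ((n - 12 : ℕ) : ℤ) := by omega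
        obtain ⟨Q, hQ1, hQ2, hQ3⟩ := ih (n - 12) (by omega) (ModularForm.mcast hw' H)
        have hD : (C (1 / 1728 : ℂ) * (X 0 ^ 3 - X 1 ^ 2) : MvPolynomial (Fin 3) ℂ).IsWeightedHomogeneous
            wt 12 := by
          have h3 := (isWeightedHomogeneous_X ℂ wt 0).pow 3
          have h2 := (isWeightedHomogeneous_X ℂ wt 1).pow 2
          have h32 : (X 0 ^ 3 - X 1 ^ 2 : MvPolynomial (Fin 3) ℂ).IsWeightedHomogeneous wt 12 := by
            refine IsWeightedHomogeneous.sub ?_ ?_
            · exact h3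
            · exact h2
          have := (isWeightedHomogeneous_C wt (1 / 1728 : ℂ)).mul h32
          convert this using 1
        have hD_s : (C (1 / 1728 : ℂ) * (X 0 ^ 3 - X 1 ^ 2) : MvPolynomial (Fin 3) ℂ) ∈
            MvPolynomial.supported ℂ ({0, 1} : Set (Fin 3)) :=
          mul_mem (Subalgebra.algebraMap_mem _ _)
            (sub_mem (pow_mem (MvPolynomial.X_mem_supported.mpr (by simp)) 3)
              (pow_mem (MvPolynomial.X_mem_supported.mpr (by simp)) 2))
        have hD_ev : ev N (C (1 / 1728 : ℂ) * (X 0 ^ 3 - X 1 ^ 2)) =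
            fun z => ModularForm.discriminant z := by
          funext z
          rw [ModularForm.discriminant_eq_E₄_cube_sub_E₆_sq]
          simp [l1_ev_apply, gens]
          ring
        refine ⟨C c * X 0 ^ a * X 1 ^ b + C (1 / 1728 : ℂ) * (X 0 ^ 3 - X 1 ^ 2) * Q, ?_, ?_, ?_⟩
        · refine hmono.add ?_
          have := hD.mul hQ1
          convert this using 1
          omega
        · exact add_mem hmono_s (mul_mem hD_s hQ2)
        · rw [l1_ev_add, l1_ev_mul N (C (1 / 1728 : ℂ) * (X 0 ^ 3 - X 1 ^ 2)) Q, hmono_ev, hD_ev, hQ3]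
          funext z
          have h1 := hHz z
          rw [hgz z] at h1
          simp only [Pi.add_apply, Pi.mul_apply, ModularForm.coe_mcast]
          linear_combination h1
  · have hF : F = 0 := levelOne_odd_weight_eq_zero (by exact_mod_cast hodd) F
    refine ⟨0, isWeightedHomogeneous_zero _ _ _, zero_mem _, ?_⟩
    rw [l1_ev_zero, hF]; rfl

/-- A1: level one forms are isobaric polynomials in `E₄, E₆`. -/
theorem levelOne_eq_ev {k : ℤ} {f : ℍ → ℂ} (hf : IsMF 𝒮ℒ k f) :
    ∃ P : MvPolynomial (Fin 3) ℂ, (∀ m : ℕ, (m : ℤ) = k → P.IsWeightedHomogeneous wt m) ∧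
      (k < 0 → P = 0) ∧ (2 : Fin 3) ∉ P.vars ∧ ev N P = f := by
  obtain ⟨F, rfl⟩ := hf
  rcases lt_or_ge k 0 with hk | hk
  · refine ⟨0, fun m _ => MvPolynomial.isWeightedHomogeneous_zero _ _ _, fun _ => rfl, by simp, ?_⟩
    rw [l1_ev_zero, levelOne_neg_weight_eq_zero hk F]
  · lift k to ℕ using hk
    obtain ⟨P, h1, h2, h3⟩ := l1_exists_poly N k F
    refine ⟨P, fun m hm => ?_, fun h => absurd h (by omega), ?_, h3⟩
    · have : m = k := by exact_mod_cast hm
      subst this; exact h1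
    · intro h
      have := (MvPolynomial.mem_supported.mp h2) h
      simp at this

/-- the weight of an exponent vector. -/
theorem l1_weight_wt (d : Fin 3 →₀ ℕ) : Finsupp.weight wt d = d 0 * 4 + d 1 * 6 + d 2 * 12 := by
  rw [Finsupp.weight_apply, Finsupp.sum_fintype _ _ (by simp), Fin.sum_univ_three]
  simp [wt]

/-- converse of A1: isobaric polynomials in `E₄, E₆` only are level one forms. -/
theorem isMF_levelOne_ev {m : ℕ} {P : MvPolynomial (Fin 3) ℂ} (hP : P.IsWeightedHomogeneous wt m)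
    (h2 : (2 : Fin 3) ∉ P.vars) : IsMF 𝒮ℒ m (ev N P) := by
  classical
  let T : (Fin 3 →₀ ℕ) → ModularForm 𝒮ℒ (m : ℤ) := fun d =>
    if h : ((d 0 : ℕ) : ℤ) * 4 + ((d 1 : ℕ) : ℤ) * 6 = (m : ℤ) then
      ModularForm.mcast h (l1_mono (d 0) (d 1)) else 0
  refine ⟨∑ d ∈ P.support, P.coeff d • T d, ?_⟩
  funext z
  rw [FunLike.coe_sum, Finset.sum_apply, l1_ev_apply, MvPolynomial.eval_eq']
  refine Finset.sum_congr rfl fun d hd => ?_
  have hd2 : d 2 = 0 := by
    by_contra h
    exact h2 ((MvPolynomial.mem_vars_iff_mem_support 2).mpr ⟨d, hd, by simpa using h⟩)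
  have hw : Finsupp.weight wt d = m := hP (MvPolynomial.mem_support_iff.mp hd)
  rw [l1_weight_wt, hd2] at hw
  have hw' : ((d 0 : ℕ) : ℤ) * 4 + ((d 1 : ℕ) : ℤ) * 6 = (m : ℤ) := by
    have : d 0 * 4 + d 1 * 6 = m := by omega
    exact_mod_cast this
  have hT : T d = ModularForm.mcast hw' (l1_mono (d 0) (d 1)) := dif_pos hw'
  rw [FunLike.coe_smul, Pi.smul_apply, hT, ModularForm.coe_mcast, l1_coe_mono, Fin.prod_univ_three, hd2]
  simp [gens]

end Fermat.Agent.S23y
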