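/-
S23 route B, module A3_DELTAN (helper22): `Δ(N z)` is a modular form of weight 12 on `Γ₀(N)`;
isobaric polynomials in the generators `E₄, E₆, Δ_N` are modular forms on `Γ₀(N)`; the
`q`-expansion of `ev N P`.
-/
import Mathlib
import Fermat.Agent.S23x.QRing
import Fermat.Agent.S23y.LevelOne

set_option autoImplicit false

namespace Fermat.Agent.S23y

open UpperHalfPlane ModularForm ModularFormClass
open scoped MatrixGroups Manifold ModularForm Pointwise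

/-! ### restriction to a subgroup -/

/-- restriction of a modular form to a smaller group. -/
def a3_restrict {Γ Γ' : Subgroup (GL (Fin 2) ℝ)} (h : Γ' ≤ Γ) {k : ℤ} (F : ModularForm Γ k) :
    ModularForm Γ' k where
  toFun := F
  slash_action_eq' := fun γ hγ => F.slash_action_eq' γ (h hγ)
  holo' := F.holo'
  bdd_at_cusps' := fun hc => F.bdd_at_cusps' (hc.mono h)

theorem a3_coe_restrict {Γ Γ' : Subgroup (GL (Fin 2) ℝ)} (h : Γ' ≤ Γ) {k : ℤ}
    (F : ModularForm Γ k) : ⇑(a3_restrict h F) = ⇑F := rfl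

theorem a3_isMF_of_le {Γ Γ' : Subgroup (GL (Fin 2) ℝ)} (h : Γ' ≤ Γ) {k : ℤ} {f : ℍ → ℂ}
    (hf : IsMF Γ k f) : IsMF Γ' k f := by
  obtain ⟨F, rfl⟩ := hf
  exact ⟨a3_restrict h F, rfl⟩

theorem a3_G0_le_SL (N : ℕ) : G0 N ≤ 𝒮ℒ := by
  rintro _ ⟨γ, _, rfl⟩
  exact ⟨γ, rfl⟩

/-! ### the matrix `diag(N, 1)` -/

/-- the matrix `diag(N, 1)`. -/
noncomputable def a3_diag (N : ℕ) [NeZero N] : GL (Fin 2) ℝ :=
  Matrix.GeneralLinearGroup.mkOfDetNeZero !![(N : ℝ), 0; 0, 1]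
    (by simp [Matrix.det_fin_two, NeZero.ne N])

variable (N : ℕ) [NeZero N]

theorem a3_diag_coe : ((a3_diag N : GL (Fin 2) ℝ) : Matrix (Fin 2) (Fin 2) ℝ) =
    !![(N : ℝ), 0; 0, 1] := rfl

theorem a3_diag_det : (a3_diag N).det.val = (N : ℝ) := by
  simp [a3_diag, Matrix.GeneralLinearGroup.mkOfDetNeZero, Matrix.det_fin_two]

theorem a3_diag_det_pos : 0 < (a3_diag N).det.val := by
  rw [a3_diag_det]
  exact_mod_cast Nat.pos_of_ne_zero (NeZero.ne N)

theorem a3_num (z : ℂ) : num (a3_diag N) z = (N : ℂ) * z := by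
  simp [num, a3_diag, Matrix.GeneralLinearGroup.mkOfDetNeZero]

theorem a3_denom (z : ℂ) : denom (a3_diag N) z = 1 := by
  simp [denom, a3_diag, Matrix.GeneralLinearGroup.mkOfDetNeZero]

theorem a3_diag_smul (z : ℍ) : a3_diag N • z = scaleH N z := by
  apply UpperHalfPlane.ext
  rw [coe_smul_of_det_pos (a3_diag_det_pos N), a3_num, a3_denom, div_one]
  rfl

theorem a3_slash_diag (f : ℍ → ℂ) (k : ℤ) (z : ℍ) :
    (f ∣[k] a3_diag N) z = f (scaleH N z) * ((N : ℂ) ^ (k - 1)) := by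
  rw [ModularForm.slash_apply, a3_diag_smul, a3_denom, one_zpow, mul_one, a3_diag_det]
  have h1 : σ (a3_diag N) = ContinuousAlgEquiv.refl ℝ ℂ := by
    unfold σ
    rw [if_pos (a3_diag_det_pos N)]
  rw [h1]
  have h2 : |(N : ℝ)| = (N : ℝ) := abs_of_nonneg (Nat.cast_nonneg N)
  rw [h2]
  simp

theorem a3_mapGL_apply (g : SL(2, ℤ)) (i j : Fin 2) :
    ((Matrix.SpecialLinearGroup.mapGL ℝ g : GL (Fin 2) ℝ) : Matrix (Fin 2) (Fin 2) ℝ) i j =
      ((g i j : ℤ) : ℝ) := by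
  rw [Matrix.SpecialLinearGroup.mapGL_coe_matrix]
  rfl

/-- the conjugate `diag(N,1) γ diag(N,1)⁻¹` of an element of `Γ₀(N)` is an integral matrix. -/
theorem a3_exists_conj (γ : SL(2, ℤ)) (hγ : γ ∈ CongruenceSubgroup.Gamma0 N) :
    ∃ δ : SL(2, ℤ), (Matrix.SpecialLinearGroup.mapGL ℝ δ) * a3_diag N =
      a3_diag N * (Matrix.SpecialLinearGroup.mapGL ℝ γ) := by
  rw [CongruenceSubgroup.Gamma0_mem] at hγ
  obtain ⟨c', hc'⟩ := (ZMod.intCast_zmod_eq_zero_iff_dvd _ _).mp hγ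
  have hdet : γ 0 0 * γ 1 1 - γ 0 1 * γ 1 0 = 1 := by
    have h := γ.det_coe
    rw [Matrix.det_fin_two] at h
    exact h
  have hdet' : Matrix.det !![γ 0 0, (N : ℤ) * γ 0 1; c', γ 1 1] = 1 := by
    rw [Matrix.det_fin_two_of]
    rw [hc'] at hdet
    linear_combination hdet
  obtain ⟨δ, hδ⟩ : ∃ δ : SL(2, ℤ), ∀ i j, δ i j = !![γ 0 0, (N : ℤ) * γ 0 1; c', γ 1 1] i j :=
    ⟨⟨_, hdet'⟩, fun _ _ => rfl⟩
  refine ⟨δ, ?_⟩
  apply Units.ext
  rw [Units.val_mul, Units.val_mul, a3_diag_coe]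
  ext i j
  rw [Matrix.mul_apply, Matrix.mul_apply, Fin.sum_univ_two, Fin.sum_univ_two]
  simp only [a3_mapGL_apply, hδ]
  fin_cases i <;> fin_cases j <;> simp [hc', mul_comm]

theorem a3_G0_le_conj : G0 N ≤ ConjAct.toConjAct (a3_diag N)⁻¹ • 𝒮ℒ := by
  intro γ hγ
  obtain ⟨γ₀, hγ₀, rfl⟩ := hγ
  obtain ⟨δ, hδ⟩ := a3_exists_conj N γ₀ hγ₀
  rw [Subgroup.mem_pointwise_smul_iff_inv_smul_mem]
  refine ⟨δ, ?_⟩
  rw [← map_inv, inv_inv, ConjAct.toConjAct_smul]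
  rw [eq_mul_inv_iff_mul_eq]
  exact hδ

/-! ### `Δ_N` -/

/-- `Δ(N z)` as a modular form of weight `12` on `Γ₀(N)`. -/
noncomputable def a3_DeltaNMF : ModularForm (G0 N) 12 :=
  (((N : ℂ) ^ (11 : ℤ))⁻¹) • a3_restrict (a3_G0_le_conj N)
    (ModularForm.translate CuspForm.discriminant (a3_diag N))

theorem a3_coe_DeltaNMF : ⇑(a3_DeltaNMF N) = DeltaN N := by
  funext z
  have hN : ((N : ℂ) ^ (11 : ℤ)) ≠ 0 := zpow_ne_zero _ (Nat.cast_ne_zero.mpr (NeZero.ne N))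
  unfold a3_DeltaNMF
  rw [FunLike.coe_smul, Pi.smul_apply, a3_coe_restrict, ModularForm.coe_translate,
    a3_slash_diag, smul_eq_mul]
  have h12 : ((12 : ℤ) - 1) = 11 := by norm_num
  rw [h12, CuspForm.coe_discriminant]
  unfold DeltaN
  rw [mul_comm, mul_assoc, mul_inv_cancel₀ hN, mul_one]

/-- A3a: `Δ_N` is a modular form of weight 12 on `Γ₀(N)`. -/
theorem isMF_DeltaN : IsMF (G0 N) 12 (DeltaN N) := ⟨a3_DeltaNMF N, a3_coe_DeltaNMF N⟩

theorem DeltaN_ne_zero (z : ℍ) : DeltaN N z ≠ 0 := ModularForm.discriminant_ne_zero _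

/-! ### isobaric polynomials in the generators -/


theorem a3_ev_X2 : ev N (MvPolynomial.X 2) = DeltaN N := by
  funext z; simp [l1_ev_apply, gens]

/-- the monomial form `E₄^a E₆^b Δ_N^c` of weight `4a+6b+12c` on `Γ₀(N)`. -/
noncomputable def a3_mono (a b c : ℕ) :
    ModularForm (G0 N) (((a : ℤ) * 4 + (b : ℤ) * 6) + (c : ℤ) * 12) :=
  (((a3_restrict (a3_G0_le_SL N) E₄).pow a).mul ((a3_restrict (a3_G0_le_SL N) E₆).pow b)).mul
    ((a3_DeltaNMF N).pow c)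

theorem a3_coe_mono (a b c : ℕ) :
    ⇑(a3_mono N a b c) = ⇑E₄ ^ a * ⇑E₆ ^ b * DeltaN N ^ c := by
  simp [a3_mono, ModularForm.coe_mul, ModularForm.coe_pow, a3_coe_restrict, a3_coe_DeltaNMF]

/-- A3c: isobaric polynomials in the generators are modular forms on `Γ₀(N)`. -/
theorem isMF_ev {m : ℕ} {P : MvPolynomial (Fin 3) ℂ} (hP : P.IsWeightedHomogeneous wt m) :
    IsMF (G0 N) m (ev N P) := by
  classical
  let T : (Fin 3 →₀ ℕ) → ModularForm (G0 N) (m : ℤ) := fun d =>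
    if h : (((d 0 : ℕ) : ℤ) * 4 + ((d 1 : ℕ) : ℤ) * 6) + ((d 2 : ℕ) : ℤ) * 12 = (m : ℤ) then
      ModularForm.mcast h (a3_mono N (d 0) (d 1) (d 2)) else 0
  refine ⟨∑ d ∈ P.support, P.coeff d • T d, ?_⟩
  funext z
  rw [FunLike.coe_sum, Finset.sum_apply, l1_ev_apply, MvPolynomial.eval_eq']
  refine Finset.sum_congr rfl fun d hd => ?_
  have hw : Finsupp.weight wt d = m := hP (MvPolynomial.mem_support_iff.mp hd)
  rw [l1_weight_wt] at hw
  have hw' : (((d 0 : ℕ) : ℤ) * 4 + ((d 1 : ℕ) : ℤ) * 6) + ((d 2 : ℕ) : ℤ) * 12 = (m : ℤ) := by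
    exact_mod_cast hw
  have hT : T d = ModularForm.mcast hw' (a3_mono N (d 0) (d 1) (d 2)) := dif_pos hw'
  rw [FunLike.coe_smul, Pi.smul_apply, hT, ModularForm.coe_mcast, a3_coe_mono, Fin.prod_univ_three]
  simp [gens, mul_assoc]

/-! ### `q`-expansion of `ev N P` -/



theorem a3_isNice_of_isMF {k : ℤ} {f : ℍ → ℂ} (hf : IsMF (G0 N) k f) : S23x.IsNice f :=
  S23x.IsMF.isNice (N := N) (k := k) hf

theorem a3_isNice_gens (i : Fin 3) : S23x.IsNice (fun z => gens N z i) := by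
  fin_cases i
  · exact S23x.IsMF1.isNice (k := 4) ⟨E₄, by funext z; simp [gens]⟩
  · exact S23x.IsMF1.isNice (k := 6) ⟨E₆, by funext z; simp [gens]⟩
  · exact a3_isNice_of_isMF N (k := 12) (by
      have h : (fun z => gens N z ((2 : Fin 3))) = DeltaN N := by funext z; simp [gens]
      show IsMF (G0 N) 12 (fun z => gens N z (2 : Fin 3))
      rw [h]; exact isMF_DeltaN N)

theorem a3_ev_X (i : Fin 3) : ev N (MvPolynomial.X i) = fun z => gens N z i := by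
  funext z; simp [l1_ev_apply]

theorem a3_isNice_ev_and_qExpansion (P : MvPolynomial (Fin 3) ℂ) :
    S23x.IsNice (ev N P) ∧ qExpansion 1 (ev N P) =
      MvPolynomial.eval₂ (PowerSeries.C (R := ℂ)) (fun i => qExpansion 1 (fun z => gens N z i)) P := by
  induction P using MvPolynomial.induction_on with
  | C c =>
    refine ⟨by rw [l1_ev_C]; exact S23x.isNice_const c, ?_⟩
    rw [l1_ev_C, MvPolynomial.eval₂_C]
    have h1 : (fun _ : ℍ => c) = c • (1 : ℍ → ℂ) := by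
      ext z
      simp
    have h2 : AnalyticAt ℂ (cuspFunction 1 (1 : ℍ → ℂ)) 0 := by
      have h3 : (1 : ℍ → ℂ) = fun _ => (1 : ℂ) := rfl
      rw [h3]
      exact (S23x.isNice_const 1).analyticAt_cuspFunction
    rw [h1, qExpansion_smul h2, qExpansion_one]
    ext n
    simp [PowerSeries.coeff_one, PowerSeries.coeff_C]
  | add P Q hP hQ =>
    refine ⟨by rw [l1_ev_add]; exact hP.1.add hQ.1, ?_⟩
    rw [l1_ev_add, qExpansion_add hP.1.analyticAt_cuspFunction hQ.1.analyticAt_cuspFunction,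
      MvPolynomial.eval₂_add, hP.2, hQ.2]
  | mul_X P i hP =>
    have hX := a3_isNice_gens N i
    refine ⟨by rw [l1_ev_mul, a3_ev_X]; exact hP.1.mul hX, ?_⟩
    rw [l1_ev_mul, a3_ev_X, qExpansion_mul hP.1.analyticAt_cuspFunction hX.analyticAt_cuspFunction,
      MvPolynomial.eval₂_mul, MvPolynomial.eval₂_X, hP.2]

/-- A3d: `q`-expansion of `ev P`. -/
theorem qExpansion_ev (P : MvPolynomial (Fin 3) ℂ) :
    qExpansion 1 (ev N P) =
      MvPolynomial.eval₂ (PowerSeries.C (R := ℂ)) (fun i => qExpansion 1 (fun z => gens N z i)) P :=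
  (a3_isNice_ev_and_qExpansion N P).2

theorem a3_isNice_ev (P : MvPolynomial (Fin 3) ℂ) : S23x.IsNice (ev N P) :=
  (a3_isNice_ev_and_qExpansion N P).1

end Fermat.Agent.S23y
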