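import Fermat.Agent.S23y.Defs

/-!
# S23 route B, module C2_CUSP: cusp forms and divisibility by `Δ`
-/

set_option autoImplicit false

namespace Fermat.Agent.S23y

open UpperHalfPlane ModularForm ModularFormClass Filter Asymptotics Function
open scoped MatrixGroups Manifold ModularForm Real Topology

local notation "Δ" => ModularForm.discriminant

variable (N : ℕ) [NeZero N]

/-! ### `Γ₀(N)`-invariance and periodicity of slashes (self-contained copies) -/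

omit [NeZero N] in
theorem c2_Gamma_le_Gamma0 : CongruenceSubgroup.Gamma N ≤ CongruenceSubgroup.Gamma0 N := by
  intro γ hγ
  rw [CongruenceSubgroup.Gamma_mem] at hγ
  rw [CongruenceSubgroup.Gamma0_mem]
  exact hγ.2.2.1

omit [NeZero N] in
/-- slash by `g ∈ SL(2,ℤ)` of a `Γ₀(N)`-invariant function is `Γ(N)`-invariant. -/
theorem c2_slash_slash_Gamma_eq {k : ℤ} {f : ℍ → ℂ}
    (hf : ∀ γ ∈ CongruenceSubgroup.Gamma0 N, f ∣[k] γ = f) (g : SL(2, ℤ)) (γ : SL(2, ℤ))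
    (hγ : γ ∈ CongruenceSubgroup.Gamma N) :
    (f ∣[k] g) ∣[k] γ = f ∣[k] g := by
  have hconj : g * γ * g⁻¹ ∈ CongruenceSubgroup.Gamma N :=
    (CongruenceSubgroup.Gamma_normal N).conj_mem γ hγ g
  have h1 := hf _ (c2_Gamma_le_Gamma0 N hconj)
  calc (f ∣[k] g) ∣[k] γ = f ∣[k] (g * γ) := (SlashAction.slash_mul k g γ f).symm
    _ = f ∣[k] ((g * γ * g⁻¹) * g) := by rw [inv_mul_cancel_right]
    _ = (f ∣[k] (g * γ * g⁻¹)) ∣[k] g := SlashAction.slash_mul k _ g f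
    _ = f ∣[k] g := by rw [h1]

/-- The slash of a `Γ₀(N)`-invariant function by `g ∈ SL(2,ℤ)`, as a `Γ(N)`-slash invariant
form. -/
noncomputable def c2_slashSIF {N : ℕ} {k : ℤ} (f : ℍ → ℂ)
    (hf : ∀ γ ∈ CongruenceSubgroup.Gamma0 N, f ∣[k] γ = f) (g : SL(2, ℤ)) :
    SlashInvariantForm
      ((CongruenceSubgroup.Gamma N : Subgroup SL(2, ℤ)) : Subgroup (GL (Fin 2) ℝ)) k where
  toFun := f ∣[k] g
  slash_action_eq' := by
    rintro _ ⟨γ, hγ, rfl⟩
    have := c2_slash_slash_Gamma_eq N hf g γ hγ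
    rwa [ModularForm.SL_slash] at this

omit [NeZero N] in
theorem c2_periodic_slash {k : ℤ} (f : ℍ → ℂ)
    (hf : ∀ γ ∈ CongruenceSubgroup.Gamma0 N, f ∣[k] γ = f) (g : SL(2, ℤ)) :
    Periodic ((f ∣[k] g) ∘ ofComplex) (N : ℝ) := by
  have h := SlashInvariantFormClass.periodic_comp_ofComplex (c2_slashSIF f hf g)
    (h := (N : ℝ)) (by
      rw [CongruenceSubgroup.strictPeriods_Gamma]
      exact AddSubgroup.mem_zmultiples _)
  exact h

omit [NeZero N] in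
theorem c2_slash_eq_of_mem_Gamma0 {F : Type*} [FunLike F ℍ ℂ] {k : ℤ}
    [SlashInvariantFormClass F (G0 N) k]
    (f : F) : ∀ γ ∈ CongruenceSubgroup.Gamma0 N, (f : ℍ → ℂ) ∣[k] γ = f := by
  intro γ hγ
  rw [ModularForm.SL_slash]
  exact SlashInvariantFormClass.slash_action_eq f _ (Subgroup.mem_map_of_mem _ hγ)

/-- slashes of a cusp form on `Γ₀(N)` decay like `exp(-2π Im τ / N)`. -/
theorem c2_exp_decay_slash {k : ℤ} (f : CuspForm (G0 N) k) (γ : SL(2, ℤ)) :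
    (⇑f ∣[k] γ) =O[atImInfty] fun τ : ℍ => Real.exp (-2 * π * τ.im / N) := by
  have h1 : IsZeroAtImInfty (⇑f ∣[k] γ) := CuspFormClass.zero_at_infty_slash f γ
  have h2 : Periodic ((⇑f ∣[k] γ) ∘ ofComplex) (N : ℝ) :=
    c2_periodic_slash N ⇑f (c2_slash_eq_of_mem_Gamma0 N f) γ
  have h3 : MDiff (⇑f ∣[k] γ) := by
    rw [ModularForm.SL_slash]
    exact (CuspFormClass.holo f).slash k _
  have hN : (0 : ℝ) < N := by exact_mod_cast Nat.pos_of_ne_zero (NeZero.ne N)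
  exact h1.exp_decay_atImInfty hN h2 h3 h1.isBoundedAtImInfty


/-- the `M`-th power of a slash of a cusp form on `Γ₀(N)` is `O(Δ)` once `N ≤ M`. -/
theorem c2_pow_slash_isBigO_discriminant {k : ℤ} (f : CuspForm (G0 N) k) (γ : SL(2, ℤ)) {M : ℕ}
    (hM : N ≤ M) : (fun τ : ℍ => ((⇑f ∣[k] γ) τ) ^ M) =O[atImInfty] (Δ : ℍ → ℂ) := by
  have hN : (0 : ℝ) < N := by exact_mod_cast Nat.pos_of_ne_zero (NeZero.ne N)
  have h1 := (c2_exp_decay_slash N f γ).pow M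
  have h2 : (fun τ : ℍ => Real.exp (-2 * π * τ.im / N) ^ M) =O[atImInfty]
      fun τ : ℍ => Real.exp (-2 * π * τ.im) := by
    refine IsBigO.of_bound 1 (Eventually.of_forall fun τ => ?_)
    rw [one_mul, ← Real.exp_nat_mul, Real.norm_eq_abs, Real.norm_eq_abs, Real.abs_exp,
      Real.abs_exp, Real.exp_le_exp]
    have him : 0 < τ.im := τ.im_pos
    have hMN : (N : ℝ) ≤ M := by exact_mod_cast hM
    have h3 : (1 : ℝ) ≤ M / N := by rw [le_div_iff₀ hN]; simpa using hMN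
    have h4 : (M : ℝ) * (-2 * π * τ.im / N) = -(2 * π * τ.im) * (M / N) := by
      field_simp
    rw [h4]
    have h5 : 0 ≤ 2 * π * τ.im := by positivity
    nlinarith
  exact (h1.trans h2).trans exp_isBigO_discriminant


/-- slash of a power, for `SL(2, ℤ)`. -/
theorem c2_pow_slash (f : ℍ → ℂ) (k : ℤ) (M : ℕ) (γ : SL(2, ℤ)) :
    (f ^ M) ∣[(M : ℤ) * k] γ = (f ∣[k] γ) ^ M := by
  ext z
  simp only [ModularForm.SL_slash_apply, Pi.pow_apply, mul_pow]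
  congr 1
  rw [← zpow_natCast, ← zpow_mul]
  congr 1
  ring

theorem c2_discriminant_slash (γ : SL(2, ℤ)) : (Δ : ℍ → ℂ) ∣[(12 : ℤ)] γ = Δ := by
  have hγ : (γ : GL (Fin 2) ℝ) ∈ 𝒮ℒ := ⟨γ, rfl⟩
  have := SlashInvariantFormClass.slash_action_eq CuspForm.discriminant _ hγ
  rw [ModularForm.SL_slash]
  exact this

/-- slash of `f^M / Δ` by `SL(2, ℤ)`. -/
theorem c2_slash_div (f : ℍ → ℂ) (k : ℤ) (M : ℕ) (γ : SL(2, ℤ)) :
    (fun z => f z ^ M / Δ z) ∣[(M : ℤ) * k - 12] γ = fun z => ((f ∣[k] γ) z) ^ M / Δ z := by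
  have h : (fun z => f z ^ M / Δ z) = (f ^ M) / (Δ : ℍ → ℂ) := rfl
  rw [h, ModularForm.div_slash_SL2, c2_pow_slash, c2_discriminant_slash]
  rfl


/-- `f^M / Δ` as a modular form on `Γ₀(N)`, for a cusp form `f` on `Γ₀(N)` and `N ≤ M`. -/
noncomputable def c2_divDisc {k : ℤ} (f : CuspForm (G0 N) k) {M : ℕ} (hM : N ≤ M) :
    ModularForm (G0 N) ((M : ℤ) * k - 12) where
  toFun z := f z ^ M / Δ z
  slash_action_eq' A hA := by
    obtain ⟨γ, hγ, rfl⟩ := hA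
    have h1 : (⇑f ∣[k] γ) = ⇑f := c2_slash_eq_of_mem_Gamma0 N f γ hγ
    have h2 := c2_slash_div (⇑f) k M γ
    rw [h1, ModularForm.SL_slash] at h2
    exact h2
  holo' := by
    have h1 : MDiff (fun z => f z ^ M) := (CuspFormClass.holo f).pow M
    exact h1.div CuspForm.discriminant.holo' discriminant_ne_zero
  bdd_at_cusps' {c} hc := by
    rw [Subgroup.IsArithmetic.isCusp_iff_isCusp_SL2Z] at hc
    rw [OnePoint.isBoundedAt_iff_forall_SL2Z hc]
    intro γ _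
    rw [c2_slash_div, IsBoundedAtImInfty, BoundedAtFilter]
    exact (div_isBoundedUnder_of_isBigO (c2_pow_slash_isBigO_discriminant N f γ hM)).isBigO_one ℝ

/-- C2: cusp forms: `f ^ M / Δ` is a modular form once `N ≤ M`. -/
theorem exists_pow_eq_discriminant_mul {k : ℤ} {f : ℍ → ℂ} (hf : IsCF (G0 N) k f) {M : ℕ}
    (hM : N ≤ M) :
    ∃ g : ℍ → ℂ, IsMF (G0 N) (M * k - 12) g ∧ f ^ M = (fun z => ModularForm.discriminant z) * g := by
  obtain ⟨F, rfl⟩ := hf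
  refine ⟨⇑(c2_divDisc N F hM), ⟨c2_divDisc N F hM, rfl⟩, ?_⟩
  ext z
  change F z ^ M = Δ z * (F z ^ M / Δ z)
  rw [mul_div_cancel₀ _ (discriminant_ne_zero z)]


/-- the lower unipotent element `[[1,0],[m,1]]`. -/
def c3_low (m : ℤ) : SL(2, ℤ) := ⟨!![1, 0; m, 1], by simp [Matrix.det_fin_two_of]⟩

omit [NeZero N] in
theorem c3_low_mem (m : ℤ) : c3_low ((N : ℤ) * m) ∈ CongruenceSubgroup.Gamma0 N := by
  rw [CongruenceSubgroup.Gamma0_mem]
  simp [c3_low]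

theorem c3_denom_low (m : ℤ) (z : ℍ) : denom (c3_low m) z = (m : ℂ) * z + 1 := by
  simp [denom, c3_low]

/-- a nonzero function invariant under `Γ₀(N)` in two weights: the weights agree. -/
theorem c3_weight_unique {a b : ℤ} {f : ℍ → ℂ} (hf0 : f ≠ 0)
    (ha : ∀ γ ∈ CongruenceSubgroup.Gamma0 N, f ∣[a] γ = f)
    (hb : ∀ γ ∈ CongruenceSubgroup.Gamma0 N, f ∣[b] γ = f) : a = b := by
  by_contra hab
  obtain ⟨z, hz⟩ : ∃ z, f z ≠ 0 := by
    by_contra hcon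
    exact hf0 (funext fun z => not_not.mp fun hz => hcon ⟨z, hz⟩)
  have key : ∀ m : ℤ, ‖((N : ℤ) * m : ℤ) * (z : ℂ) + 1‖ = 1 := by
    intro m
    have h1 := congrFun (ha _ (c3_low_mem N m)) z
    have h2 := congrFun (hb _ (c3_low_mem N m)) z
    rw [ModularForm.SL_slash_apply, c3_denom_low] at h1 h2
    set w : ℂ := (((N : ℤ) * m : ℤ) : ℂ) * (z : ℂ) + 1 with hw
    have hfne : f (c3_low ((N : ℤ) * m) • z) ≠ 0 := by
      intro h0
      rw [h0, zero_mul] at h1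
      exact hz h1.symm
    have h3 : w ^ (-a) = w ^ (-b) := by
      apply mul_left_cancel₀ hfne
      rw [h1, h2]
    have hwne : w ≠ 0 := by
      have := denom_ne_zero (c3_low ((N : ℤ) * m)) z
      rwa [c3_denom_low] at this
    have h4 : ‖w‖ ^ (-a) = ‖w‖ ^ (-b) := by
      rw [← norm_zpow, ← norm_zpow, h3]
    by_contra hne
    have hpos : 0 < ‖w‖ := norm_pos_iff.mpr hwne
    have := zpow_right_injective₀ hpos hne h4
    exact hab (neg_injective this)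
  have k1 := key 1
  have k2 := key (-1)
  have hN : (N : ℝ) ≠ 0 := by exact_mod_cast NeZero.ne N
  have e1 : Complex.normSq ((((N : ℤ) * 1 : ℤ) : ℂ) * (z : ℂ) + 1) = 1 := by
    rw [Complex.normSq_eq_norm_sq, k1]; norm_num
  have e2 : Complex.normSq ((((N : ℤ) * (-1) : ℤ) : ℂ) * (z : ℂ) + 1) = 1 := by
    rw [Complex.normSq_eq_norm_sq, k2]; norm_num
  rw [Complex.normSq_apply] at e1 e2
  simp at e1 e2
  have hy : 0 < z.im := z.im_pos
  have hNy : 0 < ((N : ℝ) * z.im) ^ 2 := by positivity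
  nlinarith


/-- `u ^ M → 0` implies `u → 0`. -/
theorem c3_tendsto_zero_of_pow {α : Type*} {l : Filter α} {u : α → ℂ} {M : ℕ}
    (h : Tendsto (fun x => u x ^ M) l (𝓝 0)) : Tendsto u l (𝓝 0) := by
  rw [NormedAddGroup.tendsto_nhds_zero] at h ⊢
  intro ε hε
  filter_upwards [h (ε ^ M) (pow_pos hε M)] with x hx
  rw [norm_pow] at hx
  exact lt_of_pow_lt_pow_left₀ M hε.le hx

/-- C3: conversely a form with `f ^ M = Δ g` is a cusp form. -/
theorem isCF_of_pow_eq_discriminant_mul {k l : ℤ} {f g : ℍ → ℂ} (hf : IsMF (G0 N) k f) {M : ℕ}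
    (hM : 0 < M) (hg : IsMF (G0 N) l g)
    (h : f ^ M = (fun z => ModularForm.discriminant z) * g) : IsCF (G0 N) k f := by
  obtain ⟨F, rfl⟩ := hf
  obtain ⟨G, rfl⟩ := hg
  by_cases hF0 : (⇑F : ℍ → ℂ) = 0
  · exact ⟨0, by rw [hF0]; rfl⟩
  -- the weights match
  have hFM0 : (⇑F : ℍ → ℂ) ^ M ≠ 0 := by
    intro h0
    apply hF0
    funext z
    have := congrFun h0 z
    simpa using pow_eq_zero_iff (Nat.pos_iff_ne_zero.mp hM) |>.mp this
  have hinvF : ∀ γ ∈ CongruenceSubgroup.Gamma0 N, (⇑F : ℍ → ℂ) ∣[k] γ = ⇑F :=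
    c2_slash_eq_of_mem_Gamma0 N F
  have hinvG : ∀ γ ∈ CongruenceSubgroup.Gamma0 N, (⇑G : ℍ → ℂ) ∣[l] γ = ⇑G :=
    c2_slash_eq_of_mem_Gamma0 N G
  have hΔ : (fun z => ModularForm.discriminant z) = (Δ : ℍ → ℂ) := rfl
  rw [hΔ] at h
  have hwt : (M : ℤ) * k = 12 + l := by
    apply c3_weight_unique N hFM0
    · intro γ hγ
      rw [c2_pow_slash, hinvF γ hγ]
    · intro γ hγ
      rw [h, ModularForm.mul_slash_SL2, c2_discriminant_slash, hinvG γ hγ]
  refine ⟨{ toFun := F, slash_action_eq' := F.slash_action_eq', holo' := F.holo',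
            zero_at_cusps' := ?_ }, rfl⟩
  intro c hc
  rw [Subgroup.IsArithmetic.isCusp_iff_isCusp_SL2Z] at hc
  rw [OnePoint.isZeroAt_iff_forall_SL2Z hc]
  intro γ _
  have h1 : ((⇑F : ℍ → ℂ) ∣[k] γ) ^ M = (Δ : ℍ → ℂ) * ((⇑G : ℍ → ℂ) ∣[l] γ) := by
    rw [← c2_pow_slash, h, hwt, ModularForm.mul_slash_SL2, c2_discriminant_slash]
  have h2 : IsBoundedAtImInfty ((⇑G : ℍ → ℂ) ∣[l] γ) := ModularFormClass.bdd_at_infty_slash G γ
  have h3 : IsZeroAtImInfty (Δ : ℍ → ℂ) := discriminant_isZeroAtImInfty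
  have h4 : Tendsto (fun z => (((⇑F : ℍ → ℂ) ∣[k] γ) z) ^ M) atImInfty (𝓝 0) := by
    have : (fun z => (((⇑F : ℍ → ℂ) ∣[k] γ) z) ^ M)
        = fun z => (Δ : ℍ → ℂ) z * ((⇑G : ℍ → ℂ) ∣[l] γ) z := by
      funext z
      exact congrFun h1 z
    rw [this]
    exact h3.zero_mul_isBoundedUnder_le (Asymptotics.IsBigO.isBoundedUnder_le h2)
  exact c3_tendsto_zero_of_pow h4

end Fermat.Agent.S23y
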