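import Mathlib

/-!
# S23 project (route B), module G_DESCENT: descent to `ℚ` from specialisations

A `ℂ`-subspace `W ⊆ ℂ^B` such that every `w ∈ W` has its coordinates in a finitely generated
`ℚ`-subalgebra `C ⊆ ℂ`, all of whose specialisations `s : C →+* ℂ` map `w` into `W` again,
is spanned by its rational vectors.  (Pure algebra: Jacobson rings, Zariski's lemma, and the
non-degeneracy of the trace form of a number field.)
-/

set_option autoImplicit false

namespace Fermat.Agent.S23y

open scoped BigOperators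

/-- The coordinatewise coercion `ℚ^B → ℂ^B` as a `ℚ`-linear map. -/
noncomputable def dscCoe (B : ℕ) : (Fin B → ℚ) →ₗ[ℚ] (Fin B → ℂ) :=
  (Algebra.linearMap ℚ ℂ).compLeft (Fin B)

theorem dscCoe_apply {B : ℕ} (r : Fin B → ℚ) (i : Fin B) : dscCoe B r i = (r i : ℂ) := by
  simp [dscCoe]

/-- The rational points of a complex subspace of `ℂ^B`. -/
noncomputable def dscRat {B : ℕ} (W : Submodule ℂ (Fin B → ℂ)) : Submodule ℚ (Fin B → ℚ) :=
  (W.restrictScalars ℚ).comap (dscCoe B)

theorem mem_dscRat {B : ℕ} (W : Submodule ℂ (Fin B → ℂ)) (r : Fin B → ℚ) :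
    r ∈ dscRat W ↔ dscCoe B r ∈ W := by
  simp [dscRat]

/-- The standard basis vectors of `ℚ^B`, in the form used by `LinearMap.pi_apply_eq_sum_univ`. -/
def dscE {B : ℕ} (i : Fin B) : Fin B → ℚ := fun j => if i = j then 1 else 0

theorem dsc_dual_apply {B : ℕ} (f : Module.Dual ℚ (Fin B → ℚ)) (x : Fin B → ℚ) :
    f x = ∑ i, x i * f (dscE i) := by
  have := LinearMap.pi_apply_eq_sum_univ f x
  simp only [smul_eq_mul] at this
  exact this

/-- The number field step: the trace form argument. -/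
theorem dsc_trace_argument {B : ℕ} (W : Submodule ℂ (Fin B → ℂ)) {K : Type*} [Field K]
    [Algebra ℚ K] [FiniteDimensional ℚ K]
    (u : Fin B → K) (hu : ∀ τ : K →ₐ[ℚ] ℂ, (fun i => τ (u i)) ∈ W)
    (f : Module.Dual ℚ (Fin B → ℚ)) (hf : f ∈ (dscRat W).dualAnnihilator) :
    ∑ i, (f (dscE i)) • u i = 0 := by
  classical
  set z : K := ∑ i, (f (dscE i)) • u i with hz
  have key : ∀ x : K, Algebra.trace ℚ K (z * x) = 0 := by
    intro x
    -- the rational vector of traces
    set r : Fin B → ℚ := fun i => Algebra.trace ℚ K (x * u i) with hr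
    have hrW : r ∈ dscRat W := by
      rw [mem_dscRat]
      have hsum : dscCoe B r = ∑ τ : K →ₐ[ℚ] ℂ, τ x • (fun i => τ (u i)) := by
        funext i
        rw [dscCoe_apply, Finset.sum_apply]
        have h1 := trace_eq_sum_embeddings (K := ℚ) (L := K) ℂ (x := x * u i)
        rw [eq_ratCast] at h1
        rw [hr]
        simp only
        rw [h1]
        refine Finset.sum_congr rfl fun τ _ => ?_
        simp [map_mul]
      rw [hsum]
      exact Submodule.sum_mem _ fun τ _ => Submodule.smul_mem _ _ (hu τ)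
    have h0 : f r = 0 := (Submodule.mem_dualAnnihilator f).mp hf r hrW
    rw [dsc_dual_apply] at h0
    have : Algebra.trace ℚ K (z * x) = ∑ i, r i * f (dscE i) := by
      rw [hz, Finset.sum_mul, map_sum]
      refine Finset.sum_congr rfl fun i _ => ?_
      rw [hr]
      simp only
      rw [smul_mul_assoc, map_smul, smul_eq_mul, mul_comm (u i) x, mul_comm]
    rw [this, h0]
  have hnd := traceForm_nondegenerate ℚ K
  by_contra hne
  apply hne
  apply hnd.1 z
  intro x
  rw [Algebra.traceForm_apply]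
  exact key x

/-- Step A: rational functionals vanishing on the rational points of `W` kill every vector of `W`
whose specialisations all stay in `W`. -/
theorem dsc_functional_vanish {B : ℕ} (W : Submodule ℂ (Fin B → ℂ)) (C : Subalgebra ℚ ℂ)
    (hC : C.FG) (v : Fin B → C) (hs : ∀ s : C →+* ℂ, (fun i => s (v i)) ∈ W)
    (f : Module.Dual ℚ (Fin B → ℚ)) (hf : f ∈ (dscRat W).dualAnnihilator) :
    ∑ i, algebraMap ℚ C (f (dscE i)) * v i = 0 := by
  classical
  by_contra hy
  set y : C := ∑ i, algebraMap ℚ C (f (dscE i)) * v i with hydef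
  have : Algebra.FiniteType ℚ C := (Subalgebra.fg_iff_finiteType C).mp hC
  have hJ : IsJacobsonRing C := isJacobsonRing_of_finiteType (A := ℚ)
  obtain ⟨𝔪, h𝔪, hy𝔪⟩ : ∃ 𝔪 : Ideal C, 𝔪.IsMaximal ∧ y ∉ 𝔪 := by
    by_contra hcon
    push Not at hcon
    apply hy
    have h1 : y ∈ (⊥ : Ideal C).jacobson := by
      rw [Ideal.jacobson, Ideal.mem_sInf]
      rintro J ⟨-, hJm⟩
      exact hcon J hJm
    have h2 : (⊥ : Ideal C).jacobson = ⊥ := hJ.out Ideal.isPrime_bot.isRadical
    rw [h2] at h1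
    exact h1
  have := h𝔪
  let _ : Field (C ⧸ 𝔪) := Ideal.Quotient.field 𝔪
  have : Algebra.FiniteType ℚ (C ⧸ 𝔪) :=
    Algebra.FiniteType.of_surjective (Ideal.Quotient.mkₐ ℚ 𝔪) (Ideal.Quotient.mkₐ_surjective ℚ 𝔪)
  have : Module.Finite ℚ (C ⧸ 𝔪) := finite_of_finite_type_of_isJacobsonRing ℚ (C ⧸ 𝔪)
  have hu : ∀ τ : (C ⧸ 𝔪) →ₐ[ℚ] ℂ, (fun i => τ (Ideal.Quotient.mk 𝔪 (v i))) ∈ W := by
    intro τ
    exact hs ((τ : (C ⧸ 𝔪) →+* ℂ).comp (Ideal.Quotient.mk 𝔪))
  have h0 := dsc_trace_argument W (fun i => Ideal.Quotient.mk 𝔪 (v i)) hu f hf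
  apply hy𝔪
  rw [← Ideal.Quotient.eq_zero_iff_mem, hydef, map_sum, ← h0]
  refine Finset.sum_congr rfl fun i _ => ?_
  rw [map_mul, Algebra.smul_def]
  congr 1

/-- Step B: a vector killed by all rational functionals vanishing on the rational points of `W`
is a complex combination of rational points of `W` (expansion along a `ℚ`-basis of `ℂ`). -/
theorem dsc_mem_span_of_functionals {B : ℕ} (W : Submodule ℂ (Fin B → ℂ)) (w : Fin B → ℂ)
    (hw : ∀ f ∈ (dscRat W).dualAnnihilator, ∑ i, (f (dscE i) : ℂ) * w i = 0) :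
    w ∈ Submodule.span ℂ {w' : Fin B → ℂ | w' ∈ W ∧ ∀ i, ∃ r : ℚ, w' i = r} := by
  classical
  set b := Module.Basis.ofVectorSpace ℚ ℂ with hb
  set S : Finset (Module.Basis.ofVectorSpaceIndex ℚ ℂ) :=
    Finset.univ.biUnion fun i => (b.repr (w i)).support with hS
  set r : Module.Basis.ofVectorSpaceIndex ℚ ℂ → Fin B → ℚ := fun α i => b.repr (w i) α with hr
  have hrW : ∀ α, r α ∈ dscRat W := by
    intro α
    rw [← Subspace.dualAnnihilator_dualCoannihilator_eq (W := dscRat W),
      Submodule.mem_dualCoannihilator]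
    intro f hf
    have h0 := hw f hf
    rw [dsc_dual_apply]
    have h1 : b.repr (∑ i, (f (dscE i)) • w i) α = ∑ i, r α i * f (dscE i) := by
      rw [map_sum, Finsupp.coe_finsetSum, Finset.sum_apply]
      refine Finset.sum_congr rfl fun i _ => ?_
      rw [map_smul, Finsupp.smul_apply, smul_eq_mul, mul_comm]
    have h2 : (∑ i, (f (dscE i)) • w i) = 0 := by
      rw [← h0]
      refine Finset.sum_congr rfl fun i _ => ?_
      rw [Rat.smul_def]
    rw [← h1, h2, map_zero, Finsupp.zero_apply]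
  have hexp : w = ∑ α ∈ S, b α • dscCoe B (r α) := by
    funext i
    rw [Finset.sum_apply]
    simp only [Pi.smul_apply, dscCoe_apply, smul_eq_mul]
    have h1 := b.linearCombination_repr (w i)
    rw [Finsupp.linearCombination_apply] at h1
    have hsub : (b.repr (w i)).support ⊆ S := by
      intro α hα
      rw [hS, Finset.mem_biUnion]
      exact ⟨i, Finset.mem_univ _, hα⟩
    rw [Finsupp.sum_of_support_subset _ hsub _ (fun α _ => zero_smul ℚ (b α))] at h1
    rw [← h1]
    refine Finset.sum_congr rfl fun α _ => ?_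
    rw [hr, Rat.smul_def, mul_comm]
  rw [hexp]
  refine Submodule.sum_mem _ fun α _ => Submodule.smul_mem _ _ (Submodule.subset_span ⟨?_, ?_⟩)
  · exact (mem_dscRat W (r α)).mp (hrW α)
  · intro i
    exact ⟨r α i, dscCoe_apply (r α) i⟩

/-- **Descent from specialisations.**  If every `w ∈ W` has coordinates in a finitely generated
`ℚ`-subalgebra `C` of `ℂ` all of whose specialisations `C →+* ℂ` map `w` into `W`, then `W` is
spanned by its rational vectors. -/
theorem span_rat_of_specializations {B : ℕ} (W : Submodule ℂ (Fin B → ℂ))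
    (h : ∀ w ∈ W, ∃ C : Subalgebra ℚ ℂ, C.FG ∧ ∃ v : Fin B → C, (∀ i, (v i : ℂ) = w i) ∧
      ∀ s : C →+* ℂ, (fun i => s (v i)) ∈ W) :
    Submodule.span ℂ {w : Fin B → ℂ | w ∈ W ∧ ∀ i, ∃ r : ℚ, w i = r} = W := by
  apply le_antisymm
  · exact Submodule.span_le.mpr fun w hw => hw.1
  · intro w hw
    obtain ⟨C, hC, v, hv, hs⟩ := h w hw
    apply dsc_mem_span_of_functionals W w
    intro f hf
    have h0 := dsc_functional_vanish W C hC v hs f hf
    have h1 : ((∑ i, algebraMap ℚ C (f (dscE i)) * v i : C) : ℂ) = 0 := by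
      rw [h0]; rfl
    rw [← h1]
    push_cast
    refine Finset.sum_congr rfl fun i _ => ?_
    rw [hv i]
    congr 1

end Fermat.Agent.S23y
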