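/-
S23 project, module B (norm polynomial), CORE in pure Mathlib terms.

For modular forms `F` (weight `ka`) and `G` (weight `kb`) on a finite-index subgroup `𝒢`, the
coefficients of `∏_q (G_q X - F_q Y)` (product over the cosets `q` of `𝒢` in `SL₂(ℤ)`) are
level-one modular forms, and the polynomial vanishes at `(X, Y) = (F, G)`.
-/
import Mathlib

set_option autoImplicit false

open UpperHalfPlane ModularForm SlashInvariantForm
open scoped MatrixGroups ModularForm Manifold Topology Filter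

namespace Fermat.Agent.S23y.NPC

/-- the image of SL(2,ℤ) in GL(2,ℝ) -/
abbrev SLZ : Subgroup (GL (Fin 2) ℝ) := 𝒮ℒ

/-- the coset space `SL₂(ℤ) / (𝒢 ∩ SL₂(ℤ))` -/
abbrev Q (𝒢 : Subgroup (GL (Fin 2) ℝ)) : Type := SLZ ⧸ (𝒢.subgroupOf SLZ)

variable {𝒢 : Subgroup (GL (Fin 2) ℝ)}

section core

variable [Fintype (Q 𝒢)] [DecidableEq (Q 𝒢)]
variable {ka kb : ℤ} (F : ModularForm 𝒢 ka) (G : ModularForm 𝒢 kb)

/-- choose the `F`-translate on `S` and the `G`-translate off `S` -/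
noncomputable def pick (S : Finset (Q 𝒢)) (q : Q 𝒢) : ℍ → ℂ :=
  if q ∈ S then quotientFunc F q else quotientFunc G q

/-- the corresponding weights -/
def wtp (ka kb : ℤ) (S : Finset (Q 𝒢)) (q : Q 𝒢) : ℤ := if q ∈ S then ka else kb

/-- `∏_{q ∈ S} F_q * ∏_{q ∉ S} G_q` -/
noncomputable def mixedTerm (S : Finset (Q 𝒢)) : ℍ → ℂ := ∏ q, pick F G S q

/-- the sum of all mixed terms with `#S = i` -/
noncomputable def mixedCoeff (i : ℕ) : ℍ → ℂ :=
  ∑ S ∈ Finset.powersetCard i (Finset.univ : Finset (Q 𝒢)), mixedTerm F G S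

lemma sum_wtp (S : Finset (Q 𝒢)) :
    ∑ q, wtp ka kb S q = ka * S.card + kb * ((Fintype.card (Q 𝒢) : ℤ) - S.card) := by
  unfold wtp
  rw [Finset.sum_ite, Finset.sum_const, Finset.sum_const]
  have h1 : (Finset.univ.filter (fun q => q ∈ S)) = S := by ext; simp
  have h2 : (Finset.univ.filter (fun q => ¬ q ∈ S)) = Sᶜ := by ext; simp
  rw [h1, h2, Finset.card_compl]
  have : S.card ≤ Fintype.card (Q 𝒢) := Finset.card_le_univ S
  simp only [nsmul_eq_mul, Nat.cast_sub this]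
  ring

lemma mixedTerm_eq (S : Finset (Q 𝒢)) :
    mixedTerm F G S = (∏ q ∈ S, quotientFunc F q) * ∏ q ∈ Sᶜ, quotientFunc G q := by
  unfold mixedTerm pick
  rw [Finset.prod_ite]
  have h1 : (Finset.univ.filter (fun q => q ∈ S)) = S := by ext; simp
  have h2 : (Finset.univ.filter (fun q => ¬ q ∈ S)) = Sᶜ := by ext; simp
  rw [h1, h2]

/-- slash of a `pick` by an element of `SL₂(ℤ)`: permutes the cosets -/
lemma pick_slash {h : GL (Fin 2) ℝ} (hh : h ∈ SLZ) (S : Finset (Q 𝒢)) (q : Q 𝒢) :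
    pick F G S q ∣[wtp ka kb S q] h =
      pick F G (S.map (MulAction.toPerm (⟨h, hh⟩ : SLZ)⁻¹).toEmbedding)
        ((⟨h, hh⟩ : SLZ)⁻¹ • q) := by
  unfold pick wtp
  have hmem : ((⟨h, hh⟩ : SLZ)⁻¹ • q ∈ S.map (MulAction.toPerm (⟨h, hh⟩ : SLZ)⁻¹).toEmbedding)
      ↔ q ∈ S := by
    simp
  by_cases hq : q ∈ S
  · rw [if_pos hq, if_pos hq, if_pos (hmem.mpr hq)]
    exact quotientFunc_smul F hh q
  · rw [if_neg hq, if_neg hq, if_neg (fun h' => hq (hmem.mp h'))]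
    exact quotientFunc_smul G hh q

lemma mixedTerm_slash {h : GL (Fin 2) ℝ} (hh : h ∈ SLZ) (S : Finset (Q 𝒢)) :
    mixedTerm F G S ∣[∑ q, wtp ka kb S q] h =
      mixedTerm F G (S.map (MulAction.toPerm (⟨h, hh⟩ : SLZ)⁻¹).toEmbedding) := by
  unfold mixedTerm
  rw [prod_slash_sum_weights]
  have hdet : |(h.det : ℝ)| = 1 := Subgroup.HasDetPlusMinusOne.abs_det hh
  rw [hdet, one_zpow, one_smul]
  simp_rw [pick_slash F G hh]
  exact Equiv.prod_comp (MulAction.toPerm (⟨h, hh⟩ : SLZ)⁻¹)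
    (fun q => pick F G (S.map (MulAction.toPerm (⟨h, hh⟩ : SLZ)⁻¹).toEmbedding) q)

/-- weight of the `i`-th coefficient -/
def cwt (𝒢 : Subgroup (GL (Fin 2) ℝ)) [Fintype (Q 𝒢)] (ka kb : ℤ) (i : ℕ) : ℤ :=
  ka * i + kb * ((Fintype.card (Q 𝒢) : ℤ) - i)

lemma mixedCoeff_slash {h : GL (Fin 2) ℝ} (hh : h ∈ SLZ) (i : ℕ) :
    mixedCoeff F G i ∣[cwt 𝒢 ka kb i] h = mixedCoeff F G i := by
  unfold mixedCoeff
  rw [SlashAction.sum_slash]
  set e : Q 𝒢 ≃ Q 𝒢 := MulAction.toPerm (⟨h, hh⟩ : SLZ)⁻¹ with he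
  have hterm : ∀ S ∈ Finset.powersetCard i (Finset.univ : Finset (Q 𝒢)),
      mixedTerm F G S ∣[cwt 𝒢 ka kb i] h = mixedTerm F G (S.map e.toEmbedding) := by
    intro S hS
    have hc : S.card = i := (Finset.mem_powersetCard.mp hS).2
    have hw : cwt 𝒢 ka kb i = ∑ q, wtp ka kb S q := by
      rw [sum_wtp, hc, cwt]
    rw [hw]
    exact mixedTerm_slash F G hh S
  rw [Finset.sum_congr rfl hterm]
  have hmap : (Finset.powersetCard i (Finset.univ : Finset (Q 𝒢))).map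
      (Finset.mapEmbedding e.toEmbedding).toEmbedding
      = Finset.powersetCard i (Finset.univ : Finset (Q 𝒢)) := by
    rw [← Finset.powersetCard_map, Finset.map_univ_equiv]
  conv_rhs => rw [← hmap]
  rw [Finset.sum_map]
  rfl

omit [Fintype (Q 𝒢)] [DecidableEq (Q 𝒢)] in
lemma mdiff_quotientFunc {k : ℤ} (f : ModularForm 𝒢 k) (q : Q 𝒢) :
    MDiff (quotientFunc f q) := by
  induction q using Quotient.inductionOn with
  | h r => exact (ModularForm.translate f r.val⁻¹).holo'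

lemma mdiff_pick (S : Finset (Q 𝒢)) (q : Q 𝒢) : MDiff (pick F G S q) := by
  unfold pick
  split_ifs
  · exact mdiff_quotientFunc F q
  · exact mdiff_quotientFunc G q

lemma mdiff_mixedTerm (S : Finset (Q 𝒢)) : MDiff (mixedTerm F G S) :=
  MDifferentiable.prod fun q _ => mdiff_pick F G S q

lemma mdiff_mixedCoeff (i : ℕ) : MDiff (mixedCoeff F G i) :=
  MDifferentiable.sum fun S _ => mdiff_mixedTerm F G S

omit [Fintype (Q 𝒢)] [DecidableEq (Q 𝒢)] in
lemma bdd_quotientFunc [𝒢.IsFiniteRelIndex SLZ] {k : ℤ} (f : ModularForm 𝒢 k) (q : Q 𝒢)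
    {c : OnePoint ℝ} (hc : IsCusp c SLZ) (γ : GL (Fin 2) ℝ) (hγ : γ • OnePoint.infty = c) :
    IsBoundedAtImInfty (quotientFunc f q ∣[k] γ) := by
  induction q using Quotient.inductionOn with
  | h r =>
    refine (ModularForm.translate f r.val⁻¹).bdd_at_cusps' ?_ γ hγ
    simpa using hc.of_isFiniteRelIndex_conj r.2

lemma bdd_mixedTerm [𝒢.IsFiniteRelIndex SLZ] (S : Finset (Q 𝒢))
    {c : OnePoint ℝ} (hc : IsCusp c SLZ) (γ : GL (Fin 2) ℝ) (hγ : γ • OnePoint.infty = c) :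
    IsBoundedAtImInfty (mixedTerm F G S ∣[∑ q, wtp ka kb S q] γ) := by
  unfold mixedTerm
  rw [prod_slash_sum_weights]
  refine Filter.BoundedAtFilter.smul _ (Filter.BoundedAtFilter.prod _ ?_)
  intro q _
  unfold pick wtp
  split_ifs
  · exact bdd_quotientFunc F q hc γ hγ
  · exact bdd_quotientFunc G q hc γ hγ

lemma bdd_mixedCoeff [𝒢.IsFiniteRelIndex SLZ] (i : ℕ)
    {c : OnePoint ℝ} (hc : IsCusp c SLZ) (γ : GL (Fin 2) ℝ) (hγ : γ • OnePoint.infty = c) :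
    IsBoundedAtImInfty (mixedCoeff F G i ∣[cwt 𝒢 ka kb i] γ) := by
  unfold mixedCoeff
  rw [SlashAction.sum_slash]
  rw [IsBoundedAtImInfty, Filter.BoundedAtFilter, Finset.sum_fn]
  refine Asymptotics.IsBigO.fun_sum fun S hS => ?_
  have hcard : S.card = i := (Finset.mem_powersetCard.mp hS).2
  have hw : cwt 𝒢 ka kb i = ∑ q, wtp ka kb S q := by
    rw [sum_wtp, hcard, cwt]
  rw [hw]
  exact bdd_mixedTerm F G S hc γ hγ

/-- The `i`-th mixed coefficient as a level-one modular form. -/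
noncomputable def mixedMF [𝒢.IsFiniteRelIndex SLZ] (i : ℕ) :
    ModularForm SLZ (cwt 𝒢 ka kb i) where
  toFun := mixedCoeff F G i
  slash_action_eq' _ hh := mixedCoeff_slash F G hh i
  holo' := mdiff_mixedCoeff F G i
  bdd_at_cusps' hc γ hγ := bdd_mixedCoeff F G i hc γ hγ

omit [Fintype (Q 𝒢)] [DecidableEq (Q 𝒢)] in
lemma quotientFunc_one {k : ℤ} (f : ModularForm 𝒢 k) :
    quotientFunc f ((1 : SLZ) : Q 𝒢) = ⇑f := by
  show (⇑f) ∣[k] ((1 : SLZ) : GL (Fin 2) ℝ)⁻¹ = ⇑f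
  simp

/-- the polynomial identity `∑ (-1)^i m_i F^(n-i) G^i = ∏_q (G_q F - F_q G) = 0` -/
lemma mixed_relation (τ : ℍ) :
    ∑ i ∈ Finset.range (Fintype.card (Q 𝒢) + 1),
      (-1) ^ i * mixedCoeff F G i τ * F τ ^ (Fintype.card (Q 𝒢) - i) * G τ ^ i = 0 := by
  have hprod : ∏ q : Q 𝒢, (-(quotientFunc F q τ * G τ) + quotientFunc G q τ * F τ) = 0 := by
    apply Finset.prod_eq_zero (Finset.mem_univ ((1 : SLZ) : Q 𝒢))
    rw [quotientFunc_one, quotientFunc_one]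
    ring
  rw [Fintype.prod_add, ← Finset.powerset_univ, Finset.sum_powerset, Finset.card_univ] at hprod
  rw [← hprod]
  refine Finset.sum_congr rfl fun i _ => ?_
  unfold mixedCoeff
  rw [Finset.sum_apply, Finset.mul_sum, Finset.sum_mul, Finset.sum_mul]
  refine Finset.sum_congr rfl fun S hS => ?_
  have hcard : S.card = i := (Finset.mem_powersetCard.mp hS).2
  rw [mixedTerm_eq]
  simp only [Pi.mul_apply, Finset.prod_apply]
  rw [Finset.prod_neg, Finset.prod_mul_distrib, Finset.prod_mul_distrib, Finset.prod_const,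
    Finset.prod_const, Finset.card_compl, hcard]
  ring

end core

section main

variable {ka kb : ℤ}

/-- change of weight along an equality, at the level of "is a level-one modular form" -/
lemma exists_mf_congr {Γ : Subgroup (GL (Fin 2) ℝ)} {k k' : ℤ} (h : k = k') {f : ℍ → ℂ}
    (hf : ∃ M : ModularForm Γ k, ⇑M = f) : ∃ M : ModularForm Γ k', ⇑M = f := by
  subst h; exact hf

/-- **Norm polynomial (pair version).** For modular forms `F`, `G` on `𝒢` of weights `ka`, `kb`,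
the coefficients `s i` of `∏_q (G_q X - F_q Y)` are level-one modular forms of weight
`ka * i + kb * (n - i)` (`n` the index), `s 0 = Norm G`, and `∑ s i F^(n-i) G^i = 0`. -/
theorem exists_pair [𝒢.IsFiniteRelIndex SLZ] (F : ModularForm 𝒢 ka) (G : ModularForm 𝒢 kb) :
    ∃ s : ℕ → ℍ → ℂ,
      (∀ i : ℕ, ∃ M : ModularForm SLZ (ka * i + kb * ((Nat.card (Q 𝒢) : ℤ) - i)), ⇑M = s i) ∧
      ((⇑G : ℍ → ℂ) ≠ 0 → s 0 ≠ 0) ∧
      ∑ i ∈ Finset.range (Nat.card (Q 𝒢) + 1),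
        s i * (⇑F : ℍ → ℂ) ^ (Nat.card (Q 𝒢) - i) * (⇑G : ℍ → ℂ) ^ i = 0 := by
  classical
  letI : Fintype (Q 𝒢) := Fintype.ofFinite _
  have hn : Nat.card (Q 𝒢) = Fintype.card (Q 𝒢) := Nat.card_eq_fintype_card
  refine ⟨fun i => (-1 : ℂ) ^ i • mixedCoeff F G i, fun i => ?_, fun hG => ?_, ?_⟩
  · refine exists_mf_congr (k := cwt 𝒢 ka kb i) (by rw [cwt, hn]) ?_
    exact ⟨(-1 : ℂ) ^ i • mixedMF F G i, rfl⟩
  · have h0 : (fun i => (-1 : ℂ) ^ i • mixedCoeff F G i) 0 = ⇑(ModularForm.norm SLZ G) := by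
      simp only [pow_zero, one_smul]
      unfold mixedCoeff
      rw [Finset.powersetCard_zero, Finset.sum_singleton, mixedTerm_eq]
      simp only [Finset.prod_empty, one_mul, Finset.compl_empty]
      rw [ModularForm.coe_norm]
    rw [h0]
    intro h
    exact ModularForm.norm_ne_zero SLZ hG (DFunLike.coe_injective h)
  · funext τ
    rw [hn]
    have := mixed_relation F G τ
    simp only [Finset.sum_apply, Pi.mul_apply, Pi.pow_apply, Pi.smul_apply, smul_eq_mul,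
      Pi.zero_apply]
    exact this

lemma quotientFunc_const [𝒢.HasDetOne] (q : Q 𝒢) :
    quotientFunc (ModularForm.const (Γ := 𝒢) 1) q = 1 := by
  induction q using Quotient.inductionOn with
  | h r =>
    obtain ⟨A, hA⟩ := (r⁻¹).2
    show (⇑(ModularForm.const (Γ := 𝒢) 1)) ∣[(0 : ℤ)] (r : GL (Fin 2) ℝ)⁻¹ = 1
    have h1 : (⇑(ModularForm.const (Γ := 𝒢) 1) : ℍ → ℂ) = 1 := by
      ext τ; simp
    have h2 : ((r : GL (Fin 2) ℝ)⁻¹) = (A : GL (Fin 2) ℝ) := by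
      have : ((r⁻¹ : SLZ) : GL (Fin 2) ℝ) = (r : GL (Fin 2) ℝ)⁻¹ := rfl
      rw [← this, ← hA]; rfl
    rw [h1, h2]
    exact ModularForm.is_invariant_one' A

/-- **Norm polynomial (monic version).** For a modular form `F` on `𝒢` of weight `k`, the
coefficients `s i` of `∏_q (X - F_q)` are level-one modular forms of weight `k * i`, `s 0 = 1`
and `∑ s i F^(n-i) = 0`. -/
theorem exists_monic [𝒢.IsFiniteRelIndex SLZ] [𝒢.HasDetOne] {k : ℤ} (F : ModularForm 𝒢 k) :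
    ∃ s : ℕ → ℍ → ℂ, s 0 = 1 ∧
      (∀ i : ℕ, ∃ M : ModularForm SLZ (k * i), ⇑M = s i) ∧
      ∑ i ∈ Finset.range (Nat.card (Q 𝒢) + 1),
        s i * (⇑F : ℍ → ℂ) ^ (Nat.card (Q 𝒢) - i) = 0 := by
  classical
  letI : Fintype (Q 𝒢) := Fintype.ofFinite _
  have hn : Nat.card (Q 𝒢) = Fintype.card (Q 𝒢) := Nat.card_eq_fintype_card
  refine ⟨fun i => (-1 : ℂ) ^ i • mixedCoeff F (ModularForm.const (Γ := 𝒢) 1) i, ?_, fun i => ?_, ?_⟩
  · simp only [pow_zero, one_smul]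
    unfold mixedCoeff
    rw [Finset.powersetCard_zero, Finset.sum_singleton, mixedTerm_eq]
    simp only [Finset.prod_empty, one_mul, Finset.compl_empty]
    simp_rw [quotientFunc_const]
    simp
  · refine exists_mf_congr (k := cwt 𝒢 k 0 i) (by rw [cwt]; ring) ?_
    exact ⟨(-1 : ℂ) ^ i • mixedMF F (ModularForm.const (Γ := 𝒢) 1) i, rfl⟩
  · funext τ
    rw [hn]
    have := mixed_relation F (ModularForm.const (Γ := 𝒢) 1) τ
    simp only [Finset.sum_apply, Pi.mul_apply, Pi.pow_apply, Pi.smul_apply, smul_eq_mul,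
      Pi.zero_apply]
    simpa [ModularForm.coe_const] using this

end main

section Gamma0

open CongruenceSubgroup

/-- `Γ₀(N)` inside `GL₂(ℝ)`. -/
abbrev G0' (N : ℕ) : Subgroup (GL (Fin 2) ℝ) :=
  ((CongruenceSubgroup.Gamma0 N : Subgroup SL(2, ℤ)) : Subgroup (GL (Fin 2) ℝ))

/-- the number of cosets used by the norm construction is the index of `Γ₀(N)` in `SL₂(ℤ)`. -/
lemma card_Q_G0' (N : ℕ) : Nat.card (Q (G0' N)) = (CongruenceSubgroup.Gamma0 N).index := by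
  show (G0' N).relIndex SLZ = _
  have h1 : SLZ = (⊤ : Subgroup SL(2, ℤ)).map (Matrix.SpecialLinearGroup.mapGL ℝ) := by
    rw [← MonoidHom.range_eq_map]
  rw [h1]
  show ((CongruenceSubgroup.Gamma0 N).map (Matrix.SpecialLinearGroup.mapGL ℝ)).relIndex _ = _
  rw [Subgroup.relIndex_map_map_of_injective _ _ Matrix.SpecialLinearGroup.mapGL_injective,
    Subgroup.relIndex_top_right]

variable (N : ℕ) [NeZero N]

/-- **B1 (raw form).** The homogeneous norm polynomial of a pair of forms on `Γ₀(N)`. -/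
theorem exists_normPoly_raw {la lb : ℤ} {a b : ℍ → ℂ}
    (ha : ∃ F : ModularForm (G0' N) la, ⇑F = a) (hb : ∃ F : ModularForm (G0' N) lb, ⇑F = b)
    (hb0 : b ≠ 0) :
    ∃ s : ℕ → ℍ → ℂ,
      (∀ i : ℕ, ∃ M : ModularForm 𝒮ℒ
        (i * la + (((CongruenceSubgroup.Gamma0 N).index : ℤ) - i) * lb), ⇑M = s i) ∧
      s 0 ≠ 0 ∧
      ∑ i ∈ Finset.range ((CongruenceSubgroup.Gamma0 N).index + 1),
        s i * a ^ ((CongruenceSubgroup.Gamma0 N).index - i) * b ^ i = 0 := by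
  obtain ⟨F, rfl⟩ := ha
  obtain ⟨G, rfl⟩ := hb
  obtain ⟨s, hs, hs0, hrel⟩ := exists_pair F G
  rw [card_Q_G0'] at hrel
  refine ⟨s, fun i => ?_, hs0 hb0, hrel⟩
  obtain ⟨M, hM⟩ := hs i
  refine exists_mf_congr ?_ ⟨M, hM⟩
  rw [card_Q_G0']; ring

/-- **B2 (raw form).** Every form on `Γ₀(N)` is a root of a monic polynomial of degree the index
with level-one coefficients `s i` of weight `k * i` (`s 0 = 1`). -/
theorem exists_monicPoly_raw {k : ℤ} {a : ℍ → ℂ} (ha : ∃ F : ModularForm (G0' N) k, ⇑F = a) :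
    ∃ s : ℕ → ℍ → ℂ, s 0 = 1 ∧ (∀ i : ℕ, ∃ M : ModularForm 𝒮ℒ (k * i), ⇑M = s i) ∧
      ∑ i ∈ Finset.range ((CongruenceSubgroup.Gamma0 N).index + 1),
        s i * a ^ ((CongruenceSubgroup.Gamma0 N).index - i) = 0 := by
  obtain ⟨F, rfl⟩ := ha
  obtain ⟨s, hs0, hs, hrel⟩ := exists_monic F
  rw [card_Q_G0'] at hrel
  exact ⟨s, hs0, hs, hrel⟩

/-- **B2 (raw form, shifted indexing).** `a ^ n + ∑_{i < n} e i * a ^ (n - 1 - i) = 0` with
`e i` a level-one form of weight `(i + 1) * k`. -/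
theorem exists_monicPoly_raw' {k : ℤ} {a : ℍ → ℂ} (ha : ∃ F : ModularForm (G0' N) k, ⇑F = a) :
    ∃ e : ℕ → ℍ → ℂ, (∀ i : ℕ, ∃ M : ModularForm 𝒮ℒ (((i + 1 : ℕ) : ℤ) * k), ⇑M = e i) ∧
      a ^ (CongruenceSubgroup.Gamma0 N).index +
        ∑ i ∈ Finset.range (CongruenceSubgroup.Gamma0 N).index,
          e i * a ^ ((CongruenceSubgroup.Gamma0 N).index - 1 - i) = 0 := by
  obtain ⟨s, hs0, hs, hrel⟩ := exists_monicPoly_raw N ha
  refine ⟨fun i => s (i + 1), fun i => ?_, ?_⟩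
  · obtain ⟨M, hM⟩ := hs (i + 1)
    exact exists_mf_congr (by push_cast; ring) ⟨M, hM⟩
  · rw [Finset.sum_range_succ', hs0] at hrel
    simp only [Nat.sub_zero, one_mul] at hrel
    rw [add_comm]
    convert hrel using 2
    refine Finset.sum_congr rfl fun i _ => ?_
    rw [Nat.sub_sub, add_comm 1 i]

end Gamma0

end Fermat.Agent.S23y.NPC
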