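/-
S23 project, route B (captain helper97), module B_NORMPOLY (helper9): the norm polynomial.
Thin wrapper of `Fermat.Agent.S23y.NPC` (file `NormPolyCore.lean`, pure Mathlib) in the language of
`S23y/Defs.lean`. Statements are exactly those of `S23y/Spec.lean` (B1, B2).
-/
import Fermat.Agent.S23y.Defs
import Fermat.Agent.S23y.NormPolyCore

set_option autoImplicit false

namespace Fermat.Agent.S23y

open UpperHalfPlane ModularForm ModularFormClass
open scoped MatrixGroups Manifold ModularForm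

variable (N : ℕ) [NeZero N]

/-- B1: the homogeneous norm polynomial of a pair of forms. -/
theorem exists_normPoly {la lb : ℤ} {a b : ℍ → ℂ} (ha : IsMF (G0 N) la a)
    (hb : IsMF (G0 N) lb b) (hb0 : b ≠ 0) :
    ∃ s : ℕ → ℍ → ℂ, (∀ i, i ≤ psi N → IsMF 𝒮ℒ (i * la + ((psi N : ℤ) - i) * lb) (s i)) ∧
      s 0 ≠ 0 ∧ ∑ i ∈ Finset.range (psi N + 1), s i * a ^ (psi N - i) * b ^ i = 0 := by
  obtain ⟨s, hs, hs0, hrel⟩ := NPC.exists_normPoly_raw N ha hb hb0
  exact ⟨s, fun i _ => hs i, hs0, hrel⟩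

/-- B1, variant: all the `s i` (also for `i > psi N`, where they vanish) are level-one forms. -/
theorem exists_normPoly' {la lb : ℤ} {a b : ℍ → ℂ} (ha : IsMF (G0 N) la a)
    (hb : IsMF (G0 N) lb b) (hb0 : b ≠ 0) :
    ∃ s : ℕ → ℍ → ℂ, (∀ i : ℕ, IsMF 𝒮ℒ (i * la + ((psi N : ℤ) - i) * lb) (s i)) ∧
      s 0 ≠ 0 ∧ ∑ i ∈ Finset.range (psi N + 1), s i * a ^ (psi N - i) * b ^ i = 0 :=
  NPC.exists_normPoly_raw N ha hb hb0

/-- B2: every form on `Γ₀(N)` is a root of a monic polynomial of degree `psi N` with level one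
coefficients of the right weights. -/
theorem exists_monicPoly {k : ℤ} {a : ℍ → ℂ} (ha : IsMF (G0 N) k a) :
    ∃ e : ℕ → ℍ → ℂ, (∀ i, IsMF 𝒮ℒ ((i + 1 : ℕ) * k) (e i)) ∧
      a ^ psi N + ∑ i ∈ Finset.range (psi N), e i * a ^ (psi N - 1 - i) = 0 :=
  NPC.exists_monicPoly_raw' N ha

/-- B2, unshifted variant: `∑_{i ≤ ψ} s i * a ^ (ψ - i) = 0` with `s 0 = 1` and `s i` a level-one
form of weight `k * i`. -/
theorem exists_monicPoly' {k : ℤ} {a : ℍ → ℂ} (ha : IsMF (G0 N) k a) :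
    ∃ s : ℕ → ℍ → ℂ, s 0 = 1 ∧ (∀ i : ℕ, IsMF 𝒮ℒ (k * i) (s i)) ∧
      ∑ i ∈ Finset.range (psi N + 1), s i * a ^ (psi N - i) = 0 :=
  NPC.exists_monicPoly_raw N ha

end Fermat.Agent.S23y
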