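/-
S23 project (route B), module E1_DEGLE: the fields of ratios of modular forms inside `ℂ((q))`.
`ratField hΓ` = `q`-expansions of ratios `c / d` of two modular forms of the same weight on `Γ`.
`k1 = ratField goodGroup_SL` (level one), `RN N = ratField (goodGroup_G0 N)`.  Every element of
`RN N` is integral over `k1` of degree at most `psi N` (norm polynomial, module B; the core statements
take it as the hypothesis `NormPolyHyp N`, the final ones use `exists_normPoly`).  Clearing denominators in `ratField`.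
-/
import Fermat.Agent.S23x.QRing
import Fermat.Agent.S23y.Defs
import Fermat.Agent.S23y.NormPoly

set_option autoImplicit false

namespace Fermat.Agent.S23y

open UpperHalfPlane ModularForm ModularFormClass Polynomial
open scoped MatrixGroups Manifold ModularForm
open Fermat.Agent.S23x (qL LS IsNice qL_mul qL_add qL_eq_zero_iff)

/-! ### small `IsMF` API (local names, to stay independent of the shared API file) -/

theorem k1_isMF_add {Γ : Subgroup (GL (Fin 2) ℝ)} {k : ℤ} {f g : ℍ → ℂ}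
    (hf : IsMF Γ k f) (hg : IsMF Γ k g) : IsMF Γ k (f + g) := by
  obtain ⟨F, rfl⟩ := hf
  obtain ⟨G, rfl⟩ := hg
  exact ⟨F + G, rfl⟩

theorem k1_isMF_smul {Γ : Subgroup (GL (Fin 2) ℝ)} [Γ.HasDetOne] {k : ℤ} {f : ℍ → ℂ}
    (c : ℂ) (hf : IsMF Γ k f) : IsMF Γ k (c • f) := by
  obtain ⟨F, rfl⟩ := hf
  exact ⟨c • F, rfl⟩

theorem k1_isMF_mul {Γ : Subgroup (GL (Fin 2) ℝ)} [Γ.HasDetPlusMinusOne] {k l : ℤ} {f g : ℍ → ℂ}
    (hf : IsMF Γ k f) (hg : IsMF Γ l g) : IsMF Γ (k + l) (f * g) := by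
  obtain ⟨F, rfl⟩ := hf
  obtain ⟨G, rfl⟩ := hg
  exact ⟨F.mul G, rfl⟩

theorem k1_isMF_zero (Γ : Subgroup (GL (Fin 2) ℝ)) (k : ℤ) : IsMF Γ k (0 : ℍ → ℂ) := ⟨0, rfl⟩

theorem k1_isMF_cast {Γ : Subgroup (GL (Fin 2) ℝ)} {k l : ℤ} {f : ℍ → ℂ} (hf : IsMF Γ k f)
    (h : k = l) : IsMF Γ l f := h ▸ hf

theorem k1_G0_le (N : ℕ) : G0 N ≤ 𝒮ℒ := by
  intro g hg
  obtain ⟨x, _, rfl⟩ := hg
  exact ⟨x, rfl⟩

theorem k1_isMF_of_levelOne (N : ℕ) [NeZero N] {k : ℤ} {f : ℍ → ℂ} (h : IsMF 𝒮ℒ k f) : IsMF (G0 N) k f := by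
  obtain ⟨F, rfl⟩ := h
  refine ⟨{ toFun := F
            slash_action_eq' := fun γ hγ => F.slash_action_eq' γ (k1_G0_le N hγ)
            holo' := F.holo'
            bdd_at_cusps' := fun hc =>
              F.bdd_at_cusps' ((Subgroup.IsArithmetic.isCusp_iff_isCusp_SL2Z _).mp hc) }, rfl⟩

theorem k1_qL_zero : qL (0 : ℍ → ℂ) = 0 :=
  (qL_eq_zero_iff (Fermat.Agent.S23x.isNice_const 0)).mpr rfl

theorem k1_qL_one : qL (fun _ : ℍ => (1 : ℂ)) = 1 := by
  rw [Fermat.Agent.S23x.qL_const]; simp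

theorem k1_one_ne_zero : (fun _ : ℍ => (1 : ℂ)) ≠ 0 := fun h =>
  one_ne_zero (congrFun h UpperHalfPlane.I)

/-! ### good groups -/

/-- Groups `Γ` for which modular forms have good `q`-expansions. -/
structure GoodGroup (Γ : Subgroup (GL (Fin 2) ℝ)) : Prop where
  det : Γ.HasDetOne
  nice : ∀ {k : ℤ} {f : ℍ → ℂ}, IsMF Γ k f → IsNice f

theorem goodGroup_SL : GoodGroup 𝒮ℒ where
  det := inferInstance
  nice := fun {k _} h => Fermat.Agent.S23x.IsMF1.isNice (k := k) h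

theorem goodGroup_G0 (N : ℕ) [NeZero N] : GoodGroup (G0 N) where
  det := inferInstance
  nice := fun {k _} h => Fermat.Agent.S23x.IsMF.isNice (N := N) (k := k) h

/-! ### ratios of forms of equal weight -/

/-- `x` is the `q`-expansion of a ratio `c / d` of two modular forms on `Γ` of the same weight. -/
def IsRat (Γ : Subgroup (GL (Fin 2) ℝ)) (x : LS) : Prop :=
  ∃ (w : ℤ) (c d : ℍ → ℂ), IsMF Γ w c ∧ IsMF Γ w d ∧ d ≠ 0 ∧ x * qL d = qL c

section closure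

variable {Γ : Subgroup (GL (Fin 2) ℝ)} (hΓ : GoodGroup Γ)
include hΓ

theorem GoodGroup.qL_ne_zero {k : ℤ} {d : ℍ → ℂ} (hd : IsMF Γ k d) (hd0 : d ≠ 0) : qL d ≠ 0 :=
  fun h => hd0 ((qL_eq_zero_iff (hΓ.nice hd)).mp h)

theorem GoodGroup.isMF_one : IsMF Γ 0 (fun _ => (1 : ℂ)) := by
  have := hΓ.det
  exact ⟨ModularForm.const 1, rfl⟩

theorem GoodGroup.isMF_mul {k l : ℤ} {f g : ℍ → ℂ} (hf : IsMF Γ k f) (hg : IsMF Γ l g) :
    IsMF Γ (k + l) (f * g) := by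
  have := hΓ.det
  exact k1_isMF_mul hf hg

theorem GoodGroup.mul_ne_zero {k l : ℤ} {d d' : ℍ → ℂ} (hd : IsMF Γ k d) (hd' : IsMF Γ l d')
    (hd0 : d ≠ 0) (hd0' : d' ≠ 0) : d * d' ≠ 0 := by
  intro h
  have h1 : qL (d * d') = qL d * qL d' := qL_mul (hΓ.nice hd) (hΓ.nice hd')
  rw [h, k1_qL_zero] at h1
  exact _root_.mul_ne_zero (hΓ.qL_ne_zero hd hd0) (hΓ.qL_ne_zero hd' hd0') h1.symm

theorem isRat_zero : IsRat Γ 0 :=
  ⟨0, 0, fun _ => 1, k1_isMF_zero Γ 0, hΓ.isMF_one, k1_one_ne_zero,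
    by rw [zero_mul, k1_qL_zero]⟩

theorem isRat_one : IsRat Γ 1 :=
  ⟨0, fun _ => 1, fun _ => 1, hΓ.isMF_one, hΓ.isMF_one, k1_one_ne_zero, one_mul _⟩

theorem IsRat.add {x y : LS} (hx : IsRat Γ x) (hy : IsRat Γ y) : IsRat Γ (x + y) := by
  obtain ⟨w, c, d, hc, hd, hd0, hxd⟩ := hx
  obtain ⟨w', c', d', hc', hd', hd0', hyd⟩ := hy
  refine ⟨w + w', c * d' + d * c', d * d', k1_isMF_add (hΓ.isMF_mul hc hd') (hΓ.isMF_mul hd hc'),
    hΓ.isMF_mul hd hd', hΓ.mul_ne_zero hd hd' hd0 hd0', ?_⟩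
  rw [qL_mul (hΓ.nice hd) (hΓ.nice hd'),
    qL_add (hΓ.nice (hΓ.isMF_mul hc hd')) (hΓ.nice (hΓ.isMF_mul hd hc')),
    qL_mul (hΓ.nice hc) (hΓ.nice hd'), qL_mul (hΓ.nice hd) (hΓ.nice hc'), ← hxd, ← hyd]
  ring

theorem IsRat.mul {x y : LS} (hx : IsRat Γ x) (hy : IsRat Γ y) : IsRat Γ (x * y) := by
  obtain ⟨w, c, d, hc, hd, hd0, hxd⟩ := hx
  obtain ⟨w', c', d', hc', hd', hd0', hyd⟩ := hy
  refine ⟨w + w', c * c', d * d', hΓ.isMF_mul hc hc', hΓ.isMF_mul hd hd',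
    hΓ.mul_ne_zero hd hd' hd0 hd0', ?_⟩
  rw [qL_mul (hΓ.nice hd) (hΓ.nice hd'), qL_mul (hΓ.nice hc) (hΓ.nice hc'), ← hxd, ← hyd]
  ring

theorem IsRat.neg {x : LS} (hx : IsRat Γ x) : IsRat Γ (-x) := by
  obtain ⟨w, c, d, hc, hd, hd0, hxd⟩ := hx
  have := hΓ.det
  refine ⟨w, (-1 : ℂ) • c, d, k1_isMF_smul (-1) hc, hd, hd0, ?_⟩
  rw [Fermat.Agent.S23x.qL_smul (hΓ.nice hc), ← hxd]
  have h : (-1 : ℂ) • (x * qL d) = -(x * qL d) := neg_one_smul ℂ (x * qL d)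
  rw [h]
  ring

theorem IsRat.inv {x : LS} (hx : IsRat Γ x) : IsRat Γ x⁻¹ := by
  by_cases hx0 : x = 0
  · rw [hx0, inv_zero]
    exact isRat_zero hΓ
  obtain ⟨w, c, d, hc, hd, hd0, hxd⟩ := hx
  have hqc : qL c ≠ 0 := by
    rw [← hxd]
    exact _root_.mul_ne_zero hx0 (hΓ.qL_ne_zero hd hd0)
  have hc0 : c ≠ 0 := by
    rintro rfl
    exact hqc k1_qL_zero
  refine ⟨w, d, c, hd, hc, hc0, ?_⟩
  rw [← hxd, ← mul_assoc, inv_mul_cancel₀ hx0, one_mul]

end closure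

/-- The field of ratios of modular forms of equal weight on `Γ`, inside `ℂ((q))`. -/
def ratField {Γ : Subgroup (GL (Fin 2) ℝ)} (hΓ : GoodGroup Γ) : Subfield LS where
  carrier := {x | IsRat Γ x}
  mul_mem' := fun hx hy => IsRat.mul hΓ hx hy
  one_mem' := isRat_one hΓ
  add_mem' := fun hx hy => IsRat.add hΓ hx hy
  zero_mem' := isRat_zero hΓ
  neg_mem' := fun hx => IsRat.neg hΓ hx
  inv_mem' := fun _ hx => IsRat.inv hΓ hx

theorem mem_ratField {Γ : Subgroup (GL (Fin 2) ℝ)} (hΓ : GoodGroup Γ) (x : LS) :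
    x ∈ ratField hΓ ↔ IsRat Γ x := Iff.rfl

theorem qL_div_mem_ratField {Γ : Subgroup (GL (Fin 2) ℝ)} (hΓ : GoodGroup Γ) {w : ℤ}
    {c d : ℍ → ℂ} (hc : IsMF Γ w c) (hd : IsMF Γ w d) (hd0 : d ≠ 0) :
    qL c / qL d ∈ ratField hΓ :=
  ⟨w, c, d, hc, hd, hd0, div_mul_cancel₀ _ (hΓ.qL_ne_zero hd hd0)⟩

/-- The level one field `k1 ≅ ℂ(j)`. -/
def k1 : Subfield LS := ratField goodGroup_SL

/-- The field of modular functions of level `Γ₀(N)` (as ratios of forms). -/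
def RN (N : ℕ) [NeZero N] : Subfield LS := ratField (goodGroup_G0 N)

theorem mem_k1_iff {x : LS} : x ∈ k1 ↔
    ∃ (w : ℤ) (c d : ℍ → ℂ), IsMF 𝒮ℒ w c ∧ IsMF 𝒮ℒ w d ∧ d ≠ 0 ∧ x * qL d = qL c := Iff.rfl

theorem mem_RN_iff (N : ℕ) [NeZero N] {x : LS} : x ∈ RN N ↔
    ∃ (w : ℤ) (c d : ℍ → ℂ), IsMF (G0 N) w c ∧ IsMF (G0 N) w d ∧ d ≠ 0 ∧ x * qL d = qL c :=
  Iff.rfl

theorem k1_le_RN (N : ℕ) [NeZero N] : k1 ≤ RN N := by
  rintro x ⟨w, c, d, hc, hd, hd0, hxd⟩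
  exact ⟨w, c, d, k1_isMF_of_levelOne N hc, k1_isMF_of_levelOne N hd, hd0, hxd⟩

theorem qL_div_mem_k1 {w : ℤ} {c d : ℍ → ℂ} (hc : IsMF 𝒮ℒ w c) (hd : IsMF 𝒮ℒ w d) (hd0 : d ≠ 0) :
    qL c / qL d ∈ k1 := qL_div_mem_ratField goodGroup_SL hc hd hd0

theorem qL_div_mem_RN (N : ℕ) [NeZero N] {w : ℤ} {c d : ℍ → ℂ} (hc : IsMF (G0 N) w c)
    (hd : IsMF (G0 N) w d) (hd0 : d ≠ 0) : qL c / qL d ∈ RN N :=
  qL_div_mem_ratField (goodGroup_G0 N) hc hd hd0

/-! ### characteristic zero -/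

instance k1_charZero_LS : CharZero LS :=
  charZero_of_injective_algebraMap (algebraMap ℂ LS).injective

instance k1_charZero_subfield (K : Subfield LS) : CharZero K :=
  (algebraMap K LS).charZero

/-! ### the degree bound -/

/-- Pure algebra: a relation `∑_{r ≤ μ} a r * x ^ r = 0` in a field extension `L / K` with
`a μ ≠ 0` and all `a r / a μ ∈ K` gives a monic polynomial of degree `μ` over `K` killing `x`. -/
theorem k1_exists_monic {K L : Type*} [Field K] [Field L] [Algebra K L] (μ : ℕ) (a : ℕ → L)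
    (x : L) (hμ : a μ ≠ 0) (hmem : ∀ r ≤ μ, ∃ b : K, algebraMap K L b = a r / a μ)
    (hrel : ∑ r ∈ Finset.range (μ + 1), a r * x ^ r = 0) :
    ∃ P : Polynomial K, P.Monic ∧ P.natDegree = μ ∧ Polynomial.aeval x P = 0 := by
  classical
  choose! b hb using hmem
  set q : Polynomial K := ∑ r ∈ Finset.range μ, C (b r) * X ^ r with hq
  have hqdeg : q.degree < (μ : WithBot ℕ) := by
    refine (Polynomial.degree_sum_le _ _).trans_lt ?_
    refine (Finset.sup_lt_iff (WithBot.bot_lt_coe μ)).mpr fun r hr => ?_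
    refine (Polynomial.degree_C_mul_X_pow_le r (b r)).trans_lt ?_
    exact WithBot.coe_lt_coe.mpr (Finset.mem_range.mp hr)
  refine ⟨X ^ μ + q, Polynomial.monic_X_pow_add hqdeg, ?_, ?_⟩
  · have h1 : (X ^ μ + q : Polynomial K).degree = (X ^ μ : Polynomial K).degree :=
      Polynomial.degree_add_eq_left_of_degree_lt (by rwa [Polynomial.degree_X_pow])
    rw [Polynomial.degree_X_pow] at h1
    exact Polynomial.natDegree_eq_of_degree_eq_some h1
  · have h2 : Polynomial.aeval x (X ^ μ + q) = ∑ r ∈ Finset.range (μ + 1), (a r / a μ) * x ^ r := by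
      rw [Finset.sum_range_succ, div_self hμ, one_mul, map_add, hq, map_sum, add_comm]
      congr 1
      · refine Finset.sum_congr rfl fun r hr => ?_
        rw [map_mul, Polynomial.aeval_C, map_pow, Polynomial.aeval_X,
          hb r (Finset.mem_range.mp hr).le]
      · rw [map_pow, Polynomial.aeval_X]
    rw [h2]
    have h3 : ∑ r ∈ Finset.range (μ + 1), (a r / a μ) * x ^ r =
        (a μ)⁻¹ * ∑ r ∈ Finset.range (μ + 1), a r * x ^ r := by
      rw [Finset.mul_sum]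
      refine Finset.sum_congr rfl fun r _ => ?_
      rw [div_eq_mul_inv]; ring
    rw [h3, hrel, mul_zero]

/-- The statement of module B (homogeneous norm polynomial of a pair of forms), as a hypothesis. -/
def NormPolyHyp (N : ℕ) [NeZero N] : Prop :=
  ∀ (la lb : ℤ) (a b : ℍ → ℂ), IsMF (G0 N) la a → IsMF (G0 N) lb b → b ≠ 0 →
    ∃ s : ℕ → ℍ → ℂ, (∀ i, i ≤ psi N → IsMF 𝒮ℒ (i * la + ((psi N : ℤ) - i) * lb) (s i)) ∧
      s 0 ≠ 0 ∧ ∑ i ∈ Finset.range (psi N + 1), s i * a ^ (psi N - i) * b ^ i = 0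

variable {N : ℕ} [NeZero N]

theorem exists_monic_of_mem_RN (hB : NormPolyHyp N) {x : LS} (hx : x ∈ RN N) :
    ∃ P : Polynomial k1, P.Monic ∧ P.natDegree = psi N ∧ Polynomial.aeval x P = 0 := by
  obtain ⟨w, c, d, hc, hd, hd0, hxd⟩ := hx
  obtain ⟨s, hs, hs0, hrel⟩ := hB w w c d hc hd hd0
  set μ := psi N with hμdef
  have hΓ := goodGroup_G0 N
  have hcN : IsNice c := hΓ.nice hc
  have hdN : IsNice d := hΓ.nice hd
  have hsw : ∀ i ≤ μ, IsMF 𝒮ℒ ((μ : ℤ) * w) (s i) := fun i hi =>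
    k1_isMF_cast (hs i hi) (by ring)
  have hsN : ∀ i ≤ μ, IsNice (s i) := fun i hi => goodGroup_SL.nice (hsw i hi)
  have hqd : qL d ≠ 0 := hΓ.qL_ne_zero hd hd0
  have hqs : qL (s 0) ≠ 0 := goodGroup_SL.qL_ne_zero (hsw 0 (Nat.zero_le _)) hs0
  -- apply `qL` to the relation
  have hterm : ∀ i ∈ Finset.range (μ + 1), IsNice (s i * c ^ (μ - i) * d ^ i) := fun i hi =>
    ((hsN i (Nat.lt_succ_iff.mp (Finset.mem_range.mp hi))).mul (hcN.pow _)).mul (hdN.pow _)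
  have h1 : ∑ i ∈ Finset.range (μ + 1), qL (s i) * qL c ^ (μ - i) * qL d ^ i = 0 := by
    have h2 := congrArg qL hrel
    rw [Fermat.Agent.S23x.qL_sum _ _ hterm, k1_qL_zero] at h2
    rw [← h2]
    refine Finset.sum_congr rfl fun i hi => ?_
    have hi' : i ≤ μ := Nat.lt_succ_iff.mp (Finset.mem_range.mp hi)
    rw [qL_mul ((hsN i hi').mul (hcN.pow _)) (hdN.pow _), qL_mul (hsN i hi') (hcN.pow _),
      Fermat.Agent.S23x.qL_pow hcN, Fermat.Agent.S23x.qL_pow hdN]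
  -- substitute `qL c = x * qL d` and cancel `qL d ^ μ`
  have h3 : qL d ^ μ * ∑ i ∈ Finset.range (μ + 1), qL (s i) * x ^ (μ - i) = 0 := by
    rw [← h1, Finset.mul_sum]
    refine Finset.sum_congr rfl fun i hi => ?_
    have hi' : i ≤ μ := Nat.lt_succ_iff.mp (Finset.mem_range.mp hi)
    rw [← hxd, mul_pow]
    have : qL d ^ μ = qL d ^ (μ - i) * qL d ^ i := by
      rw [← pow_add, Nat.sub_add_cancel hi']
    rw [this]; ring
  have h4 : ∑ i ∈ Finset.range (μ + 1), qL (s i) * x ^ (μ - i) = 0 := by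
    rcases mul_eq_zero.mp h3 with h | h
    · exact absurd h (pow_ne_zero μ hqd)
    · exact h
  -- reflect the sum
  have h5 : ∑ r ∈ Finset.range (μ + 1), qL (s (μ - r)) * x ^ r = 0 := by
    rw [← h4, ← Finset.sum_range_reflect (fun i => qL (s i) * x ^ (μ - i)) (μ + 1)]
    refine Finset.sum_congr rfl fun r hr => ?_
    have hr' : r ≤ μ := Nat.lt_succ_iff.mp (Finset.mem_range.mp hr)
    have e1 : μ + 1 - 1 - r = μ - r := by omega
    have e2 : μ - (μ - r) = r := by omega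
    rw [e1, e2]
  refine k1_exists_monic (K := k1) (L := LS) μ (fun r => qL (s (μ - r))) x ?_ (fun r hr => ?_) h5
  · simpa using hqs
  · refine ⟨⟨qL (s (μ - r)) / qL (s (μ - μ)), ?_⟩, rfl⟩
    rw [Nat.sub_self]
    exact qL_div_mem_k1 (hsw _ (Nat.sub_le _ _)) (hsw 0 (Nat.zero_le _)) hs0

theorem isIntegral_natDegree_le_of_mem_RN (hB : NormPolyHyp N) {x : LS} (hx : x ∈ RN N) :
    IsIntegral k1 x ∧ (minpoly k1 x).natDegree ≤ psi N := by
  obtain ⟨P, hP, hdeg, hroot⟩ := exists_monic_of_mem_RN hB hx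
  refine ⟨⟨P, hP, by rwa [Polynomial.aeval_def] at hroot⟩, ?_⟩
  rw [← hdeg]
  exact Polynomial.natDegree_le_natDegree (minpoly.min k1 x hP hroot)

/-- E1: ratios of forms on `Γ₀(N)` of equal weight are algebraic over the level one field `k1`,
of degree at most `psi N` (given the norm polynomial of module B). -/
theorem ratio_isIntegral_natDegree_le_of (hB : NormPolyHyp N) {l : ℤ} {a b : ℍ → ℂ}
    (ha : IsMF (G0 N) l a) (hb : IsMF (G0 N) l b) (hb0 : b ≠ 0) :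
    IsIntegral k1 (qL a / qL b) ∧ (minpoly k1 (qL a / qL b)).natDegree ≤ psi N :=
  isIntegral_natDegree_le_of_mem_RN hB (qL_div_mem_RN N ha hb hb0)

/-! ### clearing denominators -/

/-- If `x ≠ 0` and `x * qL d = qL c` then `c ≠ 0`. -/
theorem ne_zero_of_mul_qL_eq {Γ : Subgroup (GL (Fin 2) ℝ)} (hΓ : GoodGroup Γ) {w : ℤ} {x : LS}
    {c d : ℍ → ℂ} (hd : IsMF Γ w d) (hd0 : d ≠ 0) (hx : x ≠ 0) (h : x * qL d = qL c) : c ≠ 0 := by
  rintro rfl
  rw [k1_qL_zero] at h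
  exact _root_.mul_ne_zero hx (hΓ.qL_ne_zero hd hd0) h

/-- Clearing denominators: a finite family of elements of `ratField hΓ` can be written with a
common weight and a common denominator. -/
theorem exists_common_denom {Γ : Subgroup (GL (Fin 2) ℝ)} (hΓ : GoodGroup Γ) {ι : Type*}
    (s : Finset ι) (x : ι → LS) (hx : ∀ i ∈ s, x i ∈ ratField hΓ) :
    ∃ (w : ℤ) (d : ℍ → ℂ) (c : ι → ℍ → ℂ), IsMF Γ w d ∧ d ≠ 0 ∧
      ∀ i ∈ s, IsMF Γ w (c i) ∧ x i * qL d = qL (c i) := by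
  classical
  induction s using Finset.induction_on with
  | empty =>
    exact ⟨0, fun _ => 1, fun _ => 0, hΓ.isMF_one, k1_one_ne_zero, fun i hi => by simp at hi⟩
  | insert a s ha ih =>
    obtain ⟨w, d, c, hd, hd0, hc⟩ := ih fun i hi => hx i (Finset.mem_insert_of_mem hi)
    obtain ⟨w', c', d', hc', hd', hd0', hxa⟩ := hx a (Finset.mem_insert_self a s)
    refine ⟨w + w', d * d', Function.update (fun i => c i * d') a (d * c'), hΓ.isMF_mul hd hd',
      hΓ.mul_ne_zero hd hd' hd0 hd0', fun i hi => ?_⟩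
    rcases Finset.mem_insert.mp hi with rfl | his
    · rw [Function.update_self]
      refine ⟨hΓ.isMF_mul hd hc', ?_⟩
      rw [qL_mul (hΓ.nice hd) (hΓ.nice hd'), qL_mul (hΓ.nice hd) (hΓ.nice hc'), ← hxa]
      ring
    · have hia : i ≠ a := fun h => ha (h ▸ his)
      rw [Function.update_of_ne hia]
      obtain ⟨hci, hxi⟩ := hc i his
      refine ⟨hΓ.isMF_mul hci hd', ?_⟩
      rw [qL_mul (hΓ.nice hd) (hΓ.nice hd'), qL_mul (hΓ.nice hci) (hΓ.nice hd'), ← hxi]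
      ring

/-- Clearing denominators in a polynomial over `ratField hΓ`: all coefficients are written as
`qL (c i) / qL d` with forms `c i`, `d` of one common weight. -/
theorem exists_common_denom_poly {Γ : Subgroup (GL (Fin 2) ℝ)} (hΓ : GoodGroup Γ)
    (P : Polynomial (ratField hΓ)) :
    ∃ (w : ℤ) (d : ℍ → ℂ) (c : ℕ → ℍ → ℂ), IsMF Γ w d ∧ d ≠ 0 ∧
      ∀ i, IsMF Γ w (c i) ∧ ((P.coeff i : ratField hΓ) : LS) * qL d = qL (c i) := by
  obtain ⟨w, d, c, hd, hd0, hc⟩ := exists_common_denom hΓ (Finset.range (P.natDegree + 1))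
    (fun i => ((P.coeff i : ratField hΓ) : LS)) (fun i _ => (P.coeff i).2)
  refine ⟨w, d, fun i => if i ≤ P.natDegree then c i else 0, hd, hd0, fun i => ?_⟩
  by_cases hi : i ≤ P.natDegree
  · simp only [if_pos hi]
    exact hc i (Finset.mem_range.mpr (Nat.lt_succ_of_le hi))
  · simp only [if_neg hi]
    refine ⟨k1_isMF_zero Γ w, ?_⟩
    rw [Polynomial.coeff_eq_zero_of_natDegree_lt (not_le.mp hi), k1_qL_zero]
    simp

/-- Clearing denominators in a polynomial over `k1`. -/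
theorem exists_common_denom_k1 (P : Polynomial k1) :
    ∃ (w : ℤ) (d : ℍ → ℂ) (c : ℕ → ℍ → ℂ), IsMF 𝒮ℒ w d ∧ d ≠ 0 ∧
      ∀ i, IsMF 𝒮ℒ w (c i) ∧ ((P.coeff i : k1) : LS) * qL d = qL (c i) :=
  exists_common_denom_poly goodGroup_SL P

/-! ### `RN N` as an intermediate field of `ℂ((q)) / k1` -/

variable (N : ℕ) [NeZero N]

/-- `RN N` as an intermediate field over `k1`. -/
noncomputable def RNk : IntermediateField k1 LS :=
  Subfield.toIntermediateField (RN N) fun x => k1_le_RN N x.2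

theorem mem_RNk_iff (x : LS) : x ∈ RNk N ↔ x ∈ RN N := Iff.rfl

theorem adjoin_le_RNk {S : Set LS} (hS : ∀ y ∈ S, y ∈ RN N) :
    IntermediateField.adjoin k1 S ≤ RNk N :=
  IntermediateField.adjoin_le_iff.mpr hS

theorem mem_RN_of_mem_adjoin {S : Set LS} (hS : ∀ y ∈ S, y ∈ RN N) {z : LS}
    (hz : z ∈ IntermediateField.adjoin k1 S) : z ∈ RN N :=
  adjoin_le_RNk N hS hz


/-- Elements of `k1⟮S⟯` with `S ⊆ RN N` are integral over `k1` of degree at most `psi N`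
(the `hall` hypothesis of the primitive element module E4). -/
theorem isIntegral_natDegree_le_of_mem_adjoin {N : ℕ} [NeZero N] (hB : NormPolyHyp N)
    {S : Set LS} (hS : ∀ y ∈ S, y ∈ RN N) {z : LS} (hz : z ∈ IntermediateField.adjoin k1 S) :
    IsIntegral k1 z ∧ (minpoly k1 z).natDegree ≤ psi N :=
  isIntegral_natDegree_le_of_mem_RN hB (mem_RN_of_mem_adjoin N hS hz)

/-! ### final statements (with the norm polynomial of module B) -/

theorem normPolyHyp (N : ℕ) [NeZero N] : NormPolyHyp N :=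
  fun _ _ _ _ ha hb hb0 => exists_normPoly N ha hb hb0

/-- E1: ratios of forms on `Γ₀(N)` of equal weight are algebraic over the level one field `k1`,
of degree at most `psi N`. -/
theorem ratio_isIntegral_natDegree_le (N : ℕ) [NeZero N] {l : ℤ} {a b : ℍ → ℂ}
    (ha : IsMF (G0 N) l a) (hb : IsMF (G0 N) l b) (hb0 : b ≠ 0) :
    IsIntegral k1 (qL a / qL b) ∧ (minpoly k1 (qL a / qL b)).natDegree ≤ psi N :=
  ratio_isIntegral_natDegree_le_of (normPolyHyp N) ha hb hb0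

theorem isIntegral_natDegree_le_of_mem_RN' (N : ℕ) [NeZero N] {x : LS} (hx : x ∈ RN N) :
    IsIntegral k1 x ∧ (minpoly k1 x).natDegree ≤ psi N :=
  isIntegral_natDegree_le_of_mem_RN (normPolyHyp N) hx

theorem isIntegral_natDegree_le_of_mem_adjoin' (N : ℕ) [NeZero N] {S : Set LS}
    (hS : ∀ y ∈ S, y ∈ RN N) {z : LS} (hz : z ∈ IntermediateField.adjoin k1 S) :
    IsIntegral k1 z ∧ (minpoly k1 z).natDegree ≤ psi N :=
  isIntegral_natDegree_le_of_mem_adjoin (normPolyHyp N) hS hz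


end Fermat.Agent.S23y
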