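/-
S23 project, route B, module C1_INTEGRAL (helper17): thin wrapper around the neutral
`Fermat.Agent.X0x.exists_modularForm_mul_eq` in the `IsMF` language of `S23y/Defs.lean`.
-/
import Fermat.Agent.S23y.Defs
import Fermat.Agent.X0x.IntegralQuotient

set_option autoImplicit false

namespace Fermat.Agent.S23y

open UpperHalfPlane ModularForm ModularFormClass
open scoped MatrixGroups Manifold ModularForm

variable (N : ℕ) [NeZero N]

/-- C1: a "meromorphic form" `F / G` which is integral over level one is a modular form. -/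
theorem isMF_of_integral {k l : ℤ} {n : ℕ} {F G : ℍ → ℂ} (hF : IsMF (G0 N) (k + l) F)
    (hG : IsMF (G0 N) l G) (hG0 : G ≠ 0) (c : ℕ → ℍ → ℂ)
    (hc : ∀ i, IsMF 𝒮ℒ ((i + 1 : ℕ) * k) (c i))
    (h : F ^ (n + 1) + ∑ i ∈ Finset.range (n + 1), c i * F ^ (n - i) * G ^ (i + 1) = 0) :
    ∃ H : ℍ → ℂ, IsMF (G0 N) k H ∧ H * G = F := by
  obtain ⟨F', rfl⟩ := hF
  obtain ⟨G', rfl⟩ := hG
  obtain ⟨H, hH⟩ := Fermat.Agent.X0x.exists_modularForm_mul_eq F' G' hG0 c hc h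
  exact ⟨H, ⟨H, rfl⟩, hH⟩

/-- the same for an arbitrary arithmetic subgroup. -/
theorem isMF_of_integral' {Γ : Subgroup (GL (Fin 2) ℝ)} [Γ.HasDetOne] [Γ.IsArithmetic]
    {k l : ℤ} {n : ℕ} {F G : ℍ → ℂ} (hF : IsMF Γ (k + l) F)
    (hG : IsMF Γ l G) (hG0 : G ≠ 0) (c : ℕ → ℍ → ℂ)
    (hc : ∀ i, IsMF 𝒮ℒ ((i + 1 : ℕ) * k) (c i))
    (h : F ^ (n + 1) + ∑ i ∈ Finset.range (n + 1), c i * F ^ (n - i) * G ^ (i + 1) = 0) :
    ∃ H : ℍ → ℂ, IsMF Γ k H ∧ H * G = F := by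
  obtain ⟨F', rfl⟩ := hF
  obtain ⟨G', rfl⟩ := hG
  obtain ⟨H, hH⟩ := Fermat.Agent.X0x.exists_modularForm_mul_eq F' G' hG0 c hc h
  exact ⟨H, ⟨H, rfl⟩, hH⟩

end Fermat.Agent.S23y
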