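/-
S23 route B, module A2_RATQ (helper22): the generators `E₄, E₆, Δ_N` have rational
`q`-expansions.  Reuses the landed route-A files `S23x/LevelOne.lean` (rationality of `E₄, E₆, Δ`)
and `S23x/LevelRaise.lean` (`q`-expansion of `f(N z)`).
-/
import Mathlib
import Fermat.Agent.S23x.LevelRaise
import Fermat.Agent.S23y.Defs

set_option autoImplicit false

namespace Fermat.Agent.S23y

open UpperHalfPlane ModularForm ModularFormClass
open scoped MatrixGroups Manifold ModularForm

variable (N : ℕ) [NeZero N]

/-- the scaling maps of the two routes agree. -/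
theorem a2_mulN_eq_scaleH (z : ℍ) : S23x.mulN N z = scaleH N z := rfl

/-- `q`-expansion coefficients of `Δ(N z)`. -/
theorem a2_qExpansion_DeltaN_coeff (n : ℕ) :
    PowerSeries.coeff n (qExpansion 1 (DeltaN N)) =
      if N ∣ n then PowerSeries.coeff (n / N) (qExpansion 1 ModularForm.discriminant) else 0 :=
  S23x.qExpansion_comp_mulN_coeff N S23x.m08_isMF1_discriminant n

theorem a2_isRatPS_DeltaN : S23x.IsRatPS (qExpansion 1 (DeltaN N)) :=
  S23x.m08_isRatPS_comp_mulN N S23x.m08_isMF1_discriminant S23x.isRatPS_discriminant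

theorem a2_isRatPS_gens (i : Fin 3) : S23x.IsRatPS (qExpansion 1 (fun z => gens N z i)) := by
  fin_cases i
  · have h : (fun z => gens N z ((0 : Fin 3))) = ⇑E₄ := by funext z; simp [gens]
    show S23x.IsRatPS (qExpansion 1 (fun z => gens N z (0 : Fin 3)))
    rw [h]; exact S23x.isRatPS_E4
  · have h : (fun z => gens N z ((1 : Fin 3))) = ⇑E₆ := by funext z; simp [gens]
    show S23x.IsRatPS (qExpansion 1 (fun z => gens N z (1 : Fin 3)))
    rw [h]; exact S23x.isRatPS_E6
  · have h : (fun z => gens N z ((2 : Fin 3))) = DeltaN N := by funext z; simp [gens]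
    show S23x.IsRatPS (qExpansion 1 (fun z => gens N z (2 : Fin 3)))
    rw [h]; exact a2_isRatPS_DeltaN N

/-- A2: the generators have rational `q`-expansions. -/
theorem exists_rat_qExpansion_gens :
    ∃ g : Fin 3 → PowerSeries ℚ, ∀ i,
      (g i).map (algebraMap ℚ ℂ) = qExpansion 1 (fun z => gens N z i) := by
  have h : ∀ i : Fin 3, ∃ P : PowerSeries ℚ,
      PowerSeries.map (algebraMap ℚ ℂ) P = qExpansion 1 (fun z => gens N z i) :=
    fun i => (S23x.m05_isRatPS_iff _).mp (a2_isRatPS_gens N i)
  choose g hg using h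
  exact ⟨g, hg⟩

end Fermat.Agent.S23y
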