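/-
S23 route B, module H1_RATSPAN (helper87): `S₂(Γ₀(N))` is spanned by forms with rational
`q`-expansion, given the conjugation family (module F) as an explicit hypothesis.
-/
import Fermat.Agent.S23x.BoundedDenom
import Fermat.Agent.S23y.Descent
import Fermat.Prelude.Thm_ModularForm_sturm_bound_Gamma0

set_option autoImplicit false

open CuspForm ModularFormClass UpperHalfPlane CongruenceSubgroup

namespace Fermat.Agent.S23y

/-- The statement of module F (`exists_conj_family`) for all cusp forms of level `N`. -/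
def ConjFamily (N : ℕ) : Prop :=
  ∀ f : CuspForm (Gamma0 N) 2, ∃ C : Subalgebra ℚ ℂ, C.FG ∧ ∃ φ : PowerSeries C,
    φ.map (C.val : C →+* ℂ) = qExpansion 1 f ∧
    ∀ s : C →+* ℂ, ∃ f' : CuspForm (Gamma0 N) 2, qExpansion 1 f' = φ.map s

/-- Sturm bound plus one. -/
noncomputable def rsB (N : ℕ) : ℕ := ((2 : ℤ) * ((Gamma0 N).index : ℤ)).toNat / 12 + 1

/-- Truncation of the `q`-expansion at the Sturm bound. -/
noncomputable def rsT (N : ℕ) : CuspForm (Gamma0 N) 2 →ₗ[ℂ] (Fin (rsB N) → ℂ) where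
  toFun f := fun i => qCoeff (⇑f) (i : ℕ)
  map_add' f g := by ext i; exact Fermat.Agent.S23x.bd_qCoeff_add f g i
  map_smul' c f := by ext i; exact Fermat.Agent.S23x.bd_qCoeff_smul c f i

theorem rsT_apply (N : ℕ) (f : CuspForm (Gamma0 N) 2) (i : Fin (rsB N)) :
    rsT N f i = qCoeff (⇑f) (i : ℕ) := rfl

variable (N : ℕ) [NeZero N]

theorem rsT_injective : Function.Injective (rsT N) := by
  rw [← LinearMap.ker_eq_bot, LinearMap.ker_eq_bot']
  intro f hf
  have h0 := ModularForm.sturm_bound_Gamma0 N (ModularFormClass.modularForm f)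
    (fun n hn => by
      have := congrFun hf ⟨n, Nat.lt_succ_of_le hn⟩
      exact this)
  ext z
  have := DFunLike.congr_fun h0 z
  simpa using this

/-- Step B: an element of a finitely generated `ℚ`-subalgebra of `ℂ` which is fixed by all
specialisations is rational. -/
theorem rs_rat_of_fixed (C : Subalgebra ℚ ℂ) (hC : C.FG) (c : C)
    (h : ∀ s : C →+* ℂ, s c = (c : ℂ)) : ∃ r : ℚ, (c : ℂ) = (r : ℂ) := by
  set W : Submodule ℂ (Fin 2 → ℂ) := Submodule.span ℂ {![1, (c : ℂ)]} with hWdef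
  have hW : ∀ w ∈ W, ∃ C' : Subalgebra ℚ ℂ, C'.FG ∧ ∃ v : Fin 2 → C',
      (∀ i, (v i : ℂ) = w i) ∧ ∀ s : C' →+* ℂ, (fun i => s (v i)) ∈ W := by
    intro w hw
    obtain ⟨lam, rfl⟩ := Submodule.mem_span_singleton.mp hw
    set C' : Subalgebra ℚ ℂ := C ⊔ Algebra.adjoin ℚ {lam} with hC'def
    have hlam : lam ∈ C' :=
      (le_sup_right : Algebra.adjoin ℚ {lam} ≤ C') (Algebra.subset_adjoin rfl)
    have hc' : (c : ℂ) ∈ C' := (le_sup_left : C ≤ C') c.2
    have hfg : C'.FG := by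
      refine hC.sup ?_
      have := Subalgebra.fg_adjoin_finset (R := ℚ) ({lam} : Finset ℂ)
      simpa using this
    refine ⟨C', hfg, ![⟨lam, hlam⟩, ⟨lam, hlam⟩ * ⟨c, hc'⟩], ?_, ?_⟩
    · intro i
      fin_cases i <;> simp
    · intro s
      have hsc : s ⟨(c : ℂ), hc'⟩ = (c : ℂ) := by
        exact h (s.comp (Subalgebra.inclusion (le_sup_left : C ≤ C')).toRingHom)
      have hv : (fun i => s ((![⟨lam, hlam⟩, ⟨lam, hlam⟩ * ⟨c, hc'⟩] : Fin 2 → C') i)) =
          (s ⟨lam, hlam⟩) • ![1, (c : ℂ)] := by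
        funext i
        fin_cases i
        · show s ⟨lam, hlam⟩ = s ⟨lam, hlam⟩ * 1
          rw [mul_one]
        · show s (⟨lam, hlam⟩ * ⟨(c : ℂ), hc'⟩) = s ⟨lam, hlam⟩ * (c : ℂ)
          rw [map_mul, hsc]
      rw [hv]
      exact Submodule.smul_mem _ _ (Submodule.mem_span_singleton_self _)
  have hG := span_rat_of_specializations W hW
  by_contra hne
  push Not at hne
  have hzero : {w : Fin 2 → ℂ | w ∈ W ∧ ∀ i, ∃ r : ℚ, w i = r} ⊆ {0} := by
    rintro w ⟨hw, hr⟩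
    obtain ⟨lam, rfl⟩ := Submodule.mem_span_singleton.mp hw
    obtain ⟨r0, hr0⟩ := hr 0
    obtain ⟨r1, hr1⟩ := hr 1
    simp only [Pi.smul_apply, Matrix.cons_val_zero, Matrix.cons_val_one, smul_eq_mul,
      mul_one] at hr0 hr1
    by_cases hl : lam = 0
    · simp [hl]
    · exfalso
      apply hne (r1 / r0)
      have hr0' : (r0 : ℂ) ≠ 0 := hr0 ▸ hl
      rw [Rat.cast_div, eq_div_iff hr0', ← hr0, mul_comm]
      exact hr1
  have hbot : W ≤ ⊥ := by
    rw [← hG]
    exact Submodule.span_le.mpr (by simpa using hzero)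
  have h1 : ![1, (c : ℂ)] ∈ W := Submodule.mem_span_singleton_self _
  have h2 := hbot h1
  rw [Submodule.mem_bot] at h2
  have := congrFun h2 0
  simp at this

/-- Step A: forms whose coefficients below the Sturm bound are rational span everything. -/
theorem rs_span_trunc (hF : ConjFamily N) :
    Submodule.span ℂ {g : CuspForm (Gamma0 N) 2 |
      ∀ i : Fin (rsB N), ∃ r : ℚ, qCoeff (⇑g) (i : ℕ) = (r : ℂ)} = ⊤ := by
  set W : Submodule ℂ (Fin (rsB N) → ℂ) := LinearMap.range (rsT N) with hWdef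
  have hW : ∀ w ∈ W, ∃ C : Subalgebra ℚ ℂ, C.FG ∧ ∃ v : Fin (rsB N) → C,
      (∀ i, (v i : ℂ) = w i) ∧ ∀ s : C →+* ℂ, (fun i => s (v i)) ∈ W := by
    rintro _ ⟨f, rfl⟩
    obtain ⟨C, hC, φ, hφ, hs⟩ := hF f
    refine ⟨C, hC, fun i => PowerSeries.coeff (i : ℕ) φ, fun i => ?_, fun s => ?_⟩
    · rw [rsT_apply]
      unfold qCoeff
      rw [← hφ, PowerSeries.coeff_map]
      rfl
    · obtain ⟨f', hf'⟩ := hs s
      refine ⟨f', funext fun i => ?_⟩
      rw [rsT_apply]
      unfold qCoeff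
      rw [hf', PowerSeries.coeff_map]
  have hG := span_rat_of_specializations W hW
  rw [eq_top_iff]
  intro f _
  have hf : rsT N f ∈ W := ⟨f, rfl⟩
  rw [← hG] at hf
  have h2 : {w : Fin (rsB N) → ℂ | w ∈ W ∧ ∀ i, ∃ r : ℚ, w i = (r : ℂ)} ⊆
      (rsT N) '' {g : CuspForm (Gamma0 N) 2 |
        ∀ i : Fin (rsB N), ∃ r : ℚ, qCoeff (⇑g) (i : ℕ) = (r : ℂ)} := by
    rintro _ ⟨⟨g, rfl⟩, hr⟩
    exact ⟨g, hr, rfl⟩
  have h3 := Submodule.span_mono (R := ℂ) h2 hf
  rw [Submodule.span_image] at h3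
  obtain ⟨f', hf', hff'⟩ := h3
  rw [rsT_injective N hff'] at hf'
  exact hf'

/-- Step C: a form whose coefficients below the Sturm bound are rational has all coefficients
rational. -/
theorem rs_all_rat (hF : ConjFamily N) (g : CuspForm (Gamma0 N) 2)
    (hg : ∀ i : Fin (rsB N), ∃ r : ℚ, qCoeff (⇑g) (i : ℕ) = (r : ℂ)) (n : ℕ) :
    ∃ r : ℚ, qCoeff (⇑g) n = (r : ℂ) := by
  obtain ⟨C, hC, φ, hφ, hs⟩ := hF g
  have hcoe : ∀ m, ((PowerSeries.coeff m φ : C) : ℂ) = qCoeff (⇑g) m := by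
    intro m
    unfold qCoeff
    rw [← hφ, PowerSeries.coeff_map]
    rfl
  have hfix : ∀ s : C →+* ℂ, ∀ m, s (PowerSeries.coeff m φ) = ((PowerSeries.coeff m φ : C) : ℂ) := by
    intro s m
    obtain ⟨f', hf'⟩ := hs s
    have hcoe' : ∀ m, qCoeff (⇑f') m = s (PowerSeries.coeff m φ) := by
      intro m
      unfold qCoeff
      rw [hf', PowerSeries.coeff_map]
    have hf'g : f' = g := by
      apply rsT_injective N
      funext i
      rw [rsT_apply, rsT_apply]
      obtain ⟨r, hr⟩ := hg i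
      have h2 : PowerSeries.coeff (i : ℕ) φ = algebraMap ℚ C r := by
        apply Subtype.ext
        rw [hcoe, hr]
        rfl
      rw [hcoe', h2, hr]
      exact eq_ratCast (s.comp (algebraMap ℚ C)) r
    rw [← hcoe', hf'g, hcoe]
  obtain ⟨r, hr⟩ := rs_rat_of_fixed C hC (PowerSeries.coeff n φ) (fun s => hfix s n)
  exact ⟨r, by rw [← hcoe, hr]⟩

/-- H1 with module F as an explicit hypothesis. -/
theorem span_rational_forms_of (hF : ConjFamily N) :
    Submodule.span ℂ {f : CuspForm (CongruenceSubgroup.Gamma0 N) 2 |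
      ∀ n, ∃ r : ℚ, ModularFormClass.qCoeff f n = r} = ⊤ := by
  rw [eq_top_iff, ← rs_span_trunc N hF]
  exact Submodule.span_mono fun g hg => rs_all_rat N hF g hg

end Fermat.Agent.S23y
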