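/-
S23 project: interface skeleton (all statements are stubs; helper only, never imported by S23.lean).
Route: function field of X0(N) is generated over level one by Delta(Nz)/Delta(z); graded
integrality; specialisation of coefficients; Hecke bounded denominators (uses landed S22).
-/
import Mathlib
import Fermat.Prelude.Def_CuspForm_IntegralStructure
import Fermat.Prelude.Def_CuspForm_HeckeAlgebra

set_option autoImplicit false

namespace Fermat.Agent.S23y.Spec

open UpperHalfPlane ModularForm ModularFormClass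
open scoped MatrixGroups Manifold ModularForm

/-- `f` is the underlying function of a holomorphic modular form of weight `k` on `Γ`. -/
def IsMF (Γ : Subgroup (GL (Fin 2) ℝ)) (k : ℤ) (f : ℍ → ℂ) : Prop :=
  ∃ F : ModularForm Γ k, ⇑F = f

/-- `f` is the underlying function of a cusp form of weight `k` on `Γ`. -/
def IsCF (Γ : Subgroup (GL (Fin 2) ℝ)) (k : ℤ) (f : ℍ → ℂ) : Prop :=
  ∃ F : CuspForm Γ k, ⇑F = f

/-- `Γ₀(N)` inside `GL₂(ℝ)`. -/
abbrev G0 (N : ℕ) : Subgroup (GL (Fin 2) ℝ) :=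
  ((CongruenceSubgroup.Gamma0 N : Subgroup SL(2, ℤ)) : Subgroup (GL (Fin 2) ℝ))

/-- The index of `Γ₀(N)` in `SL₂(ℤ)`. -/
noncomputable def psi (N : ℕ) : ℕ := (CongruenceSubgroup.Gamma0 N).index

/-- `z ↦ N z` on the upper half plane. -/
noncomputable def scaleH (N : ℕ) [NeZero N] (z : ℍ) : ℍ :=
  ⟨(N : ℂ) * z, by
    have h : 0 < (N : ℝ) := by exact_mod_cast Nat.pos_of_ne_zero (NeZero.ne N)
    simpa using mul_pos h z.im_pos⟩

/-- `Δ(N z)`. -/
noncomputable def DeltaN (N : ℕ) [NeZero N] : ℍ → ℂ := fun z => ModularForm.discriminant (scaleH N z)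

/-- weights of the three generators `E₄, E₆, Δ_N`. -/
def wt : Fin 3 → ℕ := ![4, 6, 12]

/-- the three generators evaluated at `z`. -/
noncomputable def gens (N : ℕ) [NeZero N] (z : ℍ) : Fin 3 → ℂ := ![E₄ z, E₆ z, DeltaN N z]

/-- evaluation of a polynomial in the generators. -/
noncomputable def ev (N : ℕ) [NeZero N] (P : MvPolynomial (Fin 3) ℂ) : ℍ → ℂ :=
  fun z => MvPolynomial.eval (gens N z) P

variable (N : ℕ) [NeZero N]

/-! ### A. generators -/

/-- A1: level one forms are isobaric polynomials in `E₄, E₆`. -/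
theorem levelOne_eq_ev {k : ℤ} {f : ℍ → ℂ} (hf : IsMF 𝒮ℒ k f) :
    ∃ P : MvPolynomial (Fin 3) ℂ, (∀ m : ℕ, (m : ℤ) = k → P.IsWeightedHomogeneous wt m) ∧
      (k < 0 → P = 0) ∧ (2 : Fin 3) ∉ P.vars ∧ ev N P = f := by
  sorry

/-- A1b: isobaric polynomials in `E₄, E₆` alone are level one forms. -/
theorem isMF_levelOne_ev {m : ℕ} {P : MvPolynomial (Fin 3) ℂ} (hP : P.IsWeightedHomogeneous wt m)
    (h2 : (2 : Fin 3) ∉ P.vars) : IsMF 𝒮ℒ m (ev N P) := by
  sorry

/-- A2: the generators have rational `q`-expansions. -/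
theorem exists_rat_qExpansion_gens :
    ∃ g : Fin 3 → PowerSeries ℚ, ∀ i,
      (g i).map (algebraMap ℚ ℂ) = qExpansion 1 (fun z => gens N z i) := by
  sorry

/-- A3a: `Δ_N` is a modular form of weight 12 on `Γ₀(N)`. -/
theorem isMF_DeltaN : IsMF (G0 N) 12 (DeltaN N) := by
  sorry

/-- A3b: level one forms are forms on `Γ₀(N)`. -/
theorem IsMF.of_levelOne {k : ℤ} {f : ℍ → ℂ} (hf : IsMF 𝒮ℒ k f) : IsMF (G0 N) k f := by
  sorry

/-- A3c: isobaric polynomials in the generators are modular forms on `Γ₀(N)`. -/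
theorem isMF_ev {m : ℕ} {P : MvPolynomial (Fin 3) ℂ} (hP : P.IsWeightedHomogeneous wt m) :
    IsMF (G0 N) m (ev N P) := by
  sorry

/-- A3d: `q`-expansion of `ev P`. -/
theorem qExpansion_ev (P : MvPolynomial (Fin 3) ℂ) :
    qExpansion 1 (ev N P) =
      MvPolynomial.eval₂ (PowerSeries.C (R := ℂ)) (fun i => qExpansion 1 (fun z => gens N z i)) P := by
  sorry

/-- A3e: a form on `Γ₀(N)` with vanishing `q`-expansion vanishes. -/
theorem IsMF.eq_zero_of_qExpansion {k : ℤ} {f : ℍ → ℂ} (hf : IsMF (G0 N) k f)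
    (h : qExpansion 1 f = 0) : f = 0 := by
  sorry

/-- algebra of `IsMF`. -/
theorem IsMF.mul {Γ : Subgroup (GL (Fin 2) ℝ)} [Γ.HasDetPlusMinusOne] {k l : ℤ} {f g : ℍ → ℂ}
    (hf : IsMF Γ k f) (hg : IsMF Γ l g) : IsMF Γ (k + l) (f * g) := by
  sorry

theorem IsMF.add {Γ : Subgroup (GL (Fin 2) ℝ)} {k : ℤ} {f g : ℍ → ℂ}
    (hf : IsMF Γ k f) (hg : IsMF Γ k g) : IsMF Γ k (f + g) := by
  sorry

theorem IsMF.smul {Γ : Subgroup (GL (Fin 2) ℝ)} {k : ℤ} {f : ℍ → ℂ} (c : ℂ)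
    (hf : IsMF Γ k f) : IsMF Γ k (c • f) := by
  sorry

theorem IsMF.pow {Γ : Subgroup (GL (Fin 2) ℝ)} [Γ.HasDetPlusMinusOne] {k : ℤ} {f : ℍ → ℂ}
    (hf : IsMF Γ k f) (n : ℕ) : IsMF Γ (n * k) (f ^ n) := by
  sorry

/-- `q`-expansions are multiplicative on forms. -/
theorem IsMF.qExpansion_mul {k l : ℤ} {f g : ℍ → ℂ} (hf : IsMF (G0 N) k f)
    (hg : IsMF (G0 N) l g) : qExpansion 1 (f * g) = qExpansion 1 f * qExpansion 1 g := by
  sorry

/-- holomorphic functions on `ℍ` form a domain (stated for forms). -/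
theorem IsMF.eq_zero_or_eq_zero_of_mul_eq_zero {k l : ℤ} {f g : ℍ → ℂ} (hf : IsMF (G0 N) k f)
    (hg : IsMF (G0 N) l g) (h : f * g = 0) : f = 0 ∨ g = 0 := by
  sorry

theorem IsCF.isMF {Γ : Subgroup (GL (Fin 2) ℝ)} {k : ℤ} {f : ℍ → ℂ} (hf : IsCF Γ k f) :
    IsMF Γ k f := by
  sorry

theorem IsMF.neg {Γ : Subgroup (GL (Fin 2) ℝ)} {k : ℤ} {f : ℍ → ℂ}
    (hf : IsMF Γ k f) : IsMF Γ k (-f) := by
  sorry

theorem IsMF.sub {Γ : Subgroup (GL (Fin 2) ℝ)} {k : ℤ} {f g : ℍ → ℂ}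
    (hf : IsMF Γ k f) (hg : IsMF Γ k g) : IsMF Γ k (f - g) := by
  sorry

theorem psi_pos : 0 < psi N := by
  sorry

/-! ### B. norm polynomial -/

/-- B1: the homogeneous norm polynomial of a pair of forms. -/
theorem exists_normPoly {la lb : ℤ} {a b : ℍ → ℂ} (ha : IsMF (G0 N) la a)
    (hb : IsMF (G0 N) lb b) (hb0 : b ≠ 0) :
    ∃ s : ℕ → ℍ → ℂ, (∀ i, i ≤ psi N → IsMF 𝒮ℒ (i * la + ((psi N : ℤ) - i) * lb) (s i)) ∧
      s 0 ≠ 0 ∧ ∑ i ∈ Finset.range (psi N + 1), s i * a ^ (psi N - i) * b ^ i = 0 := by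
  sorry

/-- B2: every form on `Γ₀(N)` is a root of a monic polynomial of degree `psi N` with level one
coefficients of the right weights. -/
theorem exists_monicPoly {k : ℤ} {a : ℍ → ℂ} (ha : IsMF (G0 N) k a) :
    ∃ e : ℕ → ℍ → ℂ, (∀ i, IsMF 𝒮ℒ ((i + 1 : ℕ) * k) (e i)) ∧
      a ^ psi N + ∑ i ∈ Finset.range (psi N), e i * a ^ (psi N - 1 - i) = 0 := by
  sorry

/-! ### C. graded integrality -/

/-- C1: a "meromorphic form" `F / G` which is integral over level one is a modular form. -/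
theorem isMF_of_integral {k l : ℤ} {n : ℕ} {F G : ℍ → ℂ} (hF : IsMF (G0 N) (k + l) F)
    (hG : IsMF (G0 N) l G) (hG0 : G ≠ 0) (c : ℕ → ℍ → ℂ)
    (hc : ∀ i, IsMF 𝒮ℒ ((i + 1 : ℕ) * k) (c i))
    (h : F ^ (n + 1) + ∑ i ∈ Finset.range (n + 1), c i * F ^ (n - i) * G ^ (i + 1) = 0) :
    ∃ H : ℍ → ℂ, IsMF (G0 N) k H ∧ H * G = F := by
  sorry

/-- C2: cusp forms: `f ^ M / Δ` is a modular form once `N ≤ M`. -/
theorem exists_pow_eq_discriminant_mul {k : ℤ} {f : ℍ → ℂ} (hf : IsCF (G0 N) k f) {M : ℕ}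
    (hM : N ≤ M) :
    ∃ g : ℍ → ℂ, IsMF (G0 N) (M * k - 12) g ∧ f ^ M = (fun z => ModularForm.discriminant z) * g := by
  sorry

/-- C3: conversely a form with `f ^ M = Δ g` is a cusp form. -/
theorem isCF_of_pow_eq_discriminant_mul {k l : ℤ} {f g : ℍ → ℂ} (hf : IsMF (G0 N) k f) {M : ℕ}
    (hM : 0 < M) (hg : IsMF (G0 N) l g)
    (h : f ^ M = (fun z => ModularForm.discriminant z) * g) : IsCF (G0 N) k f := by
  sorry

/-! ### E. generation of the function field -/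

/-- E: every ratio of two forms of the same weight on `Γ₀(N)` is a ratio of two isobaric
polynomials in `E₄, E₆, Δ_N`. -/
theorem exists_presentation {l : ℤ} {a b : ℍ → ℂ} (ha : IsMF (G0 N) l a) (hb : IsMF (G0 N) l b)
    (hb0 : b ≠ 0) :
    ∃ (m : ℕ) (A B : MvPolynomial (Fin 3) ℂ), A.IsWeightedHomogeneous wt m ∧
      B.IsWeightedHomogeneous wt m ∧ ev N B ≠ 0 ∧ a * ev N B = b * ev N A := by
  sorry

/-! ### F. conjugation by specialisation -/

/-- F: the `q`-expansion of a cusp form has coefficients in a finitely generated `ℚ`-subalgebra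
`C` of `ℂ`, and every ring hom `C → ℂ` maps it to the `q`-expansion of a cusp form. -/
theorem exists_conj_family (f : CuspForm (CongruenceSubgroup.Gamma0 N) 2) :
    ∃ C : Subalgebra ℚ ℂ, C.FG ∧ ∃ φ : PowerSeries C,
      φ.map (C.val : C →+* ℂ) = qExpansion 1 f ∧
      ∀ s : C →+* ℂ, ∃ f' : CuspForm (CongruenceSubgroup.Gamma0 N) 2,
        qExpansion 1 f' = φ.map s := by
  sorry

/-! ### G. descent (pure algebra) -/

/-- G: a subspace of `ℂ^B` closed under all specialisations is spanned by its rational points. -/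
theorem span_rat_of_specializations {B : ℕ} (W : Submodule ℂ (Fin B → ℂ))
    (h : ∀ w ∈ W, ∃ C : Subalgebra ℚ ℂ, C.FG ∧ ∃ v : Fin B → C,
      (∀ i, (v i : ℂ) = w i) ∧ ∀ s : C →+* ℂ, (fun i => s (v i)) ∈ W) :
    Submodule.span ℂ {w : Fin B → ℂ | w ∈ W ∧ ∀ i, ∃ r : ℚ, w i = r} = W := by
  sorry

/-! ### H. bounded denominators (uses the landed S22) -/

/-- H1: a cusp form whose first coefficients (up to the Sturm bound) are rational is spanned by
cusp forms with all coefficients rational.  (Combination of F, G and Sturm.) -/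
theorem span_rational_forms :
    Submodule.span ℂ {f : CuspForm (CongruenceSubgroup.Gamma0 N) 2 |
      ∀ n, ∃ r : ℚ, ModularFormClass.qCoeff f n = r} = ⊤ := by
  sorry

/-- H2: rational coefficients have bounded denominators. -/
theorem exists_nsmul_mem_intLattice (f : CuspForm (CongruenceSubgroup.Gamma0 N) 2)
    (hf : ∀ n, ∃ r : ℚ, ModularFormClass.qCoeff f n = r) :
    ∃ D : ℕ, 0 < D ∧ D • f ∈ CuspForm.intLattice N 2 := by
  sorry

/-- the goal. -/
theorem hasIntegralStructure : CuspForm.HasIntegralStructure N 2 := by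
  sorry

end Fermat.Agent.S23y.Spec
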